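import Fermat.Agent.Extra.LTGen.Dihedral.Data
import Fermat.Agent.LT.Dihedral.Coeff

/-!
# The coefficients of the general dihedral form and their Hecke recursion

Copy of the data-dependent part of `LT/Dihedral/Coeff` over `GenDihData`.
-/

set_option autoImplicit false
set_option maxHeartbeats 400000

noncomputable section

namespace Fermat.Agent.Extra.LTGen

open Fermat.Agent.LT Fermat.Agent.LT.Dihedral
open NumberField IsDedekindDomain Fermat.Agent.LT.Adelic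
open scoped nonZeroDivisors

variable {K M : Type*} [Field K] [NumberField K] [Field M] [NumberField M] [Algebra K M]

namespace GenDihData

variable (D : GenDihData K M)

/-- The coefficient attached to a fractional ideal of `K`. -/
def bK (J : FractionalIdeal (𝓞 K)⁰ K) : ℂ :=
  ∑ᶠ I ∈ {I : Ideal (𝓞 M) | ((I * D.toQuad.conjI I : Ideal (𝓞 M)) : FractionalIdeal (𝓞 M)⁰ M) =
    FractionalIdeal.extendedHom M (𝓞 M) J}, D.chi I

/-- The coefficient of frequency `α` at `diag(t, 1)`, normalised. -/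
def coef (t : (FiniteAdeleRing (𝓞 K) K)ˣ) (α : K) : ℂ :=
  ((Real.sqrt (FractionalIdeal.absNorm (idI t) : ℚ))⁻¹ : ℝ) *
    D.bK (FractionalIdeal.spanSingleton (𝓞 K)⁰ α * tdI t)

/-- The ideals with a given norm. -/
def normSet (B : Ideal (𝓞 M)) : Set (Ideal (𝓞 M)) := {I | I * D.toQuad.conjI I = B}

theorem mem_normSet {B I : Ideal (𝓞 M)} : I ∈ D.normSet B ↔ I * D.toQuad.conjI I = B := Iff.rfl

theorem normSet_subset (B : Ideal (𝓞 M)) :
    D.normSet B ⊆ {I | (Ideal.absNorm B : 𝓞 M) ∈ I} := fun I hI =>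
  Ideal.mul_le_left (show _ ∈ I * D.toQuad.conjI I from (D.mem_normSet.mp hI).symm ▸ Ideal.absNorm_mem B)

theorem normSet_bot : D.normSet ⊥ = {⊥} := by
  ext I
  rw [mem_normSet, Set.mem_singleton_iff, ← Ideal.zero_eq_bot, mul_eq_zero]
  simp [Quad.conjI_eq_bot_iff]

theorem normSet_finite (B : Ideal (𝓞 M)) : (D.normSet B).Finite := by
  rcases eq_or_ne B ⊥ with rfl | hB
  · rw [normSet_bot]; exact Set.finite_singleton _
  · exact (exists_card_ideals_natCast_mem _ (Ideal.absNorm_eq_zero_iff.not.mpr hB)).1.subset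
      (D.normSet_subset B)

theorem bcoef_eq (B : Ideal (𝓞 M)) : D.bcoef B = ∑ I ∈ (D.normSet_finite B).toFinset, D.chi I :=
  finsum_mem_eq_finite_toFinset_sum _ (D.normSet_finite B)

theorem bcoef_top : D.bcoef ⊤ = 1 := by
  rw [bcoef, show {I : Ideal (𝓞 M) | I * D.toQuad.conjI I = ⊤} = {⊤} from ?_, finsum_mem_singleton]
  · rw [← Ideal.one_eq_top, map_one]
  ext I
  refine ⟨fun h => top_unique (h ▸ Ideal.mul_le_left), fun h => ?_⟩
  rw [Set.mem_singleton_iff.mp h]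
  simp [Quad.conjI_top]

/-- At an integral ideal the coefficient is `bcoef`. -/
theorem bK_coeIdeal (A : Ideal (𝓞 K)) :
    D.bK (A : FractionalIdeal (𝓞 K)⁰ K) = D.bcoef (extI K M A) := by
  simp only [bK, bcoef, DihData.extended_coeIdeal, FractionalIdeal.coeIdeal_inj]

theorem bK_one : D.bK 1 = 1 := by
  rw [← FractionalIdeal.coeIdeal_top, bK_coeIdeal, show extI K M ⊤ = ⊤ from Ideal.map_top _,
    bcoef_top]

theorem bK_zero : D.bK 0 = 0 := by
  rw [← FractionalIdeal.coeIdeal_bot, bK_coeIdeal, bcoef,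
    show extI K M (⊥ : Ideal (𝓞 K)) = ⊥ from Ideal.map_bot, show {I : Ideal (𝓞 M) | _} = {⊥} from
      D.normSet_bot, finsum_mem_singleton, D.chi_bot]

/-- The coefficient vanishes off the integral ideals. -/
theorem bK_eq_zero {J : FractionalIdeal (𝓞 K)⁰ K} (hJ : ¬ J ≤ 1) : D.bK J = 0 := by
  have h : {I : Ideal (𝓞 M) | ((I * D.toQuad.conjI I : Ideal (𝓞 M)) : FractionalIdeal (𝓞 M)⁰ M) =
      FractionalIdeal.extendedHom M (𝓞 M) J} = ∅ := Set.eq_empty_of_forall_notMem fun I hI =>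
    hJ (FractionalIdeal.le_one_of_extendedHom_le_one M (𝓞 M)
      (hI ▸ FractionalIdeal.coeIdeal_le_one))
  rw [bK, h, finsum_mem_empty]

/-- The index set of `bK` is finite. -/
theorem finite_bK_index (J : FractionalIdeal (𝓞 K)⁰ K) :
    {I : Ideal (𝓞 M) | ((I * D.toQuad.conjI I : Ideal (𝓞 M)) : FractionalIdeal (𝓞 M)⁰ M) =
      FractionalIdeal.extendedHom M (𝓞 M) J}.Finite := by
  by_cases hJ : J ≤ 1
  · obtain ⟨A, rfl⟩ := FractionalIdeal.le_one_iff_exists_coeIdeal.mp hJ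
    simp only [DihData.extended_coeIdeal, FractionalIdeal.coeIdeal_inj]
    exact D.normSet_finite _
  · refine Set.finite_empty.subset fun I hI => hJ ?_
    exact FractionalIdeal.le_one_of_extendedHom_le_one M (𝓞 M)
      (hI ▸ FractionalIdeal.coeIdeal_le_one)

/-- The ideals whose norm times `V` is `B`. -/
def divSet (B V : Ideal (𝓞 M)) : Set (Ideal (𝓞 M)) := {I | I * D.toQuad.conjI I * V = B}

theorem bK_mul_inv {A : Ideal (𝓞 K)} {v : HeightOneSpectrum (𝓞 K)} :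
    D.bK ((A : FractionalIdeal (𝓞 K)⁰ K) * (v.asIdeal : FractionalIdeal (𝓞 K)⁰ K)⁻¹) =
      ∑ᶠ I ∈ D.divSet (extI K M A) (extI K M v.asIdeal), D.chi I := by
  have hv : (extI K M v.asIdeal : FractionalIdeal (𝓞 M)⁰ M) ≠ 0 :=
    FractionalIdeal.coeIdeal_ne_zero.mpr (DihData.extI_ne_bot v.ne_bot)
  simp only [bK, map_mul, map_inv₀, DihData.extended_coeIdeal, eq_mul_inv_iff_mul_eq₀ hv,
    ← FractionalIdeal.coeIdeal_mul, FractionalIdeal.coeIdeal_inj, divSet]

theorem dvd_of_mem_normSet_mul {V A I : Ideal (𝓞 M)} (hV : V.IsPrime) (hV0 : V ≠ ⊥)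
    (hI : I ∈ D.normSet (A * V)) : V ∣ I ∨ D.toQuad.conjI V ∣ I := by
  rcases (Ideal.prime_of_isPrime hV0 hV).dvd_or_dvd (hI ▸ dvd_mul_left V A) with h | h
  · exact Or.inl h
  · exact Or.inr (by simpa using D.toQuad.conjI_dvd h)

theorem conjI_mul_self (V I : Ideal (𝓞 M)) :
    V * I * D.toQuad.conjI (V * I) = I * D.toQuad.conjI I * (V * D.toQuad.conjI V) := by
  rw [Quad.conjI_mul]; ring

/-- The inert recursion. -/
theorem bcoef_inert {V : Ideal (𝓞 M)} (B : Ideal (𝓞 M)) (hV : V.IsPrime) (hV0 : V ≠ ⊥)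
    (hc : D.toQuad.conjI V = V) (hchi : D.chi V = -1) :
    D.bcoef V = 0 ∧ D.bcoef (B * V) + ∑ᶠ I ∈ D.divSet B V, D.chi I = 0 := by
  classical
  constructor
  · have h : {I : Ideal (𝓞 M) | I * D.toQuad.conjI I = V} = ∅ :=
      Set.eq_empty_of_forall_notMem fun I hI => by
        have h1 : V ∣ I := by
          rcases D.dvd_of_mem_normSet_mul (A := ⊤) (I := I) hV hV0 (by
            rw [mem_normSet, Ideal.top_mul]; exact hI) with h | h
          · exact h
          · rwa [hc] at h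
        obtain ⟨J, rfl⟩ := h1
        have h2 : J * D.toQuad.conjI J * (V * V) = V := by
          conv_rhs => rw [← hI, conjI_mul_self, hc]
        have h3 : J * D.toQuad.conjI J * V = 1 := mul_right_cancel₀ hV0 (by
          rw [one_mul, mul_assoc]; exact h2)
        exact hV.ne_top (top_unique (Ideal.one_eq_top (R := 𝓞 M) ▸ h3 ▸ Ideal.mul_le_right))
    rw [bcoef, h, finsum_mem_empty]
  have hset : D.normSet (B * V) = (fun J => V * J) '' D.divSet B V := by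
    ext I
    constructor
    · intro hI
      have h1 : V ∣ I := by
        rcases D.dvd_of_mem_normSet_mul hV hV0 hI with h | h
        · exact h
        · rwa [hc] at h
      obtain ⟨J, rfl⟩ := h1
      refine ⟨J, mul_right_cancel₀ hV0 ?_, rfl⟩
      have e : V * J * D.toQuad.conjI (V * J) = B * V := hI
      rw [conjI_mul_self, hc] at e
      rw [mul_assoc]
      exact e
    · rintro ⟨J, hJ, rfl⟩
      rw [mem_normSet, conjI_mul_self, hc, ← mul_assoc, hJ]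
  rw [bcoef, show {I : Ideal (𝓞 M) | I * D.toQuad.conjI I = B * V} = _ from hset,
    finsum_mem_image fun a _ b _ h => mul_left_cancel₀ hV0 h]
  have hneg : ∀ J, D.chi (V * J) = -D.chi J := fun J => by rw [map_mul, hchi, neg_one_mul]
  simp only [hneg]
  have hfin : (D.divSet B V).Finite := by
    refine Set.Finite.of_finite_image ?_ (fun a _ b _ h => mul_left_cancel₀ hV0 h)
    exact hset ▸ D.normSet_finite (B * V)
  rw [finsum_mem_eq_finite_toFinset_sum _ hfin, finsum_mem_eq_finite_toFinset_sum _ hfin,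
    Finset.sum_neg_distrib, neg_add_cancel]

/-- The split recursion. -/
theorem bcoef_split {Q : Ideal (𝓞 M)} (B : Ideal (𝓞 M)) (hQ : Q.IsPrime) (hQ0 : Q ≠ ⊥)
    (hne : D.toQuad.conjI Q ≠ Q) (hchi : D.chi Q * D.chi (D.toQuad.conjI Q) = 1) :
    D.bcoef (B * (Q * D.toQuad.conjI Q)) + ∑ᶠ I ∈ D.divSet B (Q * D.toQuad.conjI Q), D.chi I =
      (D.chi Q + D.chi (D.toQuad.conjI Q)) * D.bcoef B := by
  classical
  set Q' := D.toQuad.conjI Q with hQ'
  have hQ'0 : Q' ≠ ⊥ := fun h => hQ0 (D.toQuad.conjI_eq_bot_iff.mp h)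
  have hQ'p : Q'.IsPrime := by
    rw [hQ', Quad.conjI]
    exact Ideal.map_isPrime_of_equiv _
  have hconj' : D.toQuad.conjI Q' = Q := D.toQuad.conjI_conjI Q
  have hndvd : ¬ Q' ∣ Q := fun h => hne ((hQ.isMaximal hQ0).eq_of_le hQ'p.ne_top
    (Ideal.dvd_iff_le.mp h)).symm
  have hV0 : Q * Q' ≠ 0 := mul_ne_zero hQ0 hQ'0
  set S := (D.normSet_finite (B * (Q * Q'))).toFinset with hS
  set S₀ := (D.normSet_finite B).toFinset with hS₀
  have hmem : ∀ {I}, I ∈ S ↔ I * D.toQuad.conjI I = B * (Q * Q') := by simp [hS, mem_normSet]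
  have hmem₀ : ∀ {I}, I ∈ S₀ ↔ I * D.toQuad.conjI I = B := by simp [hS₀, mem_normSet]
  have hfilter : ∀ P, P ≠ ⊥ → P * D.toQuad.conjI P = Q * Q' →
      S.filter (P ∣ ·) = S₀.image (P * ·) := by
    intro P hP0 hP
    ext I
    simp only [Finset.mem_filter, Finset.mem_image, hmem, hmem₀]
    constructor
    · rintro ⟨hI, J, rfl⟩
      exact ⟨J, mul_right_cancel₀ hV0 (by rw [← hI, conjI_mul_self, hP]), rfl⟩
    · rintro ⟨J, hJ, rfl⟩
      exact ⟨by rw [conjI_mul_self, hP, hJ], dvd_mul_right _ _⟩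
  have hsum : ∀ P, P ≠ ⊥ → P * D.toQuad.conjI P = Q * Q' →
      ∑ I ∈ S.filter (P ∣ ·), D.chi I = D.chi P * ∑ I ∈ S₀, D.chi I := fun P hP0 hP => by
    rw [hfilter P hP0 hP, Finset.sum_image fun a _ b _ h => mul_left_cancel₀ hP0 h, Finset.mul_sum]
    exact Finset.sum_congr rfl fun J _ => map_mul _ _ _
  have hunion : S.filter (Q ∣ ·) ∪ S.filter (Q' ∣ ·) = S := by
    ext I
    simp only [Finset.mem_union, Finset.mem_filter]
    refine ⟨fun h => h.elim And.left And.left, fun hI => ?_⟩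
    rcases D.dvd_of_mem_normSet_mul (A := B * Q') hQ hQ0 (I := I)
      (by rw [mem_normSet, hmem.mp hI]; ring) with h | h
    · exact Or.inl ⟨hI, h⟩
    · exact Or.inr ⟨hI, h⟩
  have hdiv : D.divSet B (Q * Q') = (fun J => Q * Q' * J) ⁻¹'
      ↑(S.filter (Q ∣ ·) ∩ S.filter (Q' ∣ ·)) := by
    ext J
    simp only [divSet, Set.mem_ofPred_eq, Set.mem_preimage, Finset.coe_inter, Finset.coe_filter,
      Set.mem_inter_iff, hmem, Quad.conjI_mul, hconj', ← hQ']
    constructor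
    · intro h
      have e : Q * Q' * J * (Q' * Q * D.toQuad.conjI J) = B * (Q * Q') := by rw [← h]; ring
      exact ⟨⟨e, (dvd_mul_right Q Q').mul_right J⟩, e, (dvd_mul_left Q' Q).mul_right J⟩
    · rintro ⟨⟨e, -⟩, -⟩
      exact mul_right_cancel₀ hV0 (by rw [← e]; ring)
  have hinter : ∀ I ∈ S.filter (Q ∣ ·) ∩ S.filter (Q' ∣ ·), ∃ J, Q * Q' * J = I := by
    intro I hI
    simp only [Finset.mem_inter, Finset.mem_filter] at hI
    obtain ⟨J, rfl⟩ := hI.1.2
    obtain ⟨L, rfl⟩ := ((Ideal.prime_of_isPrime hQ'0 hQ'p).dvd_or_dvd hI.2.2).resolve_left hndvd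
    exact ⟨L, mul_assoc _ _ _⟩
  have hdivsum : ∑ᶠ I ∈ D.divSet B (Q * Q'), D.chi I =
      ∑ I ∈ S.filter (Q ∣ ·) ∩ S.filter (Q' ∣ ·), D.chi I := by
    rw [← finsum_mem_coe_finset]
    refine finsum_mem_eq_of_bijOn (fun J => Q * Q' * J) ⟨fun J hJ => ?_, fun a _ b _ h =>
      mul_left_cancel₀ hV0 h, fun I hI => ?_⟩ fun J _ => ?_
    · rw [hdiv] at hJ; exact hJ
    · obtain ⟨J, rfl⟩ := hinter I hI
      exact ⟨J, by rw [hdiv]; exact hI, rfl⟩
    · rw [map_mul, map_mul, hchi, one_mul]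
  rw [hdivsum, bcoef_eq, ← hS, bcoef_eq, ← hS₀, add_mul, ← hsum Q hQ0 rfl,
    ← hsum Q' hQ'0 (by rw [hconj', mul_comm])]
  have h := Finset.sum_union_inter (s₁ := S.filter (Q ∣ ·)) (s₂ := S.filter (Q' ∣ ·)) (f := D.chi)
  rwa [hunion] at h

/-- The eigenvalue at an inert or split place. -/
theorem bK_rec_ideal {v : HeightOneSpectrum (𝓞 K)} (hv : D.cond ∉ v.asIdeal) (A : Ideal (𝓞 K)) :
    D.bK ((A : FractionalIdeal (𝓞 K)⁰ K) * v.asIdeal) +
        D.bK ((A : FractionalIdeal (𝓞 K)⁰ K) * (v.asIdeal : FractionalIdeal (𝓞 K)⁰ K)⁻¹) =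
      D.eig v * D.bK (A : FractionalIdeal (𝓞 K)⁰ K) := by
  rw [← FractionalIdeal.coeIdeal_mul, bK_coeIdeal, bK_mul_inv, bK_coeIdeal, eig,
    show extI K M (A * v.asIdeal) = extI K M A * extI K M v.asIdeal from Ideal.map_mul _ _ _]
  have hV0 : extI K M v.asIdeal ≠ ⊥ := DihData.extI_ne_bot v.ne_bot
  rcases D.inert_or_split v hv with ⟨hV, hchi, -⟩ | ⟨Q, hQ, hne, he, hchi⟩
  · obtain ⟨h0, h1⟩ := D.bcoef_inert (extI K M A) hV hV0 (Quad.conjI_extI _ _) hchi
    rw [h0, zero_mul, h1]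
  · have hQ0 : Q ≠ ⊥ := fun h => hV0 (by rw [he, h, Ideal.bot_mul])
    have h1 := D.bcoef_split (extI K M A) hQ hQ0 hne hchi
    have h2 := D.bcoef_split ⊤ hQ hQ0 hne hchi
    have h3 : D.divSet ⊤ (Q * D.toQuad.conjI Q) = ∅ := Set.eq_empty_of_forall_notMem fun I hI =>
      hQ.ne_top (top_unique (hI ▸ (Ideal.mul_le_right.trans Ideal.mul_le_left)))
    rw [Ideal.top_mul, h3, finsum_mem_empty, add_zero, bcoef_top, mul_one] at h2
    rw [he, h2, h1]

/-- The Hecke recursion of the coefficients. -/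
theorem bK_rec {v : HeightOneSpectrum (𝓞 K)} (hv : D.cond ∉ v.asIdeal)
    {J : FractionalIdeal (𝓞 K)⁰ K} (hJ : J ≤ 1) :
    D.bK (J * v.asIdeal) + D.bK (J * (v.asIdeal : FractionalIdeal (𝓞 K)⁰ K)⁻¹) =
      D.eig v * D.bK J := by
  obtain ⟨A, rfl⟩ := FractionalIdeal.le_one_iff_exists_coeIdeal.mp hJ
  exact D.bK_rec_ideal hv A

/-- The relation behind the Hecke eigenvalue of the dihedral form. -/
theorem coef_rec {v : HeightOneSpectrum (𝓞 K)} (hv : D.cond ∉ v.asIdeal)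
    (t π : (FiniteAdeleRing (𝓞 K) K)ˣ)
    (hπ : idI π = (v.asIdeal : FractionalIdeal (𝓞 K)⁰ K)) (α : K)
    [Decidable (FractionalIdeal.spanSingleton (𝓞 K)⁰ α * tdI t ≤ 1)] :
    D.coef (t * π⁻¹) α +
        (if FractionalIdeal.spanSingleton (𝓞 K)⁰ α * tdI t ≤ 1 then
          (Ideal.absNorm v.asIdeal : ℂ) else 0) * D.coef (t * π) α =
      (Real.sqrt (Ideal.absNorm v.asIdeal) : ℂ) * D.eig v * D.coef t α := by
  set q : ℝ := (Ideal.absNorm v.asIdeal : ℝ) with hq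
  have hqpos : 0 < q := by
    rw [hq, Nat.cast_pos]
    exact Nat.pos_of_ne_zero (Ideal.absNorm_eq_zero_iff.not.mpr v.ne_bot)
  set J := FractionalIdeal.spanSingleton (𝓞 K)⁰ α * tdI t with hJ
  set N : ℝ := ((FractionalIdeal.absNorm (idI t) : ℚ) : ℝ) with hN
  have hNv : FractionalIdeal.absNorm (v.asIdeal : FractionalIdeal (𝓞 K)⁰ K) =
      (Ideal.absNorm v.asIdeal : ℚ) := FractionalIdeal.coeIdeal_absNorm _
  have e1 : D.coef (t * π⁻¹) α = ((Real.sqrt q / Real.sqrt N : ℝ) : ℂ) *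
      D.bK (J * (v.asIdeal : FractionalIdeal (𝓞 K)⁰ K)⁻¹) := by
    rw [coef, tdI, ideleIdeal_mul_eq, ideleIdeal_inv_eq, hπ, map_mul, map_inv₀, hNv, hJ, tdI]
    push_cast
    rw [← hN, ← hq, Real.sqrt_mul' _ (inv_nonneg.mpr hqpos.le), Real.sqrt_inv]
    push_cast
    rw [mul_inv, inv_inv, div_eq_inv_mul]
    congr 2
    ring
  have e2 : D.coef (t * π) α = ((1 / (Real.sqrt N * Real.sqrt q) : ℝ) : ℂ) *
      D.bK (J * (v.asIdeal : FractionalIdeal (𝓞 K)⁰ K)) := by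
    rw [coef, tdI, ideleIdeal_mul_eq, hπ, map_mul, hNv, hJ, tdI]
    push_cast
    rw [← hN, ← hq, Real.sqrt_mul' _ hqpos.le, one_div]
    push_cast
    congr 2
    ring
  have e3 : D.coef t α = ((1 / Real.sqrt N : ℝ) : ℂ) * D.bK J := by
    rw [coef, ← hN, ← hJ, one_div]
  have hs : (Real.sqrt q : ℂ) * (Real.sqrt q : ℂ) = ((Ideal.absNorm v.asIdeal : ℕ) : ℂ) := by
    rw [← Complex.ofReal_mul, Real.mul_self_sqrt hqpos.le, hq, Complex.ofReal_natCast]
  have hs0 : (Real.sqrt q : ℂ) ≠ 0 := Complex.ofReal_ne_zero.mpr (Real.sqrt_pos.mpr hqpos).ne'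
  rw [e1, e2, e3, ← hs]
  split_ifs with hle
  · have r := D.bK_rec hv (J := J) hle
    generalize D.bK (J * (v.asIdeal : FractionalIdeal (𝓞 K)⁰ K)) = x at r ⊢
    generalize D.bK (J * (v.asIdeal : FractionalIdeal (𝓞 K)⁰ K)⁻¹) = y at r ⊢
    push_cast
    field_simp
    linear_combination ((Real.sqrt N : ℝ) : ℂ)⁻¹ * r
  · rw [D.bK_eq_zero hle, D.bK_eq_zero fun h => hle (DihData.coeIdeal_mul_le_one h)]
    simp

/-- A crude polynomial bound. -/
theorem exists_norm_bK_le :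
    ∃ k : ℕ, ∀ J : FractionalIdeal (𝓞 K)⁰ K,
      ‖D.bK J‖ ≤ ((FractionalIdeal.absNorm J : ℚ) : ℝ) ^ k := by
  refine ⟨Module.finrank ℤ (𝓞 M) * Module.finrank ℤ (𝓞 M), fun J => ?_⟩
  by_cases hJ : J ≤ 1
  swap
  · rw [D.bK_eq_zero hJ, norm_zero]
    exact pow_nonneg (Rat.cast_nonneg.mpr (FractionalIdeal.absNorm_nonneg J)) _
  obtain ⟨A, rfl⟩ := FractionalIdeal.le_one_iff_exists_coeIdeal.mp hJ
  rw [FractionalIdeal.coeIdeal_absNorm, Rat.cast_natCast]
  rcases eq_or_ne A ⊥ with rfl | hA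
  · rw [FractionalIdeal.coeIdeal_bot, D.bK_zero, norm_zero]
    positivity
  rw [bK_coeIdeal, bcoef_eq]
  have h1 : ∀ I, ‖D.chi I‖ ≤ 1 := fun I => by
    rcases eq_or_ne I ⊥ with rfl | hI
    · rw [D.chi_bot, norm_zero]; exact zero_le_one
    by_cases h : I ⊔ Ideal.span {algebraMap (𝓞 K) (𝓞 M) D.cond} = ⊤
    · exact (D.norm_chi I hI h).le
    · rw [D.chi_eq_zero I h, norm_zero]; exact zero_le_one
  refine (norm_sum_le _ _).trans ((Finset.sum_le_sum fun I _ => h1 I).trans ?_)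
  rw [Finset.sum_const, nsmul_one, ← Nat.cast_pow, Nat.cast_le,
    ← Set.ncard_eq_toFinset_card _ (D.normSet_finite _)]
  obtain ⟨hfin, hcard⟩ := exists_card_ideals_natCast_mem (M := M) (Ideal.absNorm A)
    (Ideal.absNorm_eq_zero_iff.not.mpr hA)
  refine (Set.ncard_le_ncard (fun I hI => ?_) hfin).trans hcard
  show (Ideal.absNorm A : 𝓞 M) ∈ I
  have h := Ideal.mem_map_of_mem (algebraMap (𝓞 K) (𝓞 M)) (Ideal.absNorm_mem A)
  rw [map_natCast] at h
  exact Ideal.mul_le_left (show _ ∈ I * D.toQuad.conjI I from (D.mem_normSet.mp hI).symm ▸ h)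

end GenDihData

end Fermat.Agent.Extra.LTGen

end
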