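import Fermat.Agent.Extra.LTGen.Dihedral.RepsDefs
import Fermat.Agent.Extra.LTGen.Dihedral.Coeff
import Fermat.Agent.LT.Dihedral.Reps

/-!
# Representatives of pairs: existence, shifting, and grouping of the coefficients

Copy of the data-dependent part of `LT/Dihedral/Reps` over `GenDihData`.
-/

set_option autoImplicit false
set_option maxHeartbeats 400000
set_option linter.unusedSectionVars false

noncomputable section

namespace Fermat.Agent.Extra.LTGen

open Fermat.Agent.LT Fermat.Agent.LT.Dihedral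
open NumberField IsDedekindDomain Fermat.Agent.LT.Adelic
open scoped nonZeroDivisors

variable {K M : Type*} [Field K] [NumberField K] [Field M] [NumberField M] [Algebra K M]
variable (D : Quad K M)

namespace GenDihData

variable {D : GenDihData K M} {t t' : (FiniteAdeleRing (𝓞 K) K)ˣ}

/-- Scaling a pair by `x` gives a pair. -/
theorem IsPair.scale {ξ : K} {B I : Ideal (𝓞 M)} (hp : D.IsPair t ξ B) {x : M} (hx : x ≠ 0)
    (h : (I : FractionalIdeal (𝓞 M)⁰ M) =
      FractionalIdeal.spanSingleton (𝓞 M)⁰ x * (B : FractionalIdeal (𝓞 M)⁰ M)) :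
    D.IsPair t (ξ * Algebra.norm K x) I where
  ne_bot hI := by
    rw [hI, FractionalIdeal.coeIdeal_bot, eq_comm, mul_eq_zero,
      FractionalIdeal.spanSingleton_eq_zero_iff, FractionalIdeal.coeIdeal_eq_zero] at h
    exact h.elim hx hp.ne_bot
  ne_zero := mul_ne_zero hp.ne_zero (Algebra.norm_ne_zero_iff.mpr hx)
  compat := by
    rw [D.toQuad.coe_mul_conj_of_eq h, hp.compat, ← mul_assoc,
      FractionalIdeal.spanSingleton_mul_spanSingleton, ← map_mul, mul_comm ξ]

/-- Pairs whose ideals are in one class differ by a scaling and a unit of `K`. -/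
theorem IsPair.exists_unit_of_class {p q : K × Ideal (𝓞 M)} (hp : D.IsPair t p.1 p.2)
    (hq : D.IsPair t q.1 q.2)
    (h : ClassGroup.mk0 ⟨p.2, mem_nonZeroDivisors_iff_ne_zero.mpr hp.ne_bot⟩ =
      ClassGroup.mk0 ⟨q.2, mem_nonZeroDivisors_iff_ne_zero.mpr hq.ne_bot⟩) :
    ∃ (x : M) (u : (𝓞 K)ˣ), x ≠ 0 ∧ q.1 = p.1 * Algebra.norm K x * ((u : 𝓞 K) : K) ∧
      (q.2 : FractionalIdeal (𝓞 M)⁰ M) =
        FractionalIdeal.spanSingleton (𝓞 M)⁰ x * (p.2 : FractionalIdeal (𝓞 M)⁰ M) := by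
  obtain ⟨x, hx, hxe⟩ := (ClassGroup.mk0_eq_mk0_iff_exists_fraction_ring M).mp h
  have hs := hp.scale hx hxe.symm
  set ξ' := p.1 * Algebra.norm K x with hξ'
  have hT : FractionalIdeal.extendedHom M (𝓞 M) (tdI t) ≠ 0 :=
    (map_ne_zero _).mpr (tdI_ne_zero t)
  obtain ⟨z, hz⟩ := FractionalIdeal.spanSingleton_eq_spanSingleton.mp
    (mul_right_cancel₀ hT (hs.compat.symm.trans hq.compat))
  rw [Units.smul_def, Algebra.smul_def] at hz
  have h0 : algebraMap K M ξ' ≠ 0 := (map_ne_zero _).mpr hs.ne_zero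
  have h1 : algebraMap K M (q.1 / ξ') = ((z : 𝓞 M) : M) := by
    rw [map_div₀, div_eq_iff h0]
    exact hz.symm
  have h2 : algebraMap K M (q.1 / ξ')⁻¹ = (((z⁻¹ : (𝓞 M)ˣ) : 𝓞 M) : M) := by
    rw [map_inv₀, h1]
    exact (map_units_inv (algebraMap (𝓞 M) M) z).symm
  have hi : ∀ (r : K) (e : 𝓞 M), algebraMap K M r = (e : M) → IsIntegral ℤ r := fun r e he =>
    (isIntegral_algebraMap_iff (algebraMap K M).injective).mp (he ▸ e.isIntegral_coe)
  have hne : q.1 / ξ' ≠ 0 := div_ne_zero hq.ne_zero hs.ne_zero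
  refine ⟨x, ⟨⟨q.1 / ξ', hi _ _ h1⟩, ⟨(q.1 / ξ')⁻¹, hi _ _ h2⟩,
    RingOfIntegers.ext (mul_inv_cancel₀ hne), RingOfIntegers.ext (inv_mul_cancel₀ hne)⟩,
    hx, ?_, hxe.symm⟩
  show q.1 = ξ' * (q.1 / ξ')
  rw [mul_div_cancel₀ _ hs.ne_zero]

variable (D)

/-- Pairs at `t` up to scaling. -/
@[reducible]
def pairSetoid (t : (FiniteAdeleRing (𝓞 K) K)ˣ) :
    Setoid {p : K × Ideal (𝓞 M) // D.IsPair t p.1 p.2} where
  r p q := DihData.PairRel p.1 q.1
  iseqv := ⟨fun p => DihData.PairRel.refl p.1, fun h => h.symm, fun h h' => h.trans h'⟩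

theorem finite_pairQuotient (t : (FiniteAdeleRing (𝓞 K) K)ˣ) :
    Finite (Quotient (D.pairSetoid t)) := by
  classical
  set P := {p : K × Ideal (𝓞 M) // D.IsPair t p.1 p.2} with hP
  rcases isEmpty_or_nonempty (Quotient (D.pairSetoid t)) with hemp | hne
  · infer_instance
  have : Group.FG (𝓞 K)ˣ := Group.fg_iff_monoid_fg.mpr inferInstance
  have := Subgroup.finiteIndex_range_powMonoidHom_of_fg (𝓞 K)ˣ two_ne_zero
  let cls : Quotient (D.pairSetoid t) → ClassGroup (𝓞 M) := fun q =>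
    ClassGroup.mk0 ⟨q.out.1.2, mem_nonZeroDivisors_iff_ne_zero.mpr q.out.2.ne_bot⟩
  let base : Quotient (D.pairSetoid t) → P := fun q => (Function.invFun cls (cls q)).out
  have hbase : ∀ q, cls (Function.invFun cls (cls q)) = cls q := fun q =>
    Function.invFun_eq ⟨q, rfl⟩
  choose x u hx hu hB using fun q =>
    (base q).2.exists_unit_of_class q.out.2 (hbase q)
  refine Finite.of_injective (fun q => (cls q,
    (QuotientGroup.mk (u q) : (𝓞 K)ˣ ⧸ (powMonoidHom (α := (𝓞 K)ˣ) 2).range))) ?_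
  intro q q' h
  obtain ⟨hc, hq⟩ := Prod.mk.inj h
  have hb : base q = base q' := by simp only [base, hc]
  obtain ⟨v, hv⟩ := QuotientGroup.eq.mp hq
  replace hv : u q' = u q * v ^ 2 := by
    rw [show v ^ 2 = (u q)⁻¹ * u q' from hv, mul_inv_cancel_left]
  set vM : M := algebraMap K M ((v : 𝓞 K) : K) with hvM
  have hvM1 : FractionalIdeal.spanSingleton (𝓞 M)⁰ vM = 1 := by
    rw [hvM, ← algebraMap_coe_int]
    exact spanSingleton_unit (Units.map (algebraMap (𝓞 K) (𝓞 M)).toMonoidHom v)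
  have hvM0 : vM ≠ 0 := (map_ne_zero _).mpr (Units.coe_ne_zero v)
  have hvN : Algebra.norm K vM = ((v : 𝓞 K) : K) ^ 2 := by
    rw [hvM, Algebra.norm_algebraMap, D.toQuad.finrank_two]
  rw [← Quotient.out_equiv_out]
  refine ⟨x q' / x q * vM, mul_ne_zero (div_ne_zero (hx q') (hx q)) hvM0, ?_, ?_⟩
  · have hN : Algebra.norm K (x q' / x q) * Algebra.norm K (x q) = Algebra.norm K (x q') := by
      rw [← map_mul, div_mul_cancel₀ _ (hx q)]
    rw [hu q', hu q, ← hb, hv, map_mul, hvN, ← hN]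
    push_cast
    ring
  · rw [hB q', hB q, ← hb, ← mul_assoc, ← FractionalIdeal.spanSingleton_mul_spanSingleton (x q' / x q),
      hvM1, mul_one, FractionalIdeal.spanSingleton_mul_spanSingleton, div_mul_cancel₀ _ (hx q)]

/-- Complete systems of representatives exist. -/
theorem exists_pairReps (t : (FiniteAdeleRing (𝓞 K) K)ˣ) :
    ∃ n, ∃ p : Fin n → K × Ideal (𝓞 M), D.IsPairReps t p := by
  have := D.finite_pairQuotient t
  set e := Finite.equivFin (Quotient (D.pairSetoid t))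
  refine ⟨_, fun k => (e.symm k).out.1, fun k => (e.symm k).out.2, fun ξ B h => ?_⟩
  refine ⟨e (Quotient.mk (D.pairSetoid t) ⟨(ξ, B), h⟩), ?_, fun j hj => ?_⟩
  · dsimp only
    rw [Equiv.symm_apply_apply]
    exact Quotient.mk_out (s := D.pairSetoid t) ⟨(ξ, B), h⟩
  · rw [← Equiv.symm_apply_eq, ← Quotient.out_eq (e.symm j)]
    exact Quotient.sound hj

variable {D}

/-- Shifting a system of representatives by `(η, C)`. -/
theorem IsPairReps.shift {κ : Type*} {p : κ → K × Ideal (𝓞 M)} {η : K} {C : Ideal (𝓞 M)}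
    (hC0 : C ≠ ⊥) (hη : η ≠ 0)
    (hC : ((C * D.toQuad.conjI C : Ideal (𝓞 M)) : FractionalIdeal (𝓞 M)⁰ M) *
        FractionalIdeal.extendedHom M (𝓞 M) (tdI t) =
      FractionalIdeal.spanSingleton (𝓞 M)⁰ (algebraMap K M η) *
        FractionalIdeal.extendedHom M (𝓞 M) (tdI t'))
    (hp : D.IsPairReps t p) : D.IsPairReps t' (fun k => DihData.pairShift η C (p k)) := by
  refine ⟨fun k => ⟨mul_ne_zero hC0 (hp.isPair k).ne_bot, mul_ne_zero (hp.isPair k).ne_zero hη,
    ?_⟩, fun ξ B h => ?_⟩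
  · show ((C * (p k).2 * D.toQuad.conjI (C * (p k).2) : Ideal (𝓞 M)) :
      FractionalIdeal (𝓞 M)⁰ M) = _
    rw [D.toQuad.coe_mul_conj_mul, (hp.isPair k).compat, mul_left_comm, hC, ← mul_assoc,
      FractionalIdeal.spanSingleton_mul_spanSingleton, ← map_mul]
    rfl
  obtain ⟨z, hzC, hz0⟩ := Submodule.exists_mem_ne_zero_of_ne_bot hC0
  obtain ⟨R, hR⟩ := Ideal.dvd_span_singleton.mpr hzC
  have hR0 : R ≠ ⊥ := fun h0 => hz0 (by
    rw [h0, Ideal.mul_bot, Ideal.span_singleton_eq_bot] at hR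
    exact hR)
  have hzM : (z : M) ≠ 0 := by exact_mod_cast hz0
  set n := Algebra.norm K (z : M) with hn
  have hn0 : n ≠ 0 := Algebra.norm_ne_zero_iff.mpr hzM
  have hzR : FractionalIdeal.spanSingleton (𝓞 M)⁰ (z : M) =
      (C : FractionalIdeal (𝓞 M)⁰ M) * (R : FractionalIdeal (𝓞 M)⁰ M) := by
    rw [show (z : M) = algebraMap (𝓞 M) M z from rfl, ← FractionalIdeal.coeIdeal_span_singleton,
      hR, FractionalIdeal.coeIdeal_mul]
  have hCR : ((C * D.toQuad.conjI C : Ideal (𝓞 M)) : FractionalIdeal (𝓞 M)⁰ M) *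
      ((R * D.toQuad.conjI R : Ideal (𝓞 M)) : FractionalIdeal (𝓞 M)⁰ M) =
      FractionalIdeal.spanSingleton (𝓞 M)⁰ (algebraMap K M n) := by
    rw [← D.toQuad.coe_mul_conj_mul, ← hR, D.toQuad.coe_span_mul_conj]
  have hcompat : D.IsPair t (ξ * η⁻¹ * n) (B * R) := by
    refine ⟨mul_ne_zero h.ne_bot hR0,
      mul_ne_zero (mul_ne_zero h.ne_zero (inv_ne_zero hη)) hn0, ?_⟩
    have h1 : FractionalIdeal.spanSingleton (𝓞 M)⁰ (algebraMap K M η⁻¹) *
        FractionalIdeal.spanSingleton (𝓞 M)⁰ (algebraMap K M η) = 1 := by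
      rw [FractionalIdeal.spanSingleton_mul_spanSingleton, ← map_mul, inv_mul_cancel₀ hη,
        map_one, FractionalIdeal.spanSingleton_one]
    rw [D.toQuad.coe_mul_conj_mul, h.compat, map_mul, map_mul,
      ← FractionalIdeal.spanSingleton_mul_spanSingleton,
      ← FractionalIdeal.spanSingleton_mul_spanSingleton, ← hCR]
    calc _ = FractionalIdeal.spanSingleton (𝓞 M)⁰ (algebraMap K M ξ) *
          (FractionalIdeal.spanSingleton (𝓞 M)⁰ (algebraMap K M η⁻¹) *
            (FractionalIdeal.spanSingleton (𝓞 M)⁰ (algebraMap K M η) *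
              FractionalIdeal.extendedHom M (𝓞 M) (tdI t'))) *
          ((R * D.toQuad.conjI R : Ideal (𝓞 M)) : FractionalIdeal (𝓞 M)⁰ M) := by
          rw [← mul_assoc (FractionalIdeal.spanSingleton (𝓞 M)⁰ (algebraMap K M η⁻¹)), h1, one_mul]
      _ = _ := by rw [← hC]; ring
  obtain ⟨k, ⟨x, hx, hx1, hx2⟩, huniq⟩ := hp.exists_unique _ _ hcompat
  simp only [FractionalIdeal.coeIdeal_mul] at hx2
  replace hx1 : ξ * η⁻¹ * n = (p k).1 * Algebra.norm K x := hx1
  have hzF : FractionalIdeal.spanSingleton (𝓞 M)⁰ (z : M) ≠ 0 :=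
    FractionalIdeal.spanSingleton_ne_zero_iff.mpr hzM
  refine ⟨k, ⟨x / (z : M), div_ne_zero hx hzM, ?_, ?_⟩, ?_⟩
  · show ξ = (p k).1 * η * _
    refine mul_right_cancel₀ (mul_ne_zero (inv_ne_zero hη) hn0) ?_
    rw [← mul_assoc, hx1, hn]
    calc (p k).1 * Algebra.norm K x
        = (p k).1 * (η * η⁻¹) * (Algebra.norm K (x / (z : M)) * Algebra.norm K (z : M)) := by
          rw [mul_inv_cancel₀ hη, mul_one, ← map_mul, div_mul_cancel₀ _ hzM]
      _ = _ := by ring
  · refine mul_right_cancel₀ hzF ?_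
    show (B : FractionalIdeal (𝓞 M)⁰ M) * _ =
      _ * ((C * (p k).2 : Ideal (𝓞 M)) : FractionalIdeal (𝓞 M)⁰ M) * _
    rw [FractionalIdeal.coeIdeal_mul, mul_right_comm,
      FractionalIdeal.spanSingleton_mul_spanSingleton, div_mul_cancel₀ _ hzM, hzR,
      mul_left_comm _ (C : FractionalIdeal (𝓞 M)⁰ M), hx2]
    ring
  · rintro j ⟨y, hy, hy1, hy2⟩
    refine huniq j ⟨y * (z : M), mul_ne_zero hy hzM, ?_, ?_⟩
    · show ξ * η⁻¹ * n = _
      replace hy1 : ξ = (p j).1 * η * Algebra.norm K y := hy1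
      rw [hy1, hn, map_mul]
      field_simp
    · show ((B * R : Ideal (𝓞 M)) : FractionalIdeal (𝓞 M)⁰ M) = _
      replace hy2 : (B : FractionalIdeal (𝓞 M)⁰ M) =
          FractionalIdeal.spanSingleton (𝓞 M)⁰ y *
            ((C * (p j).2 : Ideal (𝓞 M)) : FractionalIdeal (𝓞 M)⁰ M) := hy2
      rw [FractionalIdeal.coeIdeal_mul, hy2, ← FractionalIdeal.spanSingleton_mul_spanSingleton,
        hzR, FractionalIdeal.coeIdeal_mul]
      ring

variable (D)

/-- The weights are invariant under units. -/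
theorem wt_unitInv {E : Subgroup (𝓞 M)ˣ} (_hE : E ≤ normOneUnits D.toQuad) (B : Ideal (𝓞 M)) :
    UnitInv E (D.wt B) := by
  intro e _ x
  by_cases hx : x = 0
  · rw [hx, mul_zero]
  have hex : (e : M) * x ≠ 0 := mul_ne_zero (Units.coe_ne_zero e) hx
  have hsp := spanSingleton_unit_mul e x
  by_cases h : ∃ I : Ideal (𝓞 M), (I : FractionalIdeal (𝓞 M)⁰ M) =
      FractionalIdeal.spanSingleton (𝓞 M)⁰ x * (B : FractionalIdeal (𝓞 M)⁰ M)
  · obtain ⟨I, hI⟩ := h
    rw [D.wt_of_eq hx hI, D.wt_of_eq hex (by rw [hsp]; exact hI)]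
  · have h' : ¬ ∃ I : Ideal (𝓞 M), (I : FractionalIdeal (𝓞 M)⁰ M) =
        FractionalIdeal.spanSingleton (𝓞 M)⁰ ((e : M) * x) * (B : FractionalIdeal (𝓞 M)⁰ M) := by
      rwa [hsp]
    rw [wt, wt, if_neg hx, if_neg hex, dif_neg h, dif_neg h']

/-- The coefficient of frequency `α` summed over representatives counts the ideals of norm
`α (t) 𝔡`, each as often as there are norm-one units modulo `E`. -/
theorem sum_orbCoef_eq {E : Subgroup (𝓞 M)ˣ} (hE : IsUnfoldGroup D.toQuad E)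
    (t : (FiniteAdeleRing (𝓞 K) K)ˣ) {κ : Type*} [Fintype κ] (p : κ → K × Ideal (𝓞 M))
    (hp : D.IsPairReps t p) {α : K} (hα : α ≠ 0) :
    ∑ k, orbCoef E (p k).1 (D.wt (p k).2) α =
      (Nat.card (normOneUnits D.toQuad ⧸ E.subgroupOf (normOneUnits D.toQuad)) : ℂ) *
        D.bK (FractionalIdeal.spanSingleton (𝓞 K)⁰ α * tdI t) := by
  classical
  have := D.toQuad.finite_normOne_quot hE
  set Q := normOneUnits D.toQuad ⧸ E.subgroupOf (normOneUnits D.toQuad) with hQ
  set S := {I : Ideal (𝓞 M) | ((I * D.toQuad.conjI I : Ideal (𝓞 M)) : FractionalIdeal (𝓞 M)⁰ M) =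
    FractionalIdeal.extendedHom M (𝓞 M) (FractionalIdeal.spanSingleton (𝓞 K)⁰ α * tdI t)} with hS
  have : Finite S := (D.finite_bK_index _).to_subtype
  have hSpair : ∀ I : S, D.IsPair t α (I : Ideal (𝓞 M)) := by
    rintro ⟨I, hI⟩
    have hI' : ((I * D.toQuad.conjI I : Ideal (𝓞 M)) : FractionalIdeal (𝓞 M)⁰ M) =
        FractionalIdeal.spanSingleton (𝓞 M)⁰ (algebraMap K M α) *
          FractionalIdeal.extendedHom M (𝓞 M) (tdI t) := by
      rw [← extendedHom_spanSingleton_eq, ← map_mul]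
      exact hI
    refine ⟨fun hbot => ?_, hα, hI'⟩
    subst hbot
    rw [Ideal.bot_mul, FractionalIdeal.coeIdeal_bot, eq_comm, mul_eq_zero,
      FractionalIdeal.spanSingleton_eq_zero_iff, map_eq_zero, map_eq_zero] at hI'
    exact hI'.elim hα (tdI_ne_zero t)
  choose kI hkI hkI' using fun I : S => hp.exists_unique α I (hSpair I)
  choose xI hxI hNI hBI using hkI
  -- a unit of norm one times `xI`
  set pt : S × Q → Punct M := fun z =>
    ⟨((z.2.out : (𝓞 M)ˣ) : M) * xI z.1, mul_ne_zero (Units.coe_ne_zero _) (hxI z.1)⟩ with hpt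
  have hout : ∀ z, ∃ u ∈ normOneUnits D.toQuad,
      (Quotient.mk'' (pt z) : MulAction.orbitRel.Quotient E (Punct M)).out.val =
        ((u : (𝓞 M)ˣ) : M) * xI z.1 := fun z => by
    obtain ⟨e, he, h⟩ := exists_out_eq (E := E) (pt z)
    refine ⟨e * (z.2.out : (𝓞 M)ˣ), mul_mem (hE.le_normOne he) z.2.out.2, ?_⟩
    rw [h, Units.val_mul, map_mul, mul_assoc]
  let Ψ : S × Q → Σ k, {q : MulAction.orbitRel.Quotient E (Punct M) //
      (p k).1 * Algebra.norm K q.out.val = α} := fun z =>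
    ⟨kI z.1, Quotient.mk'' (pt z), by
      obtain ⟨u, hu, h⟩ := hout z
      rw [h, map_mul, norm_mem_normOneUnits D.toQuad hu, one_mul]
      exact (hNI z.1).symm⟩
  let f : (Σ k, {q : MulAction.orbitRel.Quotient E (Punct M) //
      (p k).1 * Algebra.norm K q.out.val = α}) → ℂ := fun w => D.wt (p w.1).2 w.2.1.out.val
  have hIeq : ∀ z, ((z.1 : Ideal (𝓞 M)) : FractionalIdeal (𝓞 M)⁰ M) =
      FractionalIdeal.spanSingleton (𝓞 M)⁰ (Ψ z).2.1.out.val *
        ((p (Ψ z).1).2 : FractionalIdeal (𝓞 M)⁰ M) := fun z => by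
    obtain ⟨u, -, h⟩ := hout z
    rw [h, spanSingleton_unit_mul]
    exact hBI z.1
  have hfΨ : ∀ z, f (Ψ z) = D.chi z.1 := fun z =>
    D.wt_of_eq (Ψ z).2.1.out.ne (hIeq z)
  have hΨ : Function.Injective Ψ := by
    rintro ⟨I, c⟩ ⟨I', c'⟩ h
    have hI : I = I' := Subtype.ext (FractionalIdeal.coeIdeal_injective (R := 𝓞 M) (K := M)
      ((hIeq (I, c)).trans ((congrArg (fun w : Σ k, {q : MulAction.orbitRel.Quotient E (Punct M) //
        (p k).1 * Algebra.norm K q.out.val = α} =>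
          FractionalIdeal.spanSingleton (𝓞 M)⁰ w.2.1.out.val *
            ((p w.1).2 : FractionalIdeal (𝓞 M)⁰ M)) h).trans (hIeq (I', c')).symm)))
    subst hI
    have h2 := congrArg (fun w : Σ k, {q : MulAction.orbitRel.Quotient E (Punct M) //
      (p k).1 * Algebra.norm K q.out.val = α} => w.2.1) h
    obtain ⟨e, he⟩ := Quotient.exact' h2
    have he' : ((e : (𝓞 M)ˣ) : M) * (((c'.out : (𝓞 M)ˣ) : M) * xI I) =
        ((c.out : (𝓞 M)ˣ) : M) * xI I := congrArg Punct.val he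
    rw [← mul_assoc] at he'
    have he'' : (e : (𝓞 M)ˣ) * (c'.out : (𝓞 M)ˣ) = (c.out : (𝓞 M)ˣ) :=
      Units.ext (RingOfIntegers.ext (by
        rw [Units.val_mul]
        exact (map_mul (algebraMap (𝓞 M) M) _ _).trans (mul_right_cancel₀ (hxI I) he')))
    refine Prod.ext rfl ?_
    show c = c'
    rw [← QuotientGroup.out_eq' c, ← QuotientGroup.out_eq' c', eq_comm, QuotientGroup.eq,
      Subgroup.mem_subgroupOf, Subgroup.coe_mul, Subgroup.coe_inv, ← he'', mul_comm (e : (𝓞 M)ˣ),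
      inv_mul_cancel_left]
    exact e.2
  have hsupp : Function.support f ⊆ Set.range Ψ := by
    rintro ⟨k, q, hq⟩ hne
    set x := q.out.val with hx
    have hxB : x ∈ DihData.latL (p k).2 := by
      by_contra hmem
      exact hne (D.wt_eq_zero_of_notMem (hp.isPair k).ne_bot hmem)
    obtain ⟨I, hI⟩ := DihData.exists_ideal_of_mem (hp.isPair k).ne_bot hxB
    have hpair : D.IsPair t α I := hq ▸ (hp.isPair k).scale q.out.ne hI
    have hIS : I ∈ S := by
      show _ = FractionalIdeal.extendedHom M (𝓞 M) _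
      rw [map_mul, extendedHom_spanSingleton_eq]
      exact hpair.compat
    set J : S := ⟨I, hIS⟩
    have hk : k = kI J := hkI' J k ⟨x, q.out.ne, hq.symm, hI⟩
    have hxx : FractionalIdeal.spanSingleton (𝓞 M)⁰ (xI J) =
        FractionalIdeal.spanSingleton (𝓞 M)⁰ x :=
      mul_right_cancel₀ (FractionalIdeal.coeIdeal_ne_zero.mpr (hp.isPair k).ne_bot)
        ((hk ▸ (hBI J).symm).trans hI)
    obtain ⟨u, hu⟩ := FractionalIdeal.spanSingleton_eq_spanSingleton.mp hxx
    rw [Units.smul_def, Algebra.smul_def] at hu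
    have hu1 : u ∈ normOneUnits D.toQuad := by
      have hn := hq.trans (hNI J)
      rw [← hk] at hn
      have hn' : Algebra.norm K x = Algebra.norm K (xI J) :=
        mul_left_cancel₀ (hp.isPair k).ne_zero hn
      rw [← hu, map_mul] at hn'
      rw [mem_normOneUnits, ← D.toQuad.norm_eq,
        (mul_eq_right₀ (Algebra.norm_ne_zero_iff.mpr (hxI J))).mp hn', map_one]
    refine ⟨(J, QuotientGroup.mk (⟨u, hu1⟩ : normOneUnits D.toQuad)),
      Sigma.subtype_ext hk.symm ?_⟩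
    show (Quotient.mk'' (pt _) : MulAction.orbitRel.Quotient E (Punct M)) = q
    conv_rhs => rw [← Quotient.out_eq' q]
    refine Quotient.sound' ?_
    obtain ⟨e, he⟩ := QuotientGroup.mk_out_eq_mul (E.subgroupOf (normOneUnits D.toQuad))
      (⟨u, hu1⟩ : normOneUnits D.toQuad)
    refine ⟨⟨((e : normOneUnits D.toQuad) : (𝓞 M)ˣ), Subgroup.mem_subgroupOf.mp e.2⟩, ?_⟩
    refine Punct.val_injective ?_
    show (((e : normOneUnits D.toQuad) : (𝓞 M)ˣ) : M) * x =
      (((QuotientGroup.mk (⟨u, hu1⟩ : normOneUnits D.toQuad) : Q).out : (𝓞 M)ˣ) : M) * xI J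
    rw [he, Subgroup.coe_mul, Units.val_mul, map_mul, ← hu]
    ring
  have := Fintype.ofFinite S
  have := Fintype.ofFinite Q
  have hfin : Function.HasFiniteSupport f := (Set.finite_range Ψ).subset hsupp
  calc ∑ k, orbCoef E (p k).1 (D.wt (p k).2) α = ∑' w, f w := by
        rw [(summable_of_hasFiniteSupport hfin).tsum_sigma, tsum_fintype]
        rfl
    _ = ∑ z : S × Q, f (Ψ z) := by rw [← hΨ.tsum_eq hsupp, tsum_fintype]
    _ = _ := by
      simp only [hfΨ]
      rw [Fintype.sum_prod_type, bK, ← hS, ← finsum_set_coe_eq_finsum_mem,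
        finsum_eq_sum_of_fintype, Finset.mul_sum]
      refine Finset.sum_congr rfl fun I _ => ?_
      show (∑ _y : Q, D.chi (I : Ideal (𝓞 M))) = _
      rw [Finset.sum_const, Finset.card_univ, nsmul_eq_mul, Nat.card_eq_fintype_card]

/-- Grouping with a constant independent of `t`. -/
theorem exists_sum_orbCoef_eq {E : Subgroup (𝓞 M)ˣ} (hE : IsUnfoldGroup D.toQuad E) :
    ∃ c : ℂ, c ≠ 0 ∧ ∀ (t : (FiniteAdeleRing (𝓞 K) K)ˣ) {κ : Type*} [Fintype κ]
      (p : κ → K × Ideal (𝓞 M)), D.IsPairReps t p → ∀ α : K, α ≠ 0 →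
        ∑ k, orbCoef E (p k).1 (D.wt (p k).2) α =
          c * D.bK (FractionalIdeal.spanSingleton (𝓞 K)⁰ α * tdI t) := by
  have := D.toQuad.finite_normOne_quot hE
  refine ⟨(Nat.card (normOneUnits D.toQuad ⧸ E.subgroupOf (normOneUnits D.toQuad)) : ℂ),
    Nat.cast_ne_zero.mpr Nat.card_pos.ne', ?_⟩
  intro t κ _ p hp α hα
  exact D.sum_orbCoef_eq hE t p hp hα

end GenDihData

end Fermat.Agent.Extra.LTGen

end
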