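import Fermat.Agent.Extra.LTGen.Dihedral.Expansion
import Fermat.Agent.Extra.LTGen.Dihedral.Twist
import Fermat.Agent.Extra.LTGen.Dihedral.Reps
import Fermat.Agent.LT.Dihedral.Assembly

/-!
# The family `formF` satisfies the glue hypotheses; the constant terms cancel at every cusp

Copy of the data-dependent part of `LT/Dihedral/Assembly` over `GenDihData`.
-/

set_option autoImplicit false
set_option maxHeartbeats 400000

noncomputable section

namespace Fermat.Agent.Extra.LTGen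

open Fermat.Agent.LT Fermat.Agent.LT.Dihedral
open NumberField IsDedekindDomain Fermat.Agent.LT.Adelic MeasureTheory Matrix
open scoped nonZeroDivisors

variable {K M : Type*} [Field K] [NumberField K] [Field M] [NumberField M] [Algebra K M]
  {ι : Type*} [Fintype ι]

namespace GenDihData

variable {D : GenDihData K M}

/-- Two systems of representatives correspond to each other. -/
theorem IsPairReps.sum_eq {κ κ' : Type*} [Fintype κ] [Fintype κ']
    {t : (FiniteAdeleRing (𝓞 K) K)ˣ} {p : κ → K × Ideal (𝓞 M)} {p' : κ' → K × Ideal (𝓞 M)}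
    (hp : D.IsPairReps t p) (hp' : D.IsPairReps t p') (f : K × Ideal (𝓞 M) → ℂ)
    (hf : ∀ a b, DihData.PairRel a b → f a = f b) : ∑ k, f (p k) = ∑ k, f (p' k) := by
  choose σ hσ hσu using fun j => hp.exists_unique _ _ (hp'.isPair j)
  choose π hπ hπu using fun k => hp'.exists_unique _ _ (hp.isPair k)
  refine Fintype.sum_equiv
    { toFun := π, invFun := σ
      left_inv := fun k => (hσu (π k) k (DihData.PairRel.symm (hπ k))).symm
      right_inv := fun j => (hπu (σ j) j (DihData.PairRel.symm (hσ j))).symm } _ _ fun k => ?_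
  exact hf _ _ (DihData.PairRel.symm (hπ k))

theorem chi_span_eq_one (hcond : IsUnit D.cond) {a : 𝓞 M} (ha : a ≠ 0) :
    D.chi (Ideal.span {a}) = 1 := by
  rw [D.chi_periodic a 1 ha one_ne_zero ((hcond.map _).dvd), Ideal.span_singleton_one,
    ← Ideal.one_eq_top, map_one]

/-- Without conductor the character is constant on classes of pairs. -/
theorem chi_pairRel (hcond : IsUnit D.cond) {p q : K × Ideal (𝓞 M)} (h : DihData.PairRel p q) :
    D.chi q.2 = D.chi p.2 := by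
  obtain ⟨x, hx, -, h2⟩ := h
  obtain ⟨a, b, hb, rfl⟩ := IsFractionRing.div_surjective (A := 𝓞 M) x
  have hb0 : (b : M) ≠ 0 := by exact_mod_cast nonZeroDivisors.ne_zero hb
  have ha : a ≠ 0 := by rintro rfl; simp at hx
  have he : Ideal.span {b} * q.2 = Ideal.span {a} * p.2 := by
    refine FractionalIdeal.coeIdeal_injective (R := 𝓞 M) (K := M) ?_
    show ((Ideal.span {(b : 𝓞 M)} * q.2 : Ideal (𝓞 M)) : FractionalIdeal (𝓞 M)⁰ M) =
      ((Ideal.span {a} * p.2 : Ideal (𝓞 M)) : FractionalIdeal (𝓞 M)⁰ M)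
    rw [FractionalIdeal.coeIdeal_mul, FractionalIdeal.coeIdeal_mul,
      FractionalIdeal.coeIdeal_span_singleton, FractionalIdeal.coeIdeal_span_singleton, h2,
      ← mul_assoc, FractionalIdeal.spanSingleton_mul_spanSingleton, mul_div_cancel₀ _ hb0]
  have := congrArg D.chi he
  rwa [map_mul, map_mul, chi_span_eq_one hcond (nonZeroDivisors.ne_zero hb),
    chi_span_eq_one hcond ha, one_mul, one_mul] at this

variable {E : Subgroup (𝓞 M)ˣ} {c : ℂ}

/-- The shift of a system at `t` by `(η, C)` with `C C̄ = (η)`. -/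
theorem RepsHyp.shift_twist (h : D.RepsHyp E c) {κ : Type} {t : (FiniteAdeleRing (𝓞 K) K)ˣ}
    {p : κ → K × Ideal (𝓞 M)} (hp : D.IsPairReps t p) {η : 𝓞 K} {C : Ideal (𝓞 M)} (hC : C ≠ ⊥)
    (hη : η ≠ 0) (hCC : C * D.toQuad.conjI C = extI K M (Ideal.span {η})) :
    D.IsPairReps t fun k => DihData.pairShift (η : K) C (p k) := by
  refine h.shift hC (RingOfIntegers.coe_ne_zero_iff.mpr hη) ?_ hp
  rw [hCC, extI, Ideal.map_span, Set.image_singleton, FractionalIdeal.coeIdeal_span_singleton]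
  congr 2

/-- **The values at the origin of a system cancel.** -/
theorem sum_wt_zero (h : D.RepsHyp E c) {n : ℕ} {t : (FiniteAdeleRing (𝓞 K) K)ˣ}
    {p : Fin n → K × Ideal (𝓞 M)} (hp : D.IsPairReps t p) : ∑ k, D.wt (p k).2 0 = 0 := by
  classical
  by_cases hcond : IsUnit D.cond
  swap
  · exact Finset.sum_eq_zero fun k _ => by rw [GenDihData.wt, if_pos rfl, if_neg hcond]
  simp only [GenDihData.wt, if_pos hcond, if_true]
  obtain ⟨C, η, hC, hη, -, hCC, -, hchi⟩ := D.exists_twist (one_ne_zero (α := 𝓞 K))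
  have e := hp.sum_eq (h.shift_twist hp hC hη hCC) (fun q => D.chi q.2)
    fun a b hab => (chi_pairRel hcond hab).symm
  simp only [DihData.pairShift, map_mul, ← Finset.mul_sum] at e
  by_contra hne
  exact hchi (mul_right_cancel₀ hne (e.symm.trans (one_mul _).symm))

variable (Φ : Frame K ι) {hE : IsUnfoldGroup D.toQuad E}

theorem formF_eq (h : D.RepsHyp E c) (hE : IsUnfoldGroup D.toQuad E) {n : ℕ}
    {t : (FiniteAdeleRing (𝓞 K) K)ˣ} {p : Fin n → K × Ideal (𝓞 M)} (hp : D.IsPairReps t p)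
    (τ : ι → HSpace) : D.formF Φ t τ = DihData.nrm t / c * D.thetaSum Φ hE p τ :=
  D.thetaSum_eq Φ hE h hp (sum_wt_zero h hp) τ

theorem formF_gamma (h : D.RepsHyp E c) (hE : IsUnfoldGroup D.toQuad E)
    (t : (FiniteAdeleRing (𝓞 K) K)ˣ) (τ : ι → HSpace) (γ : GL (Fin 2) K) (a d : 𝓞 K) (b c' : K)
    (hγ : (γ : Matrix (Fin 2) (Fin 2) K) = !![(a : K), b; c', (d : K)])
    (hdet : (a : K) * d - b * c' = 1) (ha : D.cond ^ 3 ∣ a - 1) (hd : D.cond ^ 3 ∣ d - 1)
    (hb : b ∈ FractionalIdeal.spanSingleton (𝓞 K)⁰ D.lvl * idI t)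
    (hc : c' ∈ FractionalIdeal.spanSingleton (𝓞 K)⁰ D.lvl * (idI t)⁻¹) :
    D.formF Φ t (act Φ γ τ) = D.formF Φ t τ := by
  obtain ⟨n, p, hp⟩ := h.exists_reps t
  rw [formF_eq Φ h hE hp, formF_eq Φ h hE hp]
  congr 1
  refine Finset.sum_congr rfl fun k _ => thetaInt_of_rel Φ D.toQuad hE ?_ τ
  exact rel_wt_gamma (thetaSys Φ D.toQuad (hp.isPair k).ne_zero) (hp.isPair k) γ hγ hdet ha hd hb hc

theorem formF_step (h : D.RepsHyp E c) (hE : IsUnfoldGroup D.toQuad E)
    (t t' : (FiniteAdeleRing (𝓞 K) K)ˣ) (τ : ι → HSpace) (v : HeightOneSpectrum (𝓞 K))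
    (γ : GL (Fin 2) K) (β c' : K) (hv : D.cond ^ 3 ∉ v.asIdeal)
    (ht : idI t' = idI t * (v.asIdeal : FractionalIdeal (𝓞 K)⁰ K) ^ 2)
    (hβ : β ∈ FractionalIdeal.spanSingleton (𝓞 K)⁰ D.lvl * idI t *
      (v.asIdeal : FractionalIdeal (𝓞 K)⁰ K))
    (hβ' : β ∉ FractionalIdeal.spanSingleton (𝓞 K)⁰ D.lvl * idI t')
    (hc : c' ∈ FractionalIdeal.spanSingleton (𝓞 K)⁰ D.lvl *
      (idI t * (v.asIdeal : FractionalIdeal (𝓞 K)⁰ K))⁻¹)
    (hβc : 1 + β * c' ∈ (v.asIdeal : FractionalIdeal (𝓞 K)⁰ K))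
    (hγ : (γ : Matrix (Fin 2) (Fin 2) K) = !![1 + β * c', β; c', 1]) :
    D.formF Φ t' (act Φ γ τ) = D.formF Φ t τ := by
  obtain ⟨n, p, hp⟩ := h.exists_reps t
  set w := extI K M v.asIdeal with hw
  have hp' : D.IsPairReps t' fun k => DihData.pairShift (1 : K) w (p k) := by
    refine h.shift (DihData.extI_ne_bot v.ne_bot) one_ne_zero ?_ hp
    rw [D.toQuad.conjI_extI, map_one, FractionalIdeal.spanSingleton_one, one_mul, hw, extI,
      FractionalIdeal.coeIdeal_mul, ← FractionalIdeal.extendedHom_coeIdeal_eq_map (K := K)]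
    simp only [tdI, ht, map_mul, map_pow]
    ring
  have hk : ∀ k, thetaInt Φ D.toQuad hE (DihData.pairShift (1 : K) w (p k)).1
      (D.wt (DihData.pairShift (1 : K) w (p k)).2) (act Φ γ τ) =
      (Ideal.absNorm v.asIdeal : ℂ) * thetaInt Φ D.toQuad hE (p k).1 (D.wt (p k).2) τ := by
    intro k
    have hr := rel_wt_step (thetaSys Φ D.toQuad (hp.isPair k).ne_zero) (hp.isPair k) hv ht hβ hβ'
      hc hβc γ hγ
    rw [← thetaInt_smul]
    simp only [DihData.pairShift, mul_one]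
    exact thetaInt_of_rel Φ D.toQuad hE hr τ
  rw [formF_eq Φ h hE hp', formF_eq Φ h hE hp, thetaSum, thetaSum, Finset.sum_congr rfl fun k _ => hk k,
    ← Finset.mul_sum, ← mul_assoc]
  congr 1
  have hq : (0 : ℝ) < (Ideal.absNorm v.asIdeal : ℝ) :=
    Nat.cast_pos.mpr (Nat.pos_of_ne_zero (Ideal.absNorm_eq_zero_iff.not.mpr v.ne_bot))
  rw [DihData.nrm, DihData.nrm, ht, map_mul, map_pow, FractionalIdeal.coeIdeal_absNorm, Rat.cast_mul, Rat.cast_pow,
    Rat.cast_natCast, Real.sqrt_mul (Rat.cast_nonneg.mpr (FractionalIdeal.absNorm_nonneg _)),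
    Real.sqrt_sq hq.le]
  have := DihData.sqrt_absNorm_pos t
  have := h.c_ne
  have : ((Ideal.absNorm v.asIdeal : ℕ) : ℂ) ≠ 0 :=
    Nat.cast_ne_zero.mpr (Ideal.absNorm_eq_zero_iff.not.mpr v.ne_bot)
  push_cast
  field_simp

/-- **The glue hypotheses.** -/
theorem glueHyp_formF (h : D.RepsHyp E c) (hE : IsUnfoldGroup D.toQuad E) :
    GlueHyp Φ (D.cond ^ 3) (D.formF Φ) where
  ideal_congr _ _ e := D.formF_ideal_congr Φ e
  diag x t τ := D.formF_diag Φ x t τ
  gamma t τ γ a d b c' := formF_gamma Φ h hE t τ γ a d b c'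
  step t t' τ v γ β c' := formF_step Φ h hE t t' τ v γ β c'

/-! ### The constant terms at the cusps -/

variable (D) in
/-- The transformation of the weights of the pairs at `t` to the cusps. -/

def CuspHyp (E : Subgroup (𝓞 M)ˣ) : Prop :=
  ∀ (t : (FiniteAdeleRing (𝓞 K) K)ˣ) (γ : GL (Fin 2) K),
    (γ : Matrix (Fin 2) (Fin 2) K).det = 1 →
    ((γ : Matrix (Fin 2) (Fin 2) K) 1 0 = 0 → ∃ lam : ℂ, ∀ ξ B, D.IsPair t ξ B →
      ∃ b, Adm b ∧ UnitInv E b ∧ thetaRel Φ D.toQuad ξ γ (D.wt B) b ∧ b 0 = lam * D.wt B 0) ∧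
    ((γ : Matrix (Fin 2) (Fin 2) K) 1 0 ≠ 0 → ∃ (m : 𝓞 K) (lam : ℂ), m ≠ 0 ∧
      ∀ ξ B (S : Finset M), D.IsPair t ξ B →
      IsReps (DihData.latL B) (FractionalIdeal.spanSingleton (𝓞 M)⁰
        ((algebraMap (𝓞 K) (𝓞 M) m : 𝓞 M) : M) * DihData.latL B) S →
      ∃ b, Adm b ∧ UnitInv E b ∧ thetaRel Φ D.toQuad ξ γ (D.wt B) b ∧
        b 0 = lam * cuspMean D (kapTheta Φ D.toQuad ξ) ξ B (algebraMap (𝓞 K) (𝓞 M) m) S
          ((γ : Matrix (Fin 2) (Fin 2) K) 0 0 / (γ : Matrix (Fin 2) (Fin 2) K) 1 0))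

/-- **At every cusp the constant terms cancel.** -/
theorem exists_cusp_family (h : D.RepsHyp E c) (hE : IsUnfoldGroup D.toQuad E)
    (hcusp : D.CuspHyp Φ E) {n : ℕ} {t : (FiniteAdeleRing (𝓞 K) K)ˣ}
    {p : Fin n → K × Ideal (𝓞 M)} (hp : D.IsPairReps t p) {γ : GL (Fin 2) K}
    (hγ : (γ : Matrix (Fin 2) (Fin 2) K).det = 1) :
    ∃ b : Fin n → M → ℂ, (∀ k, Adm (b k)) ∧ (∀ k, UnitInv E (b k)) ∧
      (∀ k, thetaRel Φ D.toQuad (p k).1 γ (D.wt (p k).2) (b k)) ∧ ∑ k, b k 0 = 0 := by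
  classical
  obtain ⟨hup, hlow⟩ := hcusp t γ hγ
  by_cases hc0 : (γ : Matrix (Fin 2) (Fin 2) K) 1 0 = 0
  · obtain ⟨lam, hl⟩ := hup hc0
    choose b h1 h2 h3 h4 using fun k => hl _ _ (hp.isPair k)
    exact ⟨b, h1, h2, h3, by simp only [h4, ← Finset.mul_sum, sum_wt_zero h hp, mul_zero]⟩
  obtain ⟨m, lam, hm, hl⟩ := hlow hc0
  set s := (γ : Matrix (Fin 2) (Fin 2) K) 0 0 / (γ : Matrix (Fin 2) (Fin 2) K) 1 0 with hs
  obtain ⟨r, hr, hrs⟩ := DihData.exists_smul_mem_idI t s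
  obtain ⟨C, η, hC, hη, ⟨e, he⟩, hCC, hco, hchi⟩ := D.exists_twist (mul_ne_zero hm hr)
  set m' := algebraMap (𝓞 K) (𝓞 M) m with hm'
  have hm'0 : m' ≠ 0 := fun h => hm (algebraMap_int_injective (K := K) (M := M)
    (h.trans (map_zero _).symm))
  have hcom : C ⊔ Ideal.span {m'} = ⊤ := top_le_iff.mp (hco ▸ sup_le_sup_left
    (Ideal.span_singleton_le_span_singleton.mpr (by rw [map_mul]; exact dvd_mul_right _ _)) C)
  have hηs : s * ((η : K) - 1) ∈ idI t := by
    have h1 : (η : K) - 1 = ((m * e : 𝓞 K) : K) * (r : K) := by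
      rw [show (η : K) - 1 = ((η - 1 : 𝓞 K) : K) by push_cast; rfl, he]
      push_cast
      ring
    rw [h1, show s * (((m * e : 𝓞 K) : K) * (r : K)) = ((m * e : 𝓞 K) : K) * ((r : K) * s) by ring,
      ← FractionalIdeal.mem_coe, ← Algebra.smul_def]
    exact Submodule.smul_mem _ _ (FractionalIdeal.mem_coe.mpr hrs)
  choose S hS using fun k => exists_reps (DihData.latL (p k).2)
    (Q := FractionalIdeal.spanSingleton (𝓞 M)⁰ (m' : M) * DihData.latL (p k).2)
    (mul_ne_zero (FractionalIdeal.spanSingleton_ne_zero_iff.mpr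
      (RingOfIntegers.coe_ne_zero_iff.mpr hm'0)) (DihData.latL_ne_zero (hp.isPair k).ne_bot))
  have hpt : ∀ k, D.IsPair t ((p k).1 * (η : K)) (C * (p k).2) := fun k =>
    (hp.isPair k).twist hC hη hCC
  choose b h1 h2 h3 h4 using fun k => hl _ _ (S k) (hp.isPair k) (hS k)
  choose b' h1' h2' h3' h4' using fun k => hl _ _ (S k) (hpt k)
    (DihData.isReps_twist hC (hp.isPair k).ne_bot hcom (hS k))
  refine ⟨b, h1, h2, h3, ?_⟩
  have hb' : ∑ k, b' k 0 = D.chi C * ∑ k, b k 0 := by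
    rw [Finset.mul_sum]
    refine Finset.sum_congr rfl fun k _ => ?_
    rw [h4' k, h4 k, cuspMean_twist (kap := kapTheta Φ D.toQuad) (hp.isPair k) hC hη hCC hηs
      (kapTheta_mul Φ D.toQuad) (hS k).1]
    ring
  have hA : ∀ τ, D.thetaSum Φ hE p τ = D.thetaSum Φ hE (fun k => DihData.pairShift (η : K) C (p k)) τ :=
    fun τ => mul_left_cancel₀ (div_ne_zero (DihData.nrm_ne_zero t) h.c_ne)
      ((formF_eq Φ h hE hp τ).symm.trans (formF_eq Φ h hE (h.shift_twist hp hC hη hCC) τ))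
  have h0 : ∑ k : Fin n ⊕ Fin n, (Sum.elim b (fun k => (-1 : ℂ) • b' k) k) 0 = 0 := by
    refine sum_const_eq_zero Φ D.toQuad hE
      (ξ := Sum.elim (fun k => (p k).1) fun k => (p k).1 * (η : K)) (fun k => ?_) (fun k => ?_)
      (fun k => ?_) fun τ => ?_
    · cases k
      · exact (hp.isPair _).ne_zero
      · exact (hpt _).ne_zero
    · cases k
      · exact h1 _
      · exact (h1' _).smul _
    · cases k
      · exact h2 _
      · exact (h2' _).smul _
    · rw [Fintype.sum_sum_type]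
      simp only [Sum.elim_inl, Sum.elim_inr, thetaInt_smul,
        ← thetaInt_of_rel Φ D.toQuad hE (h3 _) τ, ← thetaInt_of_rel Φ D.toQuad hE (h3' _) τ,
        ← Finset.mul_sum]
      have := hA (act Φ γ τ)
      simp only [thetaSum, DihData.pairShift] at this
      rw [this]
      ring
  rw [Fintype.sum_sum_type] at h0
  simp only [Sum.elim_inl, Sum.elim_inr, Pi.smul_apply, smul_eq_mul, ← Finset.mul_sum, hb'] at h0
  by_contra hne
  exact hchi (mul_right_cancel₀ hne (by linear_combination -h0))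

end GenDihData

end Fermat.Agent.Extra.LTGen

end
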