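import Fermat.Agent.Extra.LTGen.Dihedral.Invariance
import Fermat.Agent.LT.Dihedral.CuspRel

/-!
# Periods of the translated weights over `GenDihData`

The data-free part of `LT/Dihedral/CuspRel` is cited.
-/

set_option autoImplicit false
set_option maxHeartbeats 400000

noncomputable section

namespace Fermat.Agent.Extra.LTGen

open Fermat.Agent.LT Fermat.Agent.LT.Dihedral
open Fermat.Agent.LT.Dihedral.DihData (latL mem_latL latM latM_ne_zero latM_le)
open NumberField IsDedekindDomain Fermat.Agent.LT.Adelic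
open scoped nonZeroDivisors

variable {K M : Type*} [Field K] [NumberField K] [Field M] [NumberField M] [Algebra K M]

namespace GenDihData

variable (D : GenDihData K M)

/-- A period of the translated weights, uniform in the pairs at `t`. -/
theorem exists_period_wt (t : (FiniteAdeleRing (𝓞 K) K)ˣ) (s : K) :
    ∃ m : 𝓞 K, m ≠ 0 ∧ D.cond ∣ m ∧ ∀ ξ B, D.IsPair t ξ B → ∀ x ∈ latL B, ∀ p ∈ latM m B,
      psi (s * (ξ * Algebra.norm K (x + p))) * D.wt B (x + p) =
        psi (s * (ξ * Algebra.norm K x)) * D.wt B x := by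
  obtain ⟨k, hk, hk0⟩ : ∃ k ∈ idI t, k ≠ 0 :=
    Submodule.exists_mem_ne_zero_of_ne_bot
      (FractionalIdeal.coeToSubmodule_ne_bot.mpr (idI_ne_zero t))
  obtain ⟨i, r, hr, hir⟩ := IsFractionRing.div_surjective (A := 𝓞 K) (s / k)
  have hr0 : (r : K) ≠ 0 := by exact_mod_cast nonZeroDivisors.ne_zero hr
  have hrs : (r : K) * s ∈ idI t := by
    have h1 := Submodule.smul_mem (idI t : Submodule (𝓞 K) K) i hk
    rw [Algebra.smul_def] at h1
    replace hir : (i : K) / (r : K) = s / k := hir
    field_simp at hir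
    rw [← FractionalIdeal.mem_coe]
    convert! h1 using 1
    linear_combination -hir
  refine ⟨D.cond * r, mul_ne_zero D.cond_ne (nonZeroDivisors.ne_zero hr), dvd_mul_right _ _,
    fun ξ B hp x hx p hp' => ?_⟩
  obtain ⟨q, hq, rfl⟩ := FractionalIdeal.mem_singleton_mul.mp hp'
  rw [D.wt_add_of_mem hp.ne_bot hx (D.mul_mem_latP_of_dvd (dvd_mul_right _ _) hq)]
  congr 1
  refine psi_eq_of_sub ?_
  set w : M := algebraMap K M (D.cond : K) * q with hw
  have hwL : w ∈ latL B := intK_mem hq D.cond
  have e : algebraMap K M ((D.cond * r : 𝓞 K) : K) * q = algebraMap K M (r : K) * w := by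
    rw [hw]
    show algebraMap K M ((D.cond : K) * (r : K)) * q = _
    rw [map_mul]; ring
  have hwr : algebraMap K M (r : K) * w ∈ latL B := intK_mem hwL r
  clear_value w
  have e2 : ∀ n₁ n₂ n₃ : K, s * (ξ * (n₁ + n₂ + n₃)) - s * (ξ * n₁) =
      s * (ξ * n₂) + s * (ξ * n₃) := fun n₁ n₂ n₃ => by ring
  rw [e, D.toQuad.norm_add, e2, psi_add]
  rw [show ξ * Algebra.trace K M (x * D.conj (algebraMap K M (r : K) * w)) =
      D.toQuad.bil ξ x (algebraMap K M (r : K) * w) from rfl,
    D.toQuad.bil_smul_right, map_mul, Algebra.norm_algebraMap, D.toQuad.finrank_two,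
    show s * (ξ * ((r : K) ^ 2 * Algebra.norm K w)) =
      (r : K) * ((r : K) * s) * (ξ * Algebra.norm K w) by ring,
    show s * ((r : K) * D.toQuad.bil ξ x w) = (r : K) * s * D.toQuad.bil ξ x w by ring,
    hp.psi_norm (show (r : K) * ((r : K) * s) ∈ idI t from by
      rw [← Algebra.smul_def]
      exact Submodule.smul_mem (idI t : Submodule (𝓞 K) K) r hrs) hwL,
    hp.psi_bil hrs hx hwL, one_mul]

end GenDihData

end Fermat.Agent.Extra.LTGen

end
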