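import Fermat.Agent.Extra.LTGen.Dihedral.Coeff
import Fermat.Agent.LT.Dihedral.Frequencies

/-!
# Coefficients of the general dihedral form under principal ideles
-/

set_option autoImplicit false

noncomputable section

namespace Fermat.Agent.Extra.LTGen

open Fermat.Agent.LT Fermat.Agent.LT.Dihedral
open NumberField IsDedekindDomain Fermat.Agent.LT.Adelic
open scoped nonZeroDivisors

variable {K M : Type*} [Field K] [NumberField K] [Field M] [NumberField M] [Algebra K M]

namespace GenDihData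

variable (D : GenDihData K M)

/-- The coefficients transform under principal ideles. -/
theorem coef_principal_mul {ι : Type*} [Fintype ι] (Φ : Frame K ι) (x : Kˣ)
    (t : (FiniteAdeleRing (𝓞 K) K)ˣ) (α : K) :
    D.coef (principalIdele x * t) α =
      ((∏ i, ‖Φ.emb i (x : K)‖)⁻¹ : ℝ) * D.coef t ((x : K) * α) := by
  have h1 : ((FractionalIdeal.absNorm (idI (principalIdele x * t)) : ℚ) : ℝ) =
      (∏ i, ‖Φ.emb i (x : K)‖) ^ 2 * ((FractionalIdeal.absNorm (idI t) : ℚ) : ℝ) := by
    rw [ideleIdeal_principal_mul_eq, map_mul, Rat.cast_mul, FractionalIdeal.absNorm_span_singleton,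
      abs_norm_rat_eq_prod Φ, Finset.prod_pow]
  rw [coef, coef, tdI_principal_mul, ← mul_assoc, FractionalIdeal.spanSingleton_mul_spanSingleton,
    h1, mul_comm α, Real.sqrt_mul (sq_nonneg _),
    Real.sqrt_sq (Finset.prod_nonneg fun i _ => norm_nonneg _), mul_inv]
  push_cast
  ring

/-- The coefficient at `idI t = 𝔡⁻¹` and frequency one does not vanish. -/
theorem exists_coef_ne_zero :
    ∃ (t : (FiniteAdeleRing (𝓞 K) K)ˣ) (α : K), α ≠ 0 ∧ D.coef t α ≠ 0 := by
  have hd : invDiff K ≠ 0 := FractionalIdeal.dual_ne_zero ℤ ℚ one_ne_zero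
  obtain ⟨t, ht⟩ := exists_idele_idI hd
  refine ⟨t, 1, one_ne_zero, ?_⟩
  rw [coef, tdI, ht, mul_inv_cancel₀ hd, FractionalIdeal.spanSingleton_one, one_mul, D.bK_one,
    mul_one]
  refine Complex.ofReal_ne_zero.mpr (inv_ne_zero (Real.sqrt_pos.mpr (Rat.cast_pos.mpr ?_)).ne')
  exact lt_of_le_of_ne (FractionalIdeal.absNorm_nonneg _)
    (Ne.symm (FractionalIdeal.absNorm_eq_zero_iff.not.mpr hd))

end GenDihData

end Fermat.Agent.Extra.LTGen

end
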