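import Fermat.Agent.Extra.LTGen.Dihedral.Assembly
import Fermat.Agent.Extra.LTGen.Dihedral.CuspRel
import Fermat.Agent.Extra.LTGen.Dihedral.Frequencies
import Fermat.Agent.LT.Dihedral.Cusps

/-!
# The glued function is a cusp eigenform

Copy of the data-dependent part of `LT/Dihedral/Cusps` over `GenDihData`.
-/

set_option autoImplicit false
set_option maxHeartbeats 400000

noncomputable section

namespace Fermat.Agent.Extra.LTGen

open Fermat.Agent.LT Fermat.Agent.LT.Dihedral
open NumberField IsDedekindDomain Fermat.Agent.LT.Adelic MeasureTheory Matrix Filter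
open Fermat.Agent.LT.Theta (whitProd whitAbs IsWhitSeries IsWhitExpansion qWhit besselK0 besselK0_nonneg)
open scoped nonZeroDivisors Topology

variable {K M : Type*} [Field K] [NumberField K] [Field M] [NumberField M] [Algebra K M]
  {ι : Type*} [Fintype ι]

namespace GenDihData

variable {D : GenDihData K M} (Φ : Frame K ι) {E : Subgroup (𝓞 M)ˣ} {c : ℂ}

/-- The transformation of the weights to the cusps. -/
theorem cuspHyp_wt (hE : IsUnfoldGroup D.toQuad E) (hwt : ∀ B, UnitInv E (D.wt B)) :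
    D.CuspHyp Φ E := by
  intro t γ hdet
  refine ⟨fun hc => ⟨_, fun ξ B hp =>
    (thetaSys Φ D.toQuad hp.ne_zero).exists_rel_borel hE.le_normOne (adm_wt hp.ne_bot) (hwt B) γ
      hdet hc⟩, fun hc => ?_⟩
  obtain ⟨m, hm, -, hper⟩ := D.exists_period_wt t
    ((γ : Matrix (Fin 2) (Fin 2) K) 0 0 / (γ : Matrix (Fin 2) (Fin 2) K) 1 0)
  refine ⟨m, ((|Algebra.norm ℚ ((γ : Matrix (Fin 2) (Fin 2) K) 1 0)| : ℚ) : ℂ), hm,
    fun ξ B S hp hS => ?_⟩
  have hP : FractionalIdeal.spanSingleton (𝓞 M)⁰ ((algebraMap (𝓞 K) (𝓞 M) m : 𝓞 M) : M) * DihData.latL B =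
      DihData.latM m B := by rw [DihData.latM, algebraMap_coe_int]
  rw [hP] at hS
  obtain ⟨b, h1, h2, h3, h4⟩ := (thetaSys Φ D.toQuad hp.ne_zero).exists_rel_cell hp.ne_zero
    hE.le_normOne (hwt B) γ hdet hc (DihData.latM_ne_zero hm hp.ne_bot) (DihData.latM_le m B)
    (fun x hx => not_imp_comm.mp (D.wt_eq_zero_of_notMem hp.ne_bot) hx) rfl (hper ξ B hp) hS
  exact ⟨b, h1, h2, h3, h4.trans (by rw [cuspMean, hP]; rfl)⟩

variable {φ : Space Φ (levelF K (D.cond ^ 3)) → ℂ}

/-- The finite orbit-and-frequency data of `φ` at a finite coordinate. -/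
theorem exists_local_expansion (h : D.RepsHyp E c) (hE : IsUnfoldGroup D.toQuad E)
    (hinv : IsInvariant φ)
    (hF : ∀ t τ, φ (Space.mk τ (yPt (D.cond ^ 3) t)) = D.formF Φ t τ)
    (y : Yf (levelF K (D.cond ^ 3))) :
    ∃ (n : ℕ) (ξ : Fin n → K) (b : Fin n → M → ℂ) (κ : ℂ), (∀ k, ξ k ≠ 0) ∧ (∀ k, Adm (b k)) ∧
      (∀ k, UnitInv E (b k)) ∧ ∑ k, b k 0 = 0 ∧
      ∀ τ, φ (Space.mk τ y) = κ * ∑ k, thetaInt Φ D.toQuad hE (ξ k) (b k) τ := by
  obtain ⟨γ, t, hy⟩ := exists_eq_smul_yPt (pow_ne_zero 3 D.cond_ne) y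
  set δ : Kˣ := GeneralLinearGroup.det γ⁻¹ with hδ
  set g : GL (Fin 2) K := diag2 δ⁻¹ 1 * γ⁻¹ with hg
  set t₁ := principalIdele δ⁻¹ * t with ht₁
  obtain ⟨n, p, hp⟩ := h.exists_reps t₁
  have hdet : (g : Matrix (Fin 2) (Fin 2) K).det = 1 := by
    rw [hg, Units.val_mul, Matrix.det_mul, coe_diag2, Matrix.det_fin_two_of,
      show ((γ⁻¹ : GL (Fin 2) K) : Matrix (Fin 2) (Fin 2) K).det = (δ : K) from rfl]
    simp
  obtain ⟨b, hb, hbi, hrel, h0⟩ := exists_cusp_family Φ h hE (cuspHyp_wt Φ hE h.wt_inv) hp hdet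
  refine ⟨n, fun k => (p k).1, b, DihData.nrm t₁ / c, fun k => (hp.isPair k).ne_zero, hb, hbi, h0,
    fun τ => ?_⟩
  have e1 : φ (Space.mk τ y) = D.formF Φ t (act Φ γ⁻¹ τ) := by
    rw [← hF t, ← hinv γ⁻¹, hy, Space.smul_mk, ← mul_smul, ← map_mul, inv_mul_cancel, map_one,
      one_smul]
    rfl
  have e2 : act Φ γ⁻¹ τ = act Φ (diag2 δ 1) (act Φ g τ) := by
    rw [← act_mul]
    congr 2
    rw [hg, ← mul_assoc, show (diag2 δ 1 * diag2 δ⁻¹ 1 : GL (Fin 2) K) = 1 from ?_, one_mul]
    apply glK_ext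
    rw [Units.val_mul, coe_diag2, coe_diag2, Units.val_one]
    ext i j
    fin_cases i <;> fin_cases j <;> simp [Matrix.mul_apply, Fin.sum_univ_two]
  have e3 : t = principalIdele δ * t₁ := by
    rw [ht₁, ← mul_assoc, ← map_mul, mul_inv_cancel, map_one, one_mul]
  rw [e1, e2, e3, D.formF_diag, formF_eq Φ h hE hp, thetaSum]
  congr 1
  exact Finset.sum_congr rfl fun k _ => thetaInt_of_rel Φ D.toQuad hE (hrel k) τ

/-- A finite family of theta integrals without constant term is a Bessel series. -/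
theorem isWhitSeries_family (hE : IsUnfoldGroup D.toQuad E) {n : ℕ} {ξ : Fin n → K}
    {b : Fin n → M → ℂ} (hξ : ∀ k, ξ k ≠ 0) (hb : ∀ k, Adm (b k)) (hbi : ∀ k, UnitInv E (b k))
    (h0 : ∑ k, b k 0 = 0) (κ : ℂ) :
    IsWhitSeries
        (fun p : Σ k : Fin n, {q : MulAction.orbitRel.Quotient E (Punct M) // b k q.out.val ≠ 0} =>
          κ * b p.1 p.2.1.out.val)
        (fun p => xiV Φ (ξ p.1 * Algebra.norm K p.2.1.out.val)) ∧
      ∀ τ, κ * ∑ k, thetaInt Φ D.toQuad hE (ξ k) (b k) τ =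
        ∑' p : Σ k : Fin n, {q : MulAction.orbitRel.Quotient E (Punct M) // b k q.out.val ≠ 0},
          κ * b p.1 p.2.1.out.val * whitProd (xiV Φ (ξ p.1 * Algebra.norm K p.2.1.out.val)) τ := by
  classical
  have hw : IsWhitSeries
      (fun p : Σ k : Fin n, {q : MulAction.orbitRel.Quotient E (Punct M) // b k q.out.val ≠ 0} =>
        κ * b p.1 p.2.1.out.val)
      (fun p => xiV Φ (ξ p.1 * Algebra.norm K p.2.1.out.val)) :=
    { ne_zero := fun p i =>
        (isWhitSeries_orbit Φ D.toQuad hE (hξ p.1) (hb p.1) (hbi p.1)).ne_zero p.2.1 i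
      summable := fun r hr => (summable_sigma_of_nonneg (fun p => mul_nonneg (norm_nonneg _)
          (Finset.prod_nonneg fun i _ => mul_nonneg (mul_nonneg zero_le_two (hr i).le)
            (besselK0_nonneg _)))).mpr
        ⟨fun k => ((((isWhitSeries_orbit Φ D.toQuad hE (hξ k) (hb k) (hbi k)).summable r hr
            ).comp_injective (Subtype.val_injective : Function.Injective
              (Subtype.val : {q : MulAction.orbitRel.Quotient E (Punct M) // b k q.out.val ≠ 0} → _))
            ).mul_left ‖κ‖).congr fun q => by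
              simp only [Function.comp_apply, norm_mul]
              exact (mul_assoc _ _ _).symm,
          Summable.of_finite⟩ }
  refine ⟨hw, fun τ => ?_⟩
  rw [(hw.summable_term τ).tsum_sigma, tsum_fintype]
  have hk : ∀ k, thetaInt Φ D.toQuad hE (ξ k) (b k) τ =
      ((unitVol Φ D.toQuad hE * ∏ i, (τ i).r : ℝ) : ℂ) * b k 0 +
        ∑' q : {q : MulAction.orbitRel.Quotient E (Punct M) // b k q.out.val ≠ 0},
          b k q.1.out.val * whitProd (xiV Φ (ξ k * Algebra.norm K q.1.out.val)) τ := by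
    intro k
    rw [thetaInt_eq Φ D.toQuad hE (hξ k) (hb k) (hbi k)]
    congr 1
    rw [← Subtype.val_injective.tsum_eq (f := fun q : MulAction.orbitRel.Quotient E (Punct M) =>
      b k q.out.val * qWhit (xiV Φ (ξ k)) τ (pPt Φ D.toQuad q.out)) fun q hq =>
        ⟨⟨q, left_ne_zero_of_mul hq⟩, rfl⟩]
    exact tsum_congr fun q => by rw [pPt, qWhit_mPt]
  rw [Finset.sum_congr rfl fun k _ => hk k, Finset.sum_add_distrib, ← Finset.mul_sum, h0,
    mul_zero, zero_add, Finset.mul_sum]
  exact Finset.sum_congr rfl fun k _ => by simp only [mul_assoc, tsum_mul_left]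

/-- The coefficients of `F t` as a Bessel series over the frequencies. -/
theorem isWhitSeries_coef (h : D.RepsHyp E c) (hE : IsUnfoldGroup D.toQuad E)
    (t : (FiniteAdeleRing (𝓞 K) K)ˣ) :
    IsWhitSeries (fun α : {α : K // α ≠ 0} => D.coef t α.1)
      (fun α : {α : K // α ≠ 0} => xiV Φ α.1) where
  ne_zero α i := xiV_ne_zero Φ α.2 i
  summable r hr := by
    classical
    obtain ⟨n, p, hp⟩ := h.exists_reps t
    have hnn : ∀ a : ι → ℂ, 0 ≤ whitAbs a r := fun a => Finset.prod_nonneg fun i _ =>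
      mul_nonneg (mul_nonneg zero_le_two (hr i).le) (besselK0_nonneg _)
    have hk : ∀ k, Summable fun α : K =>
        ‖orbCoef E (p k).1 (D.wt (p k).2) α‖ * whitAbs (xiV Φ α) r := by
      intro k
      have hS := (isWhitSeries_orbit Φ D.toQuad hE (hp.isPair k).ne_zero
        (adm_wt (hp.isPair k).ne_bot) (h.wt_inv _)).summable r hr
      set f : MulAction.orbitRel.Quotient E (Punct M) → K :=
        fun q => (p k).1 * Algebra.norm K q.out.val
      have hfib := hS.comp_injective (Equiv.sigmaFiberEquiv f).injective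
      refine Summable.of_nonneg_of_le (fun α => mul_nonneg (norm_nonneg _) (hnn _)) (fun α => ?_)
        ((summable_sigma_of_nonneg (fun _ => mul_nonneg (norm_nonneg _) (hnn _))).mp hfib).2
      rw [orbCoef]
      refine (mul_le_mul_of_nonneg_right (norm_tsum_le_tsum_norm
        (summable_orbCoef Φ D.toQuad hE (hp.isPair k).ne_zero (adm_wt (hp.isPair k).ne_bot)
          (h.wt_inv _) α).norm) (hnn _)).trans (le_of_eq ?_)
      rw [← tsum_mul_right]
      refine tsum_congr fun q => ?_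
      show ‖_‖ * whitAbs (xiV Φ α) r =
        ‖_‖ * whitAbs (xiV Φ ((p k).1 * Algebra.norm K q.1.out.val)) r
      rw [q.2]
      rfl
    refine Summable.of_nonneg_of_le (fun α => mul_nonneg (norm_nonneg _) (hnn _)) (fun α => ?_)
      (((summable_sum fun k (_ : k ∈ (Finset.univ : Finset (Fin n))) => hk k).comp_injective
        (Subtype.val_injective : Function.Injective (Subtype.val : {α : K // α ≠ 0} → K))).mul_left
          ‖DihData.nrm t / c‖)
    rw [D.coef_eq, ← mul_div_cancel_left₀ (D.bK _) h.c_ne, ← h.grouping hp _ α.2,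
      Function.comp_apply, ← Finset.sum_mul, ← mul_assoc]
    refine mul_le_mul_of_nonneg_right ?_ (hnn _)
    rw [← mul_div_assoc, mul_div_right_comm, norm_mul]
    exact mul_le_mul_of_nonneg_left (norm_sum_le _ _) (norm_nonneg _)

/-- The facts on representative systems hold. -/
theorem exists_repsHyp (hE : IsUnfoldGroup D.toQuad E) : ∃ c, D.RepsHyp E c := by
  obtain ⟨c, hc, hsum⟩ := D.exists_sum_orbCoef_eq hE
  exact ⟨c, { c_ne := hc
              exists_reps := fun t => D.exists_pairReps t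
              shift := fun {κ t t' p η C} hC hη hCC hp => hp.shift hC hη hCC
              grouping := fun {n t p} hp α hα => hsum t p hp α hα
              wt_inv := D.wt_unitInv hE.le_normOne }⟩

/-- **The glued function is a cusp eigenform.** -/
theorem isCuspEigen_formF [DecidableEq ι] (h : D.RepsHyp E c) (hE : IsUnfoldGroup D.toQuad E)
    (hinv : IsInvariant φ)
    (hF : ∀ t τ, φ (Space.mk τ (yPt (D.cond ^ 3) t)) = D.formF Φ t τ) : IsCuspEigen φ := by
  classical
  have : Nonempty ι := frame_nonempty Φ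
  choose n ξ b κ hξ hb hbi h0 he using exists_local_expansion Φ h hE hinv hF
  have : ∀ y, Countable (Σ k : Fin (n y),
      {q : MulAction.orbitRel.Quotient E (Punct M) // b y k q.out.val ≠ 0}) := fun y => by
    have : Countable (MulAction.orbitRel.Quotient E (Punct M)) := Quotient.countable
    infer_instance
  have hexp : IsWhitExpansion φ
      (fun y (p : Σ k : Fin (n y),
        {q : MulAction.orbitRel.Quotient E (Punct M) // b y k q.out.val ≠ 0}) =>
          κ y * b y p.1 p.2.1.out.val)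
      (fun y p => xiV Φ (ξ y p.1 * Algebra.norm K p.2.1.out.val)) :=
    { countable := this
      series := fun y => (isWhitSeries_family Φ hE (hξ y) (hb y) (hbi y) (h0 y) (κ y)).1
      eq := fun y τ => (he y τ).trans
        ((isWhitSeries_family Φ hE (hξ y) (hb y) (hbi y) (h0 y) (κ y)).2 τ) }
  refine ⟨hinv, hexp.continuous, ?_, hexp.hasZeroMean, hexp.isSphericalEigen, ?_⟩
  · refine hexp.bounded (isLevel_levelF (pow_ne_zero 3 D.cond_ne)) hinv fun y => ?_
    choose δ hδ0 hδ using fun k => exists_le_norm_freq Φ (hξ y k) (hb y k)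
    by_cases hn : Nonempty (Fin (n y))
    · obtain ⟨k₀, hk₀⟩ := Finite.exists_min δ
      exact ⟨δ k₀, hδ0 k₀, fun p => (hk₀ p.1).trans (hδ p.1 _ p.2.1.out.ne p.2.2)⟩
    · exact ⟨1, one_pos, fun p => absurd ⟨p.1⟩ hn⟩
  · by_contra hzero
    push Not at hzero
    obtain ⟨t, α, hα, hcoef⟩ := D.exists_coef_ne_zero
    have : Countable K := (Module.finBasis ℚ K).repr.toEquiv.injective.countable
    refine hcoef ((isWhitSeries_coef Φ h hE t).eq_zero ?_ (fun τ => ?_) (⟨α, hα⟩ : {α : K // α ≠ 0}))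
    · intro a a' e
      obtain ⟨i⟩ := ‹Nonempty ι›
      exact Subtype.ext ((Φ.emb i).injective (congrFun e i))
    · rw [Subtype.val_injective.tsum_eq (f := fun a : K => D.coef t a * whitProd (xiV Φ a) τ),
        ← formF, ← hF, hzero]
      intro a ha
      refine ⟨⟨a, ?_⟩, rfl⟩
      rintro rfl
      simp [GenDihData.coef_eq, D.bK_zero] at ha

end GenDihData

end Fermat.Agent.Extra.LTGen

end
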