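import Fermat.Agent.LT.Dihedral.Data

/-!
# The data of a dihedral form, without tameness

The period is twice an element killing the inverse different of `M/K`, so `M/K` may be wild at `2`.
-/

set_option autoImplicit false
set_option maxHeartbeats 400000

noncomputable section

namespace Fermat.Agent.Extra.LTGen

open Fermat.Agent.LT Fermat.Agent.LT.Dihedral
open NumberField IsDedekindDomain

variable {K M : Type*} [Field K] [NumberField K] [Field M] [NumberField M] [Algebra K M]

variable (K M) in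
/-- The data of a dihedral form. -/
structure GenDihData extends Quad K M where
  /-- half the period, killing the inverse different -/
  half : 𝓞 K
  /-- the period of the character -/
  cond : 𝓞 K
  cond_ne : cond ≠ 0
  cond_eq : cond = 2 * half
  /-- `half` kills the inverse different of `M/K` -/
  diff : ∀ z : M, (∀ a : 𝓞 M, IsIntegral ℤ (Algebra.trace K M (z * (a : M)))) →
    IsIntegral ℤ (algebraMap K M (half : K) * z)
  /-- the character on ideals, zero off the ideals prime to `cond` -/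
  chi : Ideal (𝓞 M) →* ℂ
  chi_bot : chi ⊥ = 0
  chi_eq_zero : ∀ I, I ⊔ Ideal.span {algebraMap (𝓞 K) (𝓞 M) cond} ≠ ⊤ → chi I = 0
  norm_chi : ∀ I, I ≠ ⊥ → I ⊔ Ideal.span {algebraMap (𝓞 K) (𝓞 M) cond} = ⊤ → ‖chi I‖ = 1
  chi_periodic : ∀ p q : 𝓞 M, p ≠ 0 → q ≠ 0 → algebraMap (𝓞 K) (𝓞 M) cond ∣ p - q →
    chi (Ideal.span {p}) = chi (Ideal.span {q})
  /-- the places prime to `cond` are inert with character `-1` or split with inverse values -/
  inert_or_split : ∀ v : HeightOneSpectrum (𝓞 K), cond ∉ v.asIdeal →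
    ((extI K M v.asIdeal).IsPrime ∧ chi (extI K M v.asIdeal) = -1 ∧
      ∃ a : 𝓞 M, toQuad.conjO a - a ∉ extI K M v.asIdeal) ∨
    (∃ Q : Ideal (𝓞 M), Q.IsPrime ∧ toQuad.conjI Q ≠ Q ∧
      extI K M v.asIdeal = Q * toQuad.conjI Q ∧ chi Q * chi (toQuad.conjI Q) = 1)
  /-- infinitely many split places where the character is not quadratic -/
  nontrivial : ∀ T : Finset (HeightOneSpectrum (𝓞 K)), ∃ v, v ∉ T ∧ cond ∉ v.asIdeal ∧
    ∃ Q : Ideal (𝓞 M), Q.IsPrime ∧ toQuad.conjI Q ≠ Q ∧
      extI K M v.asIdeal = Q * toQuad.conjI Q ∧ chi Q ^ 2 ≠ 1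

namespace GenDihData

variable (D : GenDihData K M)

/-- The coefficient at an ideal: sum of the character over the ideals with that norm. -/
def bcoef (J : Ideal (𝓞 M)) : ℂ :=
  ∑ᶠ I ∈ {I : Ideal (𝓞 M) | I * D.toQuad.conjI I = J}, D.chi I

/-- The eigenvalue at `v`. -/
def eig (v : HeightOneSpectrum (𝓞 K)) : ℂ := D.bcoef (extI K M v.asIdeal)

end GenDihData

end Fermat.Agent.Extra.LTGen

end
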