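import Fermat.Agent.Extra.LTGen.Dihedral.Assembly
import Fermat.Agent.Extra.LTGen.Dihedral.Coeff
import Fermat.Agent.LT.Dihedral.Eigen

/-!
# The expansion of `formF` and the Hecke eigenvalues of the dihedral form

Copy of the data-dependent part of `LT/Dihedral/Eigen` over `GenDihData`.
-/

set_option autoImplicit false
set_option maxHeartbeats 400000

noncomputable section

namespace Fermat.Agent.Extra.LTGen

open Fermat.Agent.LT Fermat.Agent.LT.Dihedral
open NumberField IsDedekindDomain Fermat.Agent.LT.Adelic Matrix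
open Fermat.Agent.LT.Theta (whitProd besselK0)
open Poisson (eC eC_add eC_zero)
open scoped nonZeroDivisors

variable {K M : Type*} [Field K] [NumberField K] [Field M] [NumberField M] [Algebra K M]
  {ι : Type*} [Fintype ι] (Φ : Frame K ι)

namespace GenDihData

variable {D : GenDihData K M} {E : Subgroup (𝓞 M)ˣ} {c : ℂ}

/-- **The expansion of `formF`.** -/
theorem hasSum_formF (h : D.RepsHyp E c) (hE : IsUnfoldGroup D.toQuad E)
    (t : (FiniteAdeleRing (𝓞 K) K)ˣ) (τ : ι → HSpace) :
    HasSum (fun α => D.coef t α * whitProd (xiV Φ α) τ) (D.formF Φ t τ) := by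
  obtain ⟨n, p, hp⟩ := h.exists_reps t
  have hs := hasSum_sum fun k (_ : k ∈ (Finset.univ : Finset (Fin n))) =>
    hasSum_thetaInt Φ D.toQuad hE (hp.isPair k).ne_zero (adm_wt (hp.isPair k).ne_bot)
      (h.wt_inv _) τ
  refine ((hs.mul_left (DihData.nrm t / c)).congr_fun fun α => ?_).summable.hasSum
  rw [← Finset.sum_mul, ← mul_assoc, coef_eq]
  by_cases hα : α = 0
  · subst hα
    rw [Finset.sum_eq_zero fun k _ => orbCoef_zero (hp.isPair k).ne_zero _ _,
      FractionalIdeal.spanSingleton_zero, zero_mul, D.bK_zero]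
    simp
  · rw [h.grouping hp α hα]
    field_simp [h.c_ne]

theorem le_one_of_coef_ne_zero {t : (FiniteAdeleRing (𝓞 K) K)ˣ} {α : K} (h : D.coef t α ≠ 0) :
    FractionalIdeal.spanSingleton (𝓞 K)⁰ α * tdI t ≤ 1 := by
  by_contra hle
  exact h (by rw [coef_eq, D.bK_eq_zero hle, mul_zero])

/-- **The Hecke eigenvalues at the places prime to the conductor.** -/
theorem isHeckeEigenAt_formF (h : D.RepsHyp E c) (hE : IsUnfoldGroup D.toQuad E)
    (φ : Space Φ (levelF K (D.cond ^ 3)) → ℂ) (hinv : IsInvariant φ)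
    (hF : ∀ t τ, φ (Space.mk τ (yPt (D.cond ^ 3) t)) = D.formF Φ t τ)
    {v : HeightOneSpectrum (𝓞 K)} (hv : D.cond ∉ v.asIdeal) : IsHeckeEigenAt φ v (D.eig v) := by
  classical
  exact isHeckeEigenAt_of_expansion (pow_ne_zero 3 D.cond_ne) hinv hF D.coef
    (fun α => whitProd (xiV Φ α)) (hasSum_formF Φ h hE)
    (fun α x τ => whitProd_act_unipotent Φ α x τ) (fun _ _ => le_one_of_coef_ne_zero)
    (fun h3 => hv (v.isPrime.mem_of_pow_mem 3 h3)) (D.eig v)
    fun ϖ hϖ t α => D.coef_rec hv t ϖ (idI_uniformiser hϖ) α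

end GenDihData

end Fermat.Agent.Extra.LTGen

end
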