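import Fermat.Agent.Extra.LTGen.Dihedral.Pairs
import Fermat.Agent.LT.Dihedral.RepsDefs

/-!
# Systems of representatives of pairs up to scaling by `M^×`

Copy of the data-dependent part of `LT/Dihedral/RepsDefs` over `GenDihData`.
-/

set_option autoImplicit false
set_option maxHeartbeats 400000

noncomputable section

namespace Fermat.Agent.Extra.LTGen

open Fermat.Agent.LT Fermat.Agent.LT.Dihedral
open NumberField IsDedekindDomain Fermat.Agent.LT.Adelic
open scoped nonZeroDivisors

variable {K M : Type*} [Field K] [NumberField K] [Field M] [NumberField M] [Algebra K M]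

namespace GenDihData

variable (D : GenDihData K M)

/-- A complete system of representatives of the pairs at `t` up to scaling. -/
structure IsPairReps {κ : Type*} (t : (FiniteAdeleRing (𝓞 K) K)ˣ)
    (p : κ → K × Ideal (𝓞 M)) : Prop where
  isPair : ∀ k, D.IsPair t (p k).1 (p k).2
  exists_unique : ∀ ξ B, D.IsPair t ξ B → ∃! k, DihData.PairRel (p k) (ξ, B)

end GenDihData

end Fermat.Agent.Extra.LTGen

end
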