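import Fermat.Agent.Extra.LTGen.Dihedral.Invariance
import Fermat.Agent.Extra.LTGen.Dihedral.RepsDefs
import Fermat.Agent.Extra.LTGen.Dihedral.Coeff
import Fermat.Agent.LT.Dihedral.Expansion

/-!
# The family `F t` with coefficients `coef t α` and theta integrals over representative pairs

Copy of the data-dependent part of `LT/Dihedral/Expansion` over `GenDihData`.
-/

set_option autoImplicit false
set_option maxHeartbeats 400000

noncomputable section

namespace Fermat.Agent.Extra.LTGen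

open Fermat.Agent.LT Fermat.Agent.LT.Dihedral
open NumberField IsDedekindDomain Fermat.Agent.LT.Adelic MeasureTheory Matrix Filter
open Fermat.Agent.LT.Theta (whitProd whitAbs IsWhitSeries qWhit besselK0 besselK0_nonneg)
open Poisson (eC)
open scoped nonZeroDivisors Topology

variable {K M : Type*} [Field K] [NumberField K] [Field M] [NumberField M] [Algebra K M]
  {ι : Type*} [Fintype ι] (Φ : Frame K ι)

namespace GenDihData

variable (D : GenDihData K M)

theorem coef_eq (t : (FiniteAdeleRing (𝓞 K) K)ˣ) (α : K) :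
    D.coef t α = DihData.nrm t * D.bK (FractionalIdeal.spanSingleton (𝓞 K)⁰ α * tdI t) := rfl

/-- The function attached to `diag(t, 1)`. -/
def formF (t : (FiniteAdeleRing (𝓞 K) K)ˣ) (τ : ι → HSpace) : ℂ :=
  ∑' α : K, D.coef t α * whitProd (xiV Φ α) τ

theorem formF_ideal_congr {t t' : (FiniteAdeleRing (𝓞 K) K)ˣ} (h : idI t = idI t') :
    D.formF Φ t = D.formF Φ t' := by
  funext τ
  simp only [formF, coef, tdI, h]

theorem formF_diag (x : Kˣ) (t : (FiniteAdeleRing (𝓞 K) K)ˣ) (τ : ι → HSpace) :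
    D.formF Φ (principalIdele x * t) (act Φ (diag2 x 1) τ) = D.formF Φ t τ := by
  have hP : 0 < ∏ i, ‖Φ.emb i (x : K)‖ := Finset.prod_pos fun i _ => by simp
  have hn : DihData.nrm (principalIdele x * t) =
      DihData.nrm t * (((∏ i, ‖Φ.emb i (x : K)‖ : ℝ) : ℂ))⁻¹ := by
    rw [DihData.nrm, DihData.nrm, DihData.idI_principal_mul, map_mul, FractionalIdeal.absNorm_span_singleton,
      ← Complex.ofReal_inv, ← Complex.ofReal_mul, Rat.cast_mul, abs_norm_rat_eq_prod Φ,
      Real.sqrt_mul (Finset.prod_nonneg fun i _ => sq_nonneg _), Finset.prod_pow,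
      Real.sqrt_sq hP.le, mul_inv, mul_comm]
  rw [formF, formF, ← (Equiv.mulLeft₀ (x : K) x.ne_zero).tsum_eq (fun α => D.coef t α * _)]
  refine tsum_congr fun α => ?_
  rw [Equiv.mulLeft₀_apply, whitProd_act_diag, coef_eq, coef_eq, hn,
    show FractionalIdeal.spanSingleton (𝓞 K)⁰ α * tdI (principalIdele x * t) =
      FractionalIdeal.spanSingleton (𝓞 K)⁰ ((x : K) * α) * tdI t by
      rw [tdI, DihData.idI_principal_mul, tdI, ← FractionalIdeal.spanSingleton_mul_spanSingleton]; ring]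
  have : (((∏ i, ‖Φ.emb i (x : K)‖ : ℝ) : ℂ)) ≠ 0 := by exact_mod_cast hP.ne'
  field_simp

variable {E : Subgroup (𝓞 M)ˣ} (hE : IsUnfoldGroup D.toQuad E)

/-- The facts on representative systems used by the assembly. -/
structure RepsHyp (E : Subgroup (𝓞 M)ˣ) (c : ℂ) : Prop where
  c_ne : c ≠ 0
  exists_reps : ∀ t, ∃ (n : ℕ) (p : Fin n → K × Ideal (𝓞 M)), D.IsPairReps t p
  shift : ∀ {κ : Type} {t t' : (FiniteAdeleRing (𝓞 K) K)ˣ} {p : κ → K × Ideal (𝓞 M)}
    {η : K} {C : Ideal (𝓞 M)}, C ≠ ⊥ → η ≠ 0 →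
    ((C * D.toQuad.conjI C : Ideal (𝓞 M)) : FractionalIdeal (𝓞 M)⁰ M) *
        FractionalIdeal.extendedHom M (𝓞 M) (tdI t) =
      FractionalIdeal.spanSingleton (𝓞 M)⁰ (algebraMap K M η) *
        FractionalIdeal.extendedHom M (𝓞 M) (tdI t') →
    D.IsPairReps t p → D.IsPairReps t' fun k => DihData.pairShift η C (p k)
  grouping : ∀ {n : ℕ} {t : (FiniteAdeleRing (𝓞 K) K)ˣ} {p : Fin n → K × Ideal (𝓞 M)},
    D.IsPairReps t p → ∀ α : K, α ≠ 0 →
      ∑ k, orbCoef E (p k).1 (D.wt (p k).2) α =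
        c * D.bK (FractionalIdeal.spanSingleton (𝓞 K)⁰ α * tdI t)
  wt_inv : ∀ B, UnitInv E (D.wt B)

/-- The sum of the theta integrals of a family of pairs. -/
def thetaSum {κ : Type*} [Fintype κ] (p : κ → K × Ideal (𝓞 M)) (τ : ι → HSpace) : ℂ :=
  ∑ k, thetaInt Φ D.toQuad hE (p k).1 (D.wt (p k).2) τ

variable {c : ℂ}

theorem thetaSum_eq (h : D.RepsHyp E c) {n : ℕ} {t : (FiniteAdeleRing (𝓞 K) K)ˣ}
    {p : Fin n → K × Ideal (𝓞 M)} (hp : D.IsPairReps t p)
    (hwt0 : ∑ k, D.wt (p k).2 0 = 0) (τ : ι → HSpace) :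
    D.formF Φ t τ = DihData.nrm t / c * D.thetaSum Φ hE p τ := by
  have hs := hasSum_sum fun k (_ : k ∈ (Finset.univ : Finset (Fin n))) =>
    hasSum_thetaInt Φ D.toQuad hE (hp.isPair k).ne_zero (adm_wt (hp.isPair k).ne_bot)
      (h.wt_inv _) τ
  rw [Finset.sum_sub_distrib, ← Finset.mul_sum, hwt0, mul_zero, sub_zero] at hs
  refine ((hs.mul_left (DihData.nrm t / c)).congr_fun fun α => ?_).tsum_eq
  rw [← Finset.sum_mul, ← mul_assoc, coef_eq]
  by_cases hα : α = 0
  · subst hα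
    rw [Finset.sum_eq_zero fun k _ => orbCoef_zero (hp.isPair k).ne_zero _ _,
      FractionalIdeal.spanSingleton_zero, zero_mul, D.bK_zero]
    simp
  · rw [h.grouping hp α hα]
    field_simp [h.c_ne]

end GenDihData

end Fermat.Agent.Extra.LTGen

end
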