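import Fermat.Agent.LT.Recip.Cross
import Mathlib.RingTheory.Norm.Basic
import Mathlib.RingTheory.Polynomial.GaussLemma
import Mathlib.LinearAlgebra.Matrix.Charpoly.Minpoly
import Mathlib.RingTheory.Invariant.Basic

/-!
# Reciprocity for characters of order dividing four at an unspecified modulus

Over the splitting field the norm `h 1 = ∏ (1 - g β)` has trivial symbol.  For `x ≡ 1` to a high
modulus the roots `θ` of `g = h + (x - 1) h 1` are close to conjugates of `β` at the bad primes, so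
by Krasner the character is unramified over `K(θ)`; hence `x h 1 = g 1` has trivial symbol.
No tameness is needed.
-/

set_option autoImplicit false
set_option linter.style.haveILetI false

noncomputable section

namespace Fermat.Agent.Extra.LTGen

open NumberField IsDedekindDomain Polynomial UniqueFactorizationMonoid
open Fermat.Agent.LT.Recip
open scoped IntermediateField Pointwise

variable {K F : Type} [Field K] [NumberField K] [Field F] [NumberField F] [Algebra K F]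
  [IsGalois K F] [IsGalois ℚ F] {A : Type} [CommGroup A]

omit [IsGalois K F] [IsGalois ℚ F] in
/-- A nonzero integer of `F` divides a nonzero natural number. -/
theorem exists_nat_dvd {a : 𝓞 F} (ha : a ≠ 0) :
    ∃ n : ℕ, n ≠ 0 ∧ a ∣ (n : 𝓞 F) :=
  ⟨Ideal.absNorm (Ideal.span {a}), mt Ideal.absNorm_eq_zero_iff.1 (by simpa using ha),
    Ideal.mem_span_singleton.1 (Ideal.absNorm_mem _)⟩

omit [IsGalois ℚ F] in
/-- An integer moved by every nontrivial automorphism, in a given multiple. -/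
theorem exists_moved (b : 𝓞 K) (hb : b ≠ 0) :
    ∃ β : 𝓞 F, (∀ g : Gal(F/K), g • β = β → g = 1) ∧ algebraMap (𝓞 K) (𝓞 F) b ∣ β := by
  let pb := Field.powerBasisOfFiniteOfSeparable K F
  obtain ⟨d, hd, hint⟩ := exists_integral_multiples ℤ ℚ (L := F) {pb.gen}
  let β₀ : 𝓞 F := ⟨d • pb.gen, hint _ (Finset.mem_singleton_self _)⟩
  refine ⟨algebraMap (𝓞 K) (𝓞 F) b * β₀, fun g hg => ?_, dvd_mul_right _ _⟩
  have h1 : g (algebraMap K F (b : K) * (d • pb.gen)) =
      algebraMap K F (b : K) * (d • pb.gen) := congrArg (fun z : 𝓞 F => (z : F)) hg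
  rw [map_mul, g.commutes, map_zsmul] at h1
  have h2 : d • (g pb.gen) = d • pb.gen :=
    mul_left_cancel₀ ((_root_.map_ne_zero _).2 (RingOfIntegers.coe_ne_zero_iff.2 hb)) h1
  rw [zsmul_eq_mul, zsmul_eq_mul] at h2
  exact AlgEquiv.coe_toAlgHom_injective
    (pb.algHom_ext (f := (g : F →ₐ[K] F)) (g := ((1 : Gal(F/K)) : F →ₐ[K] F))
      (mul_left_cancel₀ (Int.cast_ne_zero.2 hd) h2))

omit [IsGalois ℚ F] in
/-- Norms from the splitting field have trivial symbol. -/
theorem idealSymb_norm_eq_one (χ : Gal(F/K) →* A) {z : 𝓞 F} (hz : z ≠ 0) {y : 𝓞 K}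
    (hy : algebraMap (𝓞 K) (𝓞 F) y = ∏ g : Gal(F/K), g • z)
    (hu : ∀ P' ∈ normalizedFactors (Ideal.span {z}), UnrAt χ (P'.under (𝓞 K))) :
    idealSymb χ (Ideal.span {y}) = 1 := by
  have hz' : Ideal.span {z} ≠ 0 := mt Ideal.span_singleton_eq_bot.1 hz
  have h := idealSymb_comp (K := K) (K' := F) (F := F) (χ := χ) hz' hu
  have hrel : Ideal.relNorm (𝓞 K) (Ideal.span {z}) = Ideal.span {y} := by
    rw [Ideal.relNorm_singleton]
    congr 2
    refine IsFractionRing.injective (𝓞 K) K ?_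
    rw [Algebra.algebraMap_intNorm (A := 𝓞 K) (K := K) (L := F) (B := 𝓞 F)]
    refine (algebraMap K F).injective ?_
    rw [Algebra.norm_eq_prod_automorphisms]
    have e := congrArg (algebraMap (𝓞 F) F) hy
    rw [map_prod] at e
    refine Eq.trans ?_ e.symm
    exact Finset.prod_congr rfl fun g _ => rfl
  rw [hrel] at h
  rw [← h]
  have h1 : χ.comp (resHom K (K' := F) (F := F)) = 1 := MonoidHom.ext fun σ => by
    rw [show σ = 1 from AlgEquiv.ext fun x => σ.commutes x, map_one, map_one]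
  rw [h1]
  refine Multiset.prod_eq_one fun a ha => ?_
  obtain ⟨P, -, rfl⟩ := Multiset.mem_map.1 ha
  rw [symb]
  split_ifs <;> rfl

omit [NumberField K] in
/-- Inertia preserves the powers of its prime. -/
theorem smul_mem_pow_of_inertia {F' : Type} [Field F'] [Algebra K F']
    {Q : Ideal (𝓞 F')} {σ : Gal(F'/K)} (hσ : σ ∈ Q.inertia Gal(F'/K)) {m : ℕ} {x : 𝓞 F'}
    (hx : x ∈ Q ^ m) : σ • x ∈ Q ^ m := by
  have h := Ideal.mem_map_of_mem (MulSemiringAction.toRingHom Gal(F'/K) (𝓞 F') σ) hx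
  rw [Ideal.map_pow] at h
  refine Ideal.pow_right_mono (Ideal.map_le_iff_le_comap.2 fun y hy => ?_) m h
  have := Q.add_mem (hσ y) hy
  simpa using this

omit [IsGalois ℚ F] in
open Classical in
/-- **Krasner.** An element of inertia fixing a root of a polynomial close to `∏ (X - g β)` is
trivial on `F`. -/
theorem restrictNormal_eq_one_of_fixes_close {F' : Type} [Field F'] [NumberField F'] [Algebra K F']
    [IsGalois K F'] [Algebra F F'] [IsScalarTower K F F'] {β : 𝓞 F} {N : 𝓞 F'}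
    (hN : ∀ g g' : Gal(F/K), g ≠ g' → algebraMap (𝓞 F) (𝓞 F') (g • β - g' • β) ∣ N)
    (hN0 : N ≠ 0) {Q : Ideal (𝓞 F')} (hQ : Q.IsMaximal) (hNQ : N ∈ Q) {θ : 𝓞 F'}
    (hclose : N ^ (Fintype.card Gal(F/K) + 1) ∣
      ∏ g : Gal(F/K), (θ - algebraMap (𝓞 F) (𝓞 F') (g • β)))
    {σ : Gal(F'/K)} (hσ : σ ∈ Q.inertia Gal(F'/K)) (hfix : σ • θ = θ) :
    AlgEquiv.restrictNormalHom F σ = 1 := by
  let v : HeightOneSpectrum (𝓞 F') :=
    ⟨Q, hQ.isPrime, Ring.ne_bot_of_isMaximal_of_not_isField hQ (RingOfIntegers.not_isField F')⟩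
  obtain ⟨g, hg⟩ : ∃ g : Gal(F/K),
      v.intValuation (θ - algebraMap (𝓞 F) (𝓞 F') (g • β)) < v.intValuation N := by
    by_contra! hall
    have h0 : v.intValuation N ≠ 0 := v.intValuation_ne_zero _ hN0
    have h1 : v.intValuation N < 1 := (v.intValuation_lt_one_iff_mem _).2 hNQ
    have h3 : v.intValuation (∏ g : Gal(F/K), (θ - algebraMap (𝓞 F) (𝓞 F') (g • β))) ≤
        v.intValuation N ^ (Fintype.card Gal(F/K) + 1) := by
      obtain ⟨t, ht⟩ := hclose
      rw [ht, map_mul, map_pow]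
      exact mul_le_of_le_one_right' (v.intValuation_le_one t)
    have h2 : v.intValuation N ^ Fintype.card Gal(F/K) ≤
        v.intValuation (∏ g : Gal(F/K), (θ - algebraMap (𝓞 F) (𝓞 F') (g • β))) := by
      rw [map_prod, ← Finset.card_univ, ← Finset.prod_const]
      exact Finset.prod_le_prod' fun g _ => hall g
    refine absurd (h2.trans h3) (not_le.2 ?_)
    rw [pow_succ]
    exact mul_lt_of_lt_one_right (pow_pos (zero_lt_iff.2 h0) _) h1
  set z := θ - algebraMap (𝓞 F) (𝓞 F') (g • β) with hz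
  set τ := AlgEquiv.restrictNormalHom F σ
  by_contra hτ
  have hne : τ * g ≠ g := fun h => hτ (mul_eq_right.1 h)
  have hdvd := hN _ _ hne
  have e : algebraMap (𝓞 F) (𝓞 F') ((τ * g) • β - g • β) = z - σ • z := by
    rw [map_sub, mul_smul, restrictNormalHom_smul, hz, smul_sub, hfix]
    ring
  rw [e] at hdvd
  obtain ⟨k, hk⟩ : ∃ k : ℕ, v.intValuation N = WithZero.exp (-(k : ℤ)) :=
    ⟨_, v.intValuation_if_neg hN0⟩
  have hzk : z ∈ Q ^ (k + 1) := by
    rw [← v.intValuation_le_pow_iff_mem]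
    rw [hk] at hg
    rcases eq_or_ne z 0 with h0 | h0
    · rw [h0, map_zero]; exact zero_le
    rw [v.intValuation_if_neg h0, WithZero.exp_lt_exp] at hg
    rw [v.intValuation_if_neg h0, WithZero.exp_le_exp]
    push_cast
    omega
  have hmem : N ∈ Q ^ (k + 1) := by
    obtain ⟨t, ht⟩ := hdvd
    rw [ht]
    exact Ideal.mul_mem_right _ _ (sub_mem hzk (smul_mem_pow_of_inertia hσ hzk))
  rw [← v.intValuation_le_pow_iff_mem, hk, WithZero.exp_le_exp] at hmem
  push_cast at hmem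
  omega

variable [IsTotallyComplex K] (χ : Gal(F/K) →* A) (h4 : ∀ σ, χ σ ^ 4 = 1) [IsCyclic χ.range]
  (S : Finset (HeightOneSpectrum (𝓞 K)))
  (hunr : ∀ P : HeightOneSpectrum (𝓞 K), P ∉ S → UnrAt χ P.asIdeal)

include h4 hunr

open Classical in
/-- The value at `1` of an irreducible factor of a close polynomial has trivial symbol. -/
theorem idealSymb_eval_eq_one {β : 𝓞 F} {h : (𝓞 K)[X]}
    (hh : h.map (algebraMap (𝓞 K) (𝓞 F)) = ∏ g : Gal(F/K), (X - C (g • β))) {N : ℕ} (hN0 : N ≠ 0)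
    (hN : ∀ g g' : Gal(F/K), g ≠ g' → g • β - g' • β ∣ (N : 𝓞 F))
    (hNS : ∀ P ∈ S, (N : 𝓞 K) ∈ P.asIdeal) {δ : 𝓞 K}
    (hδ : (N : 𝓞 K) ^ (Fintype.card Gal(F/K) + 1) ∣ δ) {p : (𝓞 K)[X]} (hp : p.Monic)
    (hirr : Irreducible (p.map (algebraMap (𝓞 K) K))) (hpg : p ∣ h + C δ)
    (hcop : ∀ P ∈ S, p.eval 1 ∉ P.asIdeal) (hp0 : p.eval 1 ≠ 0) :
    idealSymb χ (Ideal.span {p.eval 1}) = 1 := by
  set pK := p.map (algebraMap (𝓞 K) K) with hpK
  have hmonic : pK.Monic := hp.map _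
  obtain ⟨θ₀, hθ₀⟩ := IsAlgClosed.exists_aeval_eq_zero (AlgebraicClosure K) pK hirr.degree_pos.ne'
  have halg : IsIntegral ℚ θ₀ := isIntegral_trans (A := K) θ₀ ⟨pK, hmonic, by rwa [← aeval_def]⟩
  have hdvd : pK ∣ (minpoly ℚ θ₀).map (algebraMap ℚ K) := by
    rw [minpoly.eq_of_irreducible_of_monic hirr hθ₀ hmonic]
    exact minpoly.dvd_map_of_isScalarTower ℚ K θ₀
  obtain ⟨F', _, _, _, _, _, _, _, hsp⟩ := exists_extension K F _ (minpoly.ne_zero halg)
  have hsp' : (pK.map (algebraMap K F')).Splits := by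
    refine hsp.of_dvd ((Polynomial.map_ne_zero_iff (algebraMap ℚ F').injective).mpr
      (minpoly.ne_zero halg)) ?_
    rw [IsScalarTower.algebraMap_eq ℚ K F', ← Polynomial.map_map]
    exact Polynomial.map_dvd _ hdvd
  obtain ⟨θF, hθF⟩ := hsp'.exists_eval_eq_zero (by rw [degree_map]; exact hirr.degree_pos.ne')
  have hθev : aeval θF pK = 0 := by rwa [aeval_def, ← eval_map]
  set K' : IntermediateField K F' := K⟮θF⟯
  have hθint : IsIntegral K θF := ⟨pK, hmonic, by rwa [← aeval_def]⟩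
  set pb := IntermediateField.adjoin.powerBasis hθint
  have hmin : minpoly K θF = pK := (minpoly.eq_of_irreducible_of_monic hirr hθev hmonic).symm
  have hintZ : IsIntegral ℤ θF := by
    refine isIntegral_trans (A := 𝓞 K) θF ⟨p, hp, ?_⟩
    rw [← aeval_def, ← aeval_map_algebraMap K, ← hpK]
    exact hθev
  set θ : 𝓞 F' := ⟨θF, hintZ⟩
  set θ' : 𝓞 K' := ⟨pb.gen, (isIntegral_algHom_iff ((IntermediateField.val K').restrictScalars ℤ)
    Subtype.val_injective).mp hintZ⟩
  -- the norm of `1 - θ'`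
  have hnorm : Algebra.norm K ((1 - θ' : 𝓞 K') : K') = ((p.eval 1 : 𝓞 K) : K) := by
    have hr : ((1 - θ' : 𝓞 K') : K') = 1 - pb.gen := rfl
    rw [hr, Algebra.norm_eq_matrix_det pb.basis, map_sub, map_one]
    have h1 := Matrix.eval_charpoly (Algebra.leftMulMatrix pb.basis pb.gen) (1 : K)
    rw [charpoly_leftMulMatrix, show minpoly K pb.gen = pK by
      rw [← hmin, IntermediateField.adjoin.powerBasis_gen, IntermediateField.minpoly_gen],
      map_one] at h1
    rw [← h1, hpK, eval_one_map]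
  have hrel : Ideal.relNorm (𝓞 K) (Ideal.span {1 - θ'}) = Ideal.span {p.eval 1} := by
    rw [Ideal.relNorm_singleton]
    congr 2
    refine IsFractionRing.injective (𝓞 K) K ?_
    rw [Algebra.algebraMap_intNorm (A := 𝓞 K) (K := K) (L := K') (B := 𝓞 K')]
    exact hnorm
  have hr0 : 1 - θ' ≠ 0 := fun h0 => hp0 (by
    rw [h0, Ideal.span_singleton_zero, Ideal.relNorm_bot, eq_comm, Ideal.span_singleton_eq_bot]
      at hrel
    exact hrel)
  -- the root is close to a conjugate of `β` at the bad primes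
  have hclose : (N : 𝓞 F') ^ (Fintype.card Gal(F/K) + 1) ∣
      ∏ g : Gal(F/K), (θ - algebraMap (𝓞 F) (𝓞 F') (g • β)) := by
    have hproot : aeval θ p = 0 := by
      refine RingOfIntegers.coe_injective (K := F') ?_
      rw [← aeval_algebraMap_apply, map_zero, ← aeval_map_algebraMap K, ← hpK]
      exact hθev
    have hroot := aeval_eq_zero_of_dvd_aeval_eq_zero hpg hproot
    rw [map_add, aeval_C, ← aeval_map_algebraMap (𝓞 F), hh, map_prod,
      add_eq_zero_iff_eq_neg] at hroot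
    simp only [map_sub, aeval_X, aeval_C] at hroot
    rw [hroot, dvd_neg]
    simpa using map_dvd (algebraMap (𝓞 K) (𝓞 F')) hδ
  have hN' : ∀ g g' : Gal(F/K), g ≠ g' →
      algebraMap (𝓞 F) (𝓞 F') (g • β - g' • β) ∣ (N : 𝓞 F') := fun g g' hne => by
    simpa using map_dvd (algebraMap (𝓞 F) (𝓞 F')) (hN g g' hne)
  -- the unramified character upstairs
  set χ₁ := inflate (F := F') χ
  have hunr₁ : ∀ P : HeightOneSpectrum (𝓞 K), P ∉ S → UnrAt χ₁ P.asIdeal := fun P hP =>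
    unrAt_inflate (hunr P hP)
  have h41 : ∀ σ, χ₁ σ ^ 4 = 1 := fun σ => h4 _
  have : IsGalois K' F' := IsGalois.tower_top_of_isGalois K K' F'
  have : NumberField K' := NumberField.of_module_finite K K'
  have : IsTotallyComplex K' := isTotallyComplex_of_algebra K K'
  set χ' := χ₁.comp (resHom K (K' := K') (F := F'))
  have hunr' : ∀ P' : Ideal (𝓞 K'), P'.IsMaximal → UnrAt χ' P' := by
    intro P' hP' Q hQ hQP σ hσ
    have hPmax : (P'.under (𝓞 K)).IsMaximal := Ideal.IsMaximal.under _ P'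
    set Pd : HeightOneSpectrum (𝓞 K) := ⟨P'.under (𝓞 K), hPmax.isPrime,
      Ring.ne_bot_of_isMaximal_of_not_isField hPmax (RingOfIntegers.not_isField K)⟩
    have hQK : Q.under (𝓞 K) = Pd.asIdeal := by
      show _ = P'.under (𝓞 K)
      rw [← hQP, Ideal.under_under]
    have hσ' : resHom K σ ∈ Q.inertia Gal(F'/K) := fun y => hσ y
    by_cases hPS : Pd ∈ S
    · have hNQ : (N : 𝓞 F') ∈ Q := by
        have := hNS Pd hPS
        rwa [← hQK, Ideal.mem_comap, map_natCast] at this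
      show χ (AlgEquiv.restrictNormalHom F (resHom K σ)) = 1
      rw [restrictNormal_eq_one_of_fixes_close hN' (Nat.cast_ne_zero.2 hN0) hQ hNQ hclose hσ'
        (RingOfIntegers.ext (σ.commutes pb.gen)), map_one]
    · exact hunr₁ Pd hPS Q hQ hQK _ hσ'
  have : IsCyclic χ'.range := by
    have hle : χ'.range ≤ χ.range := by
      rintro _ ⟨σ, rfl⟩
      exact ⟨_, rfl⟩
    exact isCyclic_of_injective (Subgroup.inclusion hle) (Subgroup.inclusion_injective hle)
  have h1 := idealSymb_span_eq_one_of_unramified χ' (fun σ => h41 _) hunr' hr0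
  have hmem : ∀ P' ∈ normalizedFactors (Ideal.span {1 - θ'}), UnrAt χ₁ (P'.under (𝓞 K)) := by
    intro P' hP'
    have hp' := prime_of_normalized_factor P' hP'
    have : P'.IsMaximal := (Ideal.isPrime_of_prime hp').isMaximal hp'.ne_zero
    have hPmax : (P'.under (𝓞 K)).IsMaximal := Ideal.IsMaximal.under _ P'
    refine hunr₁ ⟨P'.under (𝓞 K), hPmax.isPrime,
      Ring.ne_bot_of_isMaximal_of_not_isField hPmax (RingOfIntegers.not_isField K)⟩ fun hPS => ?_
    refine hcop _ hPS ?_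
    show p.eval 1 ∈ P'.under (𝓞 K)
    have hle := Ideal.relNorm_mono (𝓞 K) (Ideal.le_of_dvd (dvd_of_mem_normalizedFactors hP'))
    rw [hrel] at hle
    have : P'.LiesOver (P'.under (𝓞 K)) := ⟨rfl⟩
    rw [Ideal.relNorm_eq_pow_of_isMaximal P' (P'.under (𝓞 K))] at hle
    exact Ideal.pow_le_self (Ideal.inertiaDeg_pos (R := 𝓞 K) (q := P')).ne'
      (hle (Ideal.mem_span_singleton_self _))
  rw [idealSymb_comp (mt Ideal.span_singleton_eq_bot.mp hr0) hmem, hrel] at h1
  rw [← idealSymb_inflate (F := F') (χ := χ) fun P hP => ?_]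
  · exact h1
  · have hp' := prime_of_normalized_factor P hP
    exact hunr ⟨P, Ideal.isPrime_of_prime hp', hp'.ne_zero⟩ fun hPS => hcop _ hPS
      (Ideal.le_of_dvd (dvd_of_mem_normalizedFactors hP) (Ideal.mem_span_singleton_self _))

open Classical in
/-- The same for every monic factor. -/
theorem idealSymb_eval_factor_eq_one {β : 𝓞 F}
    {h : (𝓞 K)[X]}
    (hh : h.map (algebraMap (𝓞 K) (𝓞 F)) = ∏ g : Gal(F/K), (X - C (g • β))) {N : ℕ} (hN0 : N ≠ 0)
    (hN : ∀ g g' : Gal(F/K), g ≠ g' → g • β - g' • β ∣ (N : 𝓞 F))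
    (hNS : ∀ P ∈ S, (N : 𝓞 K) ∈ P.asIdeal) {δ : 𝓞 K}
    (hδ : (N : 𝓞 K) ^ (Fintype.card Gal(F/K) + 1) ∣ δ) :
    ∀ (n : ℕ) (p : (𝓞 K)[X]), p.natDegree = n → p.Monic → p ∣ h + C δ →
      (∀ P ∈ S, p.eval 1 ∉ P.asIdeal) → p.eval 1 ≠ 0 →
      idealSymb χ (Ideal.span {p.eval 1}) = 1 := by
  intro n
  induction n using Nat.strong_induction_on with
  | _ n ih =>
    intro p hn hp hpg hcop hp0
    by_cases h1 : p = 1
    · rw [h1, eval_one, Ideal.span_singleton_one, ← Ideal.one_eq_top, idealSymb_one]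
    by_cases hirr : Irreducible p
    · exact idealSymb_eval_eq_one χ h4 S hunr hh hN0 hN hNS hδ hp
        ((hp.irreducible_iff_irreducible_map_fraction_map (K := K)).1 hirr) hpg hcop hp0
    rw [irreducible_of_monic hp h1] at hirr
    push Not at hirr
    obtain ⟨a, b, ha, hb, hab, ha1, hb1⟩ := hirr
    have hdeg := ha.natDegree_mul hb
    rw [hab, hn] at hdeg
    have hda : a.natDegree ≠ 0 := fun h0 => ha1 (ha.natDegree_eq_zero.1 h0)
    have hdb : b.natDegree ≠ 0 := fun h0 => hb1 (hb.natDegree_eq_zero.1 h0)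
    subst hab
    rw [eval_mul] at hp0 hcop ⊢
    rw [← Ideal.span_singleton_mul_span_singleton,
      idealSymb_mul χ (mt Ideal.span_singleton_eq_bot.1 (left_ne_zero_of_mul hp0))
        (mt Ideal.span_singleton_eq_bot.1 (right_ne_zero_of_mul hp0)),
      ih a.natDegree (by omega) a rfl ha ((dvd_mul_right a b).trans hpg)
        (fun P hP h => hcop P hP (Ideal.mul_mem_right _ _ h)) (left_ne_zero_of_mul hp0),
      ih b.natDegree (by omega) b rfl hb ((dvd_mul_left b a).trans hpg)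
        (fun P hP h => hcop P hP (Ideal.mul_mem_left _ _ h)) (right_ne_zero_of_mul hp0), one_mul]

open Classical in
/-- **A modulus.** Principal ideals congruent to one to a high modulus have trivial symbol. -/
theorem exists_modulus :
    ∃ C₀ : ℕ, C₀ ≠ 0 ∧ ∀ x : 𝓞 K, x ≠ 0 → (C₀ : 𝓞 K) ∣ x - 1 →
      idealSymb χ (Ideal.span {x}) = 1 := by
  have hpi : ∀ P : HeightOneSpectrum (𝓞 K), ∃ π : 𝓞 K, π ∈ P.asIdeal ∧ π ≠ 0 := fun P =>
    Submodule.exists_mem_ne_zero_of_ne_bot P.ne_bot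
  choose π hπ hπ0 using hpi
  set b := ∏ P ∈ S, π P
  have hb0 : b ≠ 0 := Finset.prod_ne_zero_iff.2 fun P _ => hπ0 P
  obtain ⟨β, hβ, hbβ⟩ := exists_moved (F := F) b hb0
  obtain ⟨h, hh, hdeg, hmon⟩ := lifts_and_natDegree_eq_and_monic
    (Algebra.IsInvariant.charpoly_mem_lifts (𝓞 K) (𝓞 F) Gal(F/K) β)
    (MulSemiringAction.monic_charpoly _ _)
  rw [MulSemiringAction.charpoly_eq] at hh hdeg
  obtain ⟨N₁, hN₁, hbN⟩ := exists_nat_dvd (F := K) hb0
  set D : 𝓞 F := ∏ x ∈ (Finset.univ : Finset (Gal(F/K) × Gal(F/K))).filter fun x => x.1 ≠ x.2,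
    (x.1 • β - x.2 • β)
  have hD0 : D ≠ 0 := Finset.prod_ne_zero_iff.2 fun x hx h0 => (Finset.mem_filter.1 hx).2 (by
    have h1 := congrArg (fun z => x.2⁻¹ • z) (sub_eq_zero.1 h0)
    simp only [← mul_smul, inv_mul_cancel, one_smul] at h1
    exact (inv_mul_eq_one.1 (hβ _ h1)).symm)
  obtain ⟨N₂, hN₂, hDN⟩ := exists_nat_dvd hD0
  set N := N₁ * N₂
  set n := Fintype.card Gal(F/K)
  refine ⟨N ^ (n + 1), pow_ne_zero _ (mul_ne_zero hN₁ hN₂), fun x hx hx1 => ?_⟩
  have hNS : ∀ P ∈ S, (N : 𝓞 K) ∈ P.asIdeal := fun P hP => by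
    rw [Nat.cast_mul]
    exact Ideal.mul_mem_right _ _ (Ideal.mem_of_dvd _ hbN (Ideal.prod_mem _ hP (hπ P)))
  have hdvdN : ∀ g g' : Gal(F/K), g ≠ g' → g • β - g' • β ∣ (N : 𝓞 F) := fun g g' hne => by
    rw [Nat.cast_mul]
    refine ((Finset.dvd_prod_of_mem (fun x : Gal(F/K) × Gal(F/K) => x.1 • β - x.2 • β)
      (a := (g, g')) ?_).trans hDN).mul_left _
    exact Finset.mem_filter.2 ⟨Finset.mem_univ _, hne⟩
  -- the norm `h 1`
  have hy : algebraMap (𝓞 K) (𝓞 F) (h.eval 1) = ∏ g : Gal(F/K), g • (1 - β) := by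
    rw [← eval_one_map, hh, eval_prod]
    exact Finset.prod_congr rfl fun g _ => by
      rw [eval_sub, eval_X, eval_C, smul_sub, smul_one]
  have hβP : ∀ (Q : Ideal (𝓞 F)), Q ≠ ⊤ → ∀ P ∈ S, P.asIdeal = Q.under (𝓞 K) → 1 - β ∉ Q :=
    fun Q hQ P hP hPQ hm => by
      refine hQ ((Ideal.eq_top_iff_one _).2 ?_)
      have hb : algebraMap (𝓞 K) (𝓞 F) b ∈ Q :=
        Ideal.mem_comap.1 (hPQ ▸ Ideal.prod_mem _ hP (hπ P) : b ∈ Q.under (𝓞 K))
      simpa using Q.add_mem hm (Q.mem_of_dvd hbβ hb)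
  have hz0 : (1 - β : 𝓞 F) ≠ 0 ∨ S = ∅ := by
    rcases S.eq_empty_or_nonempty with h0 | ⟨P, hP⟩
    · exact Or.inr h0
    · have := P.isMaximal
      obtain ⟨Q, hQ, hQP⟩ := exists_prime_over (F := F) P.asIdeal
      exact Or.inl fun h0 => hβP Q hQ.ne_top P hP hQP.symm (h0 ▸ Q.zero_mem)
  rcases hz0 with hz | hS
  swap
  · exact idealSymb_span_eq_one_of_unramified χ h4 (fun P hP => hunr
      ⟨P, hP.isPrime, Ring.ne_bot_of_isMaximal_of_not_isField hP (RingOfIntegers.not_isField K)⟩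
      (by simp [hS])) hx
  have hy0 : h.eval 1 ≠ 0 := fun h0 => by
    rw [h0, map_zero, eq_comm, Finset.prod_eq_zero_iff] at hy
    obtain ⟨g, -, hg⟩ := hy
    exact hz (by simpa using congrArg (fun z => g⁻¹ • z) hg)
  have hyS : ∀ P ∈ S, h.eval 1 ∉ P.asIdeal := fun P hP hm => by
    have := P.isMaximal
    obtain ⟨Q, hQ, hQP⟩ := exists_prime_over (F := F) P.asIdeal
    rw [← hQP, Ideal.mem_comap, hy, hQ.isPrime.prod_mem_iff] at hm
    obtain ⟨g, -, hg⟩ := hm
    have hb : algebraMap (𝓞 K) (𝓞 F) b ∈ Q :=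
      Ideal.mem_comap.1 (hQP.symm ▸ Ideal.prod_mem _ hP (hπ P) : b ∈ Q.under (𝓞 K))
    refine hQ.ne_top ((Ideal.eq_top_iff_one _).2 ?_)
    rw [smul_sub, smul_one] at hg
    obtain ⟨t, ht⟩ := hbβ
    have hgb : g • algebraMap (𝓞 K) (𝓞 F) b = algebraMap (𝓞 K) (𝓞 F) b :=
      RingOfIntegers.ext (g.commutes (b : K))
    have : g • β ∈ Q := by
      rw [ht, smul_mul', hgb]
      exact Q.mul_mem_right _ hb
    simpa using Q.add_mem hg this
  have hysymb : idealSymb χ (Ideal.span {h.eval 1}) = 1 :=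
    idealSymb_norm_eq_one χ hz hy fun P' hP' => by
      have hp' := prime_of_normalized_factor P' hP'
      have : P'.IsMaximal := (Ideal.isPrime_of_prime hp').isMaximal hp'.ne_zero
      have hPmax : (P'.under (𝓞 K)).IsMaximal := Ideal.IsMaximal.under _ P'
      exact hunr ⟨P'.under (𝓞 K), hPmax.isPrime,
        Ring.ne_bot_of_isMaximal_of_not_isField hPmax (RingOfIntegers.not_isField K)⟩ fun hPS =>
        hβP P' this.ne_top _ hPS rfl
          (Ideal.le_of_dvd (dvd_of_mem_normalizedFactors hP') (Ideal.mem_span_singleton_self _))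
  set δ := (x - 1) * h.eval 1
  have hδ : (N : 𝓞 K) ^ (n + 1) ∣ δ := by
    rw [Nat.cast_pow] at hx1
    exact hx1.mul_right _
  have hev : (h + C δ).eval 1 = x * h.eval 1 := by
    rw [eval_add, eval_C]
    ring
  have hdh : 0 < h.natDegree := by
    rw [hdeg, natDegree_prod _ _ fun g _ => X_sub_C_ne_zero _]
    simp only [natDegree_X_sub_C]
    simpa using Fintype.card_pos (α := Gal(F/K))
  have hgm : (h + C δ).Monic := hmon.add_of_left (lt_of_le_of_lt degree_C_le
    (natDegree_pos_iff_degree_pos.1 hdh))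
  have hxS : ∀ P ∈ S, x ∉ P.asIdeal := fun P hP hxP => P.isPrime.ne_top
    ((Ideal.eq_top_iff_one _).2 (by
      have h1 : x - 1 ∈ P.asIdeal := Ideal.mem_of_dvd _ hx1 (by
        rw [Nat.cast_pow]; exact Ideal.pow_mem_of_mem _ (hNS P hP) _ n.succ_pos)
      simpa using sub_mem hxP h1))
  have hmain := idealSymb_eval_factor_eq_one χ h4 S hunr hh (mul_ne_zero hN₁ hN₂) hdvdN hNS hδ
    _ (h + C δ) rfl hgm dvd_rfl
    (fun P hP hm => (P.isPrime.mem_or_mem (hev ▸ hm)).elim (hxS P hP) (hyS P hP))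
    (hev ▸ mul_ne_zero hx hy0)
  rw [hev, ← Ideal.span_singleton_mul_span_singleton,
    idealSymb_mul χ (mt Ideal.span_singleton_eq_bot.1 hx) (mt Ideal.span_singleton_eq_bot.1 hy0),
    hysymb, mul_one] at hmain
  exact hmain

end Fermat.Agent.Extra.LTGen

end
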