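import Fermat.Agent.Extra.LTGen.Dihedral.GaloisChar
import Fermat.Agent.Extra.LTGen.Dihedral.Data
import Fermat.Agent.LT.Dihedral.GaloisData

/-!
# The dihedral data of a `Q₈`-extension with arbitrary ramification

The period is twice a natural number which is a multiple of a modulus of the character and of a
difference `a - ā`, so it kills the inverse different without tameness.
-/

set_option autoImplicit false
set_option linter.unusedSectionVars false
set_option maxHeartbeats 1600000

noncomputable section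

namespace Fermat.Agent.Extra.LTGen

open Fermat.Agent.LT Fermat.Agent.LT.Dihedral
open NumberField IsDedekindDomain UniqueFactorizationMonoid
open scoped Pointwise MatrixGroups

variable {K M L : Type} [Field K] [NumberField K] [Field M] [NumberField M] [Field L]
  [NumberField L] [Algebra K M] [Algebra K L] [Algebra M L] [IsScalarTower K M L]
  [IsGalois K L] [IsGalois M L]

omit [Field L] [NumberField L] [Algebra K L] [Algebra M L] [IsScalarTower K M L] [IsGalois K L]
  [IsGalois M L] in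
/-- Some integer is moved. -/
theorem exists_conjO_sub_ne (D : Quad K M) : ∃ a : 𝓞 M, a - D.conjO a ≠ 0 := by
  by_contra hz
  push Not at hz
  refine D.conj_ne (AlgEquiv.ext fun z => ?_)
  obtain ⟨a, b, -, rfl⟩ := IsFractionRing.div_surjective (A := 𝓞 M) z
  have e : ∀ a : 𝓞 M, D.conj (a : M) = a := fun a =>
    congrArg (fun w : 𝓞 M => (w : M)) (sub_eq_zero.1 (hz a)).symm
  rw [map_div₀, AlgEquiv.one_apply]
  exact congrArg₂ (· / ·) (e a) (e b)

omit [Field L] [NumberField L] [Algebra K L] [Algebra M L] [IsScalarTower K M L] [IsGalois K L]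
  [IsGalois M L] in
/-- A multiple of a difference `a - ā` kills the inverse different. -/
theorem natCast_mul_isIntegral (D : Quad K M) {z : M}
    (hz : ∀ a : 𝓞 M, IsIntegral ℤ (Algebra.trace K M (z * (a : M)))) {a : 𝓞 M} {n : ℕ}
    (hdvd : a - D.conjO a ∣ (n : 𝓞 M)) : IsIntegral ℤ ((n : M) * z) := by
  have h1 : IsIntegral ℤ (algebraMap K M (Algebra.trace K M (z * (a : M)))) :=
    (hz a).map (algebraMap K M).toIntAlgHom
  have h2 : IsIntegral ℤ (algebraMap K M (Algebra.trace K M (z * ((1 : 𝓞 M) : M)))) :=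
    (hz 1).map (algebraMap K M).toIntAlgHom
  rw [D.trace_eq] at h1 h2
  have h3 : IsIntegral ℤ ((D.conjO a : 𝓞 M) : M) := RingOfIntegers.isIntegral_coe _
  have h4 := h1.sub (h3.mul h2)
  obtain ⟨r, hr⟩ := hdvd
  have e : (n : M) * z = (r : M) * (z * (a : M) + D.conj (z * (a : M)) -
      ((D.conjO a : 𝓞 M) : M) * (z * ((1 : 𝓞 M) : M) + D.conj (z * ((1 : 𝓞 M) : M)))) := by
    rw [show (n : M) = ((a - D.conjO a : 𝓞 M) : M) * (r : M) by rw [← map_mul, ← hr, map_natCast]]
    simp [map_mul]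
    ring
  rw [e]
  exact r.isIntegral_coe.mul h4

namespace GenTower

variable {c : ℕ} (T : GenTower K M L c)

/-- Above a prime `Q` of `M`: a prime of `L` with a Frobenius element of the prime below. -/
theorem exists_prime_frob (Q : Ideal (𝓞 M)) [Q.IsMaximal] :
    ∃ (P : Ideal (𝓞 L)) (g : Gal(L/K)), P.IsMaximal ∧ P.under (𝓞 M) = Q ∧
      IsArithFrobAt (𝓞 K) g P := by
  obtain ⟨P, hP, hPQ⟩ := Recip.exists_prime_over (F := L) Q
  obtain ⟨g, hg⟩ := Recip.exists_frob (K := K) P
  exact ⟨P, g, hP, hPQ, hg⟩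

include T in
/-- The involution moves some integer modulo every prime away from `c`. -/
theorem exists_sub_notMem {D : Quad K M} (hD : ∀ g : Gal(L/K), T.phi g ∉ c4Group →
      ∀ x : M, g (algebraMap M L x) = algebraMap M L (D.conj x))
    {Q : Ideal (𝓞 M)} (hQ : Q.IsMaximal) (hc : (c : 𝓞 M) ∉ Q) :
    ∃ a : 𝓞 M, D.conjO a - a ∉ Q := by
  obtain ⟨P, g, hP, rfl, hg⟩ := exists_prime_frob (K := K) (L := L) Q
  refine exists_conjO_sub_notMem P D (T.inertia_eq P hP fun h => hc (by
    rw [Ideal.mem_comap, map_natCast]; exact h)) hg ?_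
  by_cases hm : T.phi g ∈ c4Group
  · exact Or.inl ((T.fixes_iff g).1 hm)
  · exact Or.inr (hD g hm)

/-- **The dihedral data.** -/
theorem exists_dihData [IsTotallyComplex M] [IsGalois ℚ L] (T : GenTower K M L c) :
    ∃ (D : GenDihData K M) (c' : ℕ), c' ≠ 0 ∧ D.cond = (c' : 𝓞 K) ∧
      ∀ P : Ideal (𝓞 L), P.IsMaximal → (c' : 𝓞 L) ∉ P → ∀ g : Gal(L/K),
        IsArithFrobAt (𝓞 K) g P → ∀ v : HeightOneSpectrum (𝓞 K), v.asIdeal = P.under (𝓞 K) →
        D.eig v = ((octRep (T.phi g) : GL (Fin 2) ℂ) : Matrix (Fin 2) (Fin 2) ℂ).trace := by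
  classical
  obtain ⟨D, hD⟩ := T.exists_quad
  obtain ⟨a, ha⟩ := exists_conjO_sub_ne D
  obtain ⟨nd, hnd, hdvd⟩ := exists_nat_dvd ha
  obtain ⟨C₀, hC₀, hmod⟩ := T.exists_modulus_chiM
  set h' := c * C₀ * nd
  have hh' : h' ≠ 0 := mul_ne_zero (mul_ne_zero T.cond_ne hC₀) hnd
  let T' := T.mono (c' := 2 * h') ((dvd_mul_right c C₀).mul_right nd |>.mul_left 2)
    (mul_ne_zero two_ne_zero hh')
  have halg : algebraMap (𝓞 K) (𝓞 M) ((2 * h' : ℕ) : 𝓞 K) = ((2 * h' : ℕ) : 𝓞 M) :=
    map_natCast _ _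
  have hbelow : ∀ P : Ideal (𝓞 L), ((2 * h' : ℕ) : 𝓞 K) ∉ P.under (𝓞 K) →
      ((2 * h' : ℕ) : 𝓞 L) ∉ P := fun P h =>
    T'.natCast_notMem_of_under h
  let Dat : GenDihData K M :=
    { toQuad := D
      half := h'
      cond := (2 * h' : ℕ)
      cond_ne := Nat.cast_ne_zero.2 T'.cond_ne
      cond_eq := by push_cast; rfl
      diff := fun z hz => by
        rw [show algebraMap K M (((h' : 𝓞 K) : K)) = (h' : M) by simp]
        exact natCast_mul_isIntegral D hz (hdvd.trans (Nat.cast_dvd_cast (dvd_mul_left nd (c * C₀))))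
      chi := T'.chiI
      chi_bot := if_neg fun h => h.1 rfl
      chi_eq_zero := fun I hI => T'.chiI_eq_zero (by rwa [halg] at hI)
      norm_chi := fun I h0 hI => T'.norm_chiI h0 (by rwa [halg] at hI)
      chi_periodic := fun p q hp hq h => T'.chiI_periodic (dvd_mul_right 2 h')
        (((dvd_mul_left C₀ c).mul_right nd).mul_left 2) hmod p q hp hq (by rwa [halg] at h)
      inert_or_split := fun v hv => by
        have : v.asIdeal.IsMaximal := v.isMaximal
        have := D.isGalois
        obtain ⟨Q, hQ, hQv⟩ := Recip.exists_prime_over (F := M) v.asIdeal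
        obtain ⟨P, g, hP, rfl, hg⟩ := exists_prime_frob (K := K) (L := L) Q
        rw [under_base_mid] at hQv
        have hc : ((2 * h' : ℕ) : 𝓞 L) ∉ P := hbelow P (hQv ▸ hv)
        rw [← hQv]
        by_cases hm : T'.phi g ∈ c4Group
        · obtain ⟨hne, hmap, hchi, hchi'⟩ := T'.chiI_split hD hc hg hm
          refine Or.inr ⟨P.under (𝓞 M), hQ.isPrime, hne, hmap, ?_⟩
          rw [hchi, hchi', ← Units.val_mul, ← map_mul, mul_inv_cancel, map_one, Units.val_one]
        · obtain ⟨hmap, hchi⟩ := T'.chiI_extI_inert hD hc hg hm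
          refine Or.inl ⟨hmap.symm ▸ hQ.isPrime, hmap.symm ▸ hchi, ?_⟩
          rw [hmap]
          exact T'.exists_sub_notMem hD hQ fun h => hc (by
            have := Ideal.mem_comap.1 h; rwa [map_natCast] at this)
      nontrivial := fun T₀ => by
        obtain ⟨σ, hσI, hσgen⟩ := T'.exists_chiM_I
        set T₁ : Finset (HeightOneSpectrum (𝓞 M)) := T₀.biUnion fun v =>
          (Ideal.finite_factors (I := extI K M v.asIdeal)
            ((Ideal.map_eq_bot_iff_of_injective
              (FaithfulSMul.algebraMap_injective (𝓞 K) (𝓞 M))).not.mpr v.ne_bot)).toFinset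
        obtain ⟨Q, hQT, hQS, hgen⟩ :=
          Recip.exists_symb_generator T'.chiM T'.chiM_pow_four T'.badM σ T₁ hσgen
        rw [T'.mem_badM] at hQS
        have : Q.asIdeal.IsMaximal := Q.isMaximal
        obtain ⟨P, g, hP, hPQ, hg⟩ := exists_prime_frob (K := K) (L := L) Q.asIdeal
        have hc : ((2 * h' : ℕ) : 𝓞 L) ∉ P := T'.natCast_notMem_of_under (R := 𝓞 M) (hPQ ▸ hQS)
        have hQ : (P.under (𝓞 M)).IsMaximal := under_mid_isMaximal P
        refine ⟨⟨P.under (𝓞 K), (under_base_isMaximal P).isPrime, under_base_ne_bot P⟩,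
          fun hv => hQT ?_, fun h => hc (by
            have := Ideal.mem_comap.1 h; rwa [map_natCast] at this), ?_⟩
        · refine Finset.mem_biUnion.2 ⟨_, hv, ?_⟩
          rw [Set.Finite.mem_toFinset]
          show Q.asIdeal ∣ _
          rw [Ideal.dvd_iff_le, Ideal.map_le_iff_le_comap, ← hPQ]
          exact (under_base_mid P).ge
        have hnsq : ((Recip.symb T'.chiM Q.asIdeal : ℂˣ) : ℂ) ^ 2 ≠ 1 := by
          intro hsq
          have hmem : T'.chiM σ ∈ Subgroup.zpowers (Recip.symb T'.chiM Q.asIdeal) :=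
            hgen ▸ ⟨σ, rfl⟩
          obtain ⟨k, hk⟩ := Subgroup.mem_zpowers_iff.1 hmem
          have h2 : T'.chiM σ ^ 2 = 1 := by
            rw [← hk, ← zpow_natCast, ← zpow_mul, mul_comm k, zpow_mul, zpow_natCast,
              show Recip.symb T'.chiM Q.asIdeal ^ 2 = 1 from
                Units.ext (by rw [Units.val_pow_eq_pow_val, hsq, Units.val_one]), one_zpow]
          have := congrArg Units.val h2
          rw [Units.val_pow_eq_pow_val, hσI, Complex.I_sq, Units.val_one] at this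
          norm_num at this
        rw [← T'.chiI_prime ‹_› hQS, ← hPQ] at hnsq
        by_cases hm : T'.phi g ∈ c4Group
        · obtain ⟨hne, hmap, -, -⟩ := T'.chiI_split hD hc hg hm
          exact ⟨P.under (𝓞 M), hQ.isPrime, hne, hmap, hnsq⟩
        · obtain ⟨-, hchi⟩ := T'.chiI_extI_inert hD hc hg hm
          rw [hchi] at hnsq
          norm_num at hnsq }
  refine ⟨Dat, 2 * h', mul_ne_zero two_ne_zero hh', rfl, fun P hP hc g hg v hv => ?_⟩
  show ∑ᶠ I ∈ {I : Ideal (𝓞 M) | I * D.conjI I = extI K M v.asIdeal}, T'.chiI I = _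
  rw [hv]
  have hQ : (P.under (𝓞 M)).IsMaximal := under_mid_isMaximal P
  by_cases hm : T'.phi g ∈ c4Group
  · obtain ⟨hne, hmap, hchi, hchi'⟩ := T'.chiI_split hD hc hg hm
    rw [hmap, setOf_conjI_eq_split D hQ, finsum_mem_pair hne.symm, hchi, hchi']
    exact (octRep_trace_c4 ⟨T'.phi g, hm⟩).symm
  · obtain ⟨hmap, -⟩ := T'.chiI_extI_inert hD hc hg hm
    rw [hmap, setOf_conjI_eq_inert D hQ, finsum_mem_empty,
      show ((octRep (T.phi g) : GL (Fin 2) ℂ) : Matrix (Fin 2) (Fin 2) ℂ).trace = 0 from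
        octRep_trace_notC4 (T.mem_quat g) hm]

end GenTower

end Fermat.Agent.Extra.LTGen

end
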