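import Fermat.Agent.LT.Descent.Field
import Fermat.Agent.Extra.LTGen.Defs

/-!
# The frame of `F'` for a general octahedral representation
-/

set_option autoImplicit false

noncomputable section

open Fermat.Agent.Galois Fermat.Agent.LT Fermat.Agent.LT.Adelic Fermat.Agent.LT.Descent NumberField
open WeierstrassCurve
open scoped MatrixGroups

namespace Fermat.Agent.Extra.LTGen

variable {ρ : GalQ →* GL (Fin 2) (ZMod 3)}

theorem fieldF_le_gen (hρ : IsThreeRho ρ) : fieldF ≤ fieldF' ρ := by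
  intro x hx g
  refine hx ⟨g.1, ?_⟩
  obtain ⟨hdet, -⟩ := mem_quatSubgroup.1 g.2
  show modThreeCyclotomicChar g.1 = 1
  rw [← hρ.det]
  refine Units.ext ?_
  rw [Matrix.GeneralLinearGroup.val_det_apply, Matrix.det_fin_two, hdet, Units.val_one]

theorem fixing_fieldF'_gen (hρ : IsThreeRho ρ) (σ : GalQ) :
    (∀ x : fieldF' ρ, σ (x : Qbar) = x) ↔ ρ σ ∈ quatSubgroup :=
  Density.fixing_iff_mem ρ hρ.factors quatSubgroup σ

theorem mem_kerOmega_gen (hρ : IsThreeRho ρ) (σ : GalQ) :
    (∀ x : fieldF, σ (x : Qbar) = x) ↔ σ ∈ kerOmega := by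
  have h := Density.fixing_iff_mem ρ hρ.factors
    (Matrix.GeneralLinearGroup.det : GL (Fin 2) (ZMod 3) →* (ZMod 3)ˣ).ker σ
  have e : (Matrix.GeneralLinearGroup.det : GL (Fin 2) (ZMod 3) →* (ZMod 3)ˣ).ker.comap ρ =
      kerOmega := by
    ext τ
    simp only [Subgroup.mem_comap, kerOmega, MonoidHom.mem_ker, hρ.det]
  rw [← Subgroup.mem_comap, e] at h
  exact h

theorem exists_lift_gen (hρ : IsThreeRho ρ) : ∃ g : GalQ, ρ g = unipThree :=
  hρ.surjective unipThree

theorem mem_kerOmega_of_lift_gen (hρ : IsThreeRho ρ) {g : GalQ} (hg : ρ g = unipThree) :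
    g ∈ kerOmega := by
  show modThreeCyclotomicChar g = 1
  rw [← hρ.det, hg, det_unipThree]

/-- Every element of `Gal(ℚ̄/F)` is a power of the lift times an element fixing `F'`. -/
theorem exists_pow_mul_gen (hρ : IsThreeRho ρ) {g h : GalQ} (hg : ρ g = unipThree)
    (hh : h ∈ kerOmega) : ∃ i : Fin 3, ρ ((g ^ (i : ℕ))⁻¹ * h) ∈ quatSubgroup := by
  have hd : (ρ h) 0 0 * (ρ h) 1 1 - (ρ h) 0 1 * (ρ h) 1 0 = 1 := by
    rw [← Matrix.det_fin_two, ← Matrix.GeneralLinearGroup.val_det_apply, hρ.det,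
      MonoidHom.mem_ker.1 hh, Units.val_one]
  have e1 : (ρ g)⁻¹ = ⟨!![1, -1; 0, 1], !![1, 1; 0, 1], by decide, by decide⟩ := by
    rw [hg]; rfl
  rcases inQuat_cases _ _ _ _ hd with h0 | h1 | h2
  · exact ⟨0, by simpa [mem_quatSubgroup] using h0⟩
  · refine ⟨1, ?_⟩
    rw [mem_quatSubgroup]
    simpa [map_mul, e1, Matrix.mul_apply, Fin.sum_univ_two, sub_eq_add_neg] using h1
  · refine ⟨2, ?_⟩
    have e2 : ((ρ g) ^ 2)⁻¹ = ρ g := by
      rw [hg]; exact inv_eq_of_mul_eq_one_right (by rw [← pow_succ, unipThree_pow_three])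
    rw [mem_quatSubgroup, map_mul, map_inv, map_pow]
    show InQuat _ _ _ _
    rw [show ((2 : Fin 3) : ℕ) = 2 from rfl, e2, hg]
    simpa [unipThree, Matrix.mul_apply, Fin.sum_univ_two] using h2

theorem pow_mem_kerOmega_gen (hρ : IsThreeRho ρ) {g : GalQ} (hg : ρ g = unipThree) (i : ℕ) :
    g ^ i ∈ kerOmega :=
  pow_mem (mem_kerOmega_of_lift_gen hρ hg) i

theorem eq_of_fixes_gen (hρ : IsThreeRho ρ) {g : GalQ} (hg : ρ g = unipThree) {i j : Fin 3}
    (h : ∀ x : fieldF' ρ, (g ^ (i : ℕ)) (x : Qbar) = (g ^ (j : ℕ)) (x : Qbar)) : i = j := by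
  have h1 := (fixing_fieldF'_gen hρ ((g ^ (i : ℕ))⁻¹ * g ^ (j : ℕ))).1 fun x => by
    rw [AlgEquiv.mul_apply, ← h x, AlgEquiv.aut_inv, AlgEquiv.symm_apply_apply]
  rw [map_mul, map_inv, map_pow, map_pow, hg] at h1
  have key : ∀ n : ℕ, n < 3 → unipThree ^ n ∈ quatSubgroup → n = 0 := by
    intro n hn hm
    interval_cases n
    · rfl
    · exact absurd (pow_one unipThree ▸ hm) unipThree_not_mem
    · exact absurd hm unipThree_sq_not_mem
  by_contra hne
  have h2 : ∀ k : ℕ, unipThree ^ (3 + k) = unipThree ^ k := fun k => by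
    rw [pow_add, unipThree_pow_three, one_mul]
  rcases lt_or_gt_of_ne (fun hv : (i : ℕ) = j => hne (Fin.ext hv)) with hlt | hlt
  · rw [show (j : ℕ) = i + (j - i) by omega, pow_add, inv_mul_cancel_left] at h1
    have := key _ (by omega) h1
    omega
  · rw [show (i : ℕ) = j + (i - j) by omega, pow_add, mul_inv_rev, inv_mul_cancel_right] at h1
    have := key _ (by omega) (inv_mem_iff.1 h1)
    omega

theorem conjugate_ne_of_restrict_gen (hρ : IsThreeRho ρ) {g g' : GalQ} (hg : g ∈ kerOmega)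
    (hg' : g' ∈ kerOmega) :
    ∃ x : fieldF, starRingEnd ℂ (complexEmbedding (g (x : Qbar))) ≠
      complexEmbedding (g' (x : Qbar)) := by
  by_contra h
  push Not at h
  refine complexConjugation_not_mem_kerOmega ((mem_kerOmega_gen hρ _).1 fun x => ?_)
  refine complexEmbedding_injective ?_
  rw [complexEmbedding_complexConjugation]
  have h1 := h x
  rwa [(mem_kerOmega_gen hρ g).2 hg, (mem_kerOmega_gen hρ g').2 hg'] at h1

/-- The frame of `F'`: the embedding moved by the powers of a lift of a generator. -/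
def frameF'_gen (hρ : IsThreeRho ρ) {g : GalQ} (hg : ρ g = unipThree) [NumberField (fieldF' ρ)] :
    Frame (fieldF' ρ) (Fin 3) where
  emb i := embF' ρ (g ^ (i : ℕ))
  complex i := isComplex_of_conj_ne fun he => by
    obtain ⟨x, hx⟩ := conjugate_ne_of_restrict_gen hρ (pow_mem_kerOmega_gen hρ hg i)
      (pow_mem_kerOmega_gen hρ hg i)
    exact hx (RingHom.congr_fun he (IntermediateField.inclusion (fieldF_le_gen hρ) x))
  bij := by
    refine ⟨fun i j hij => ?_, fun w => ?_⟩
    · rcases InfinitePlace.mk_eq_iff.1 hij with he | he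
      · exact eq_of_fixes_gen hρ hg fun x => complexEmbedding_injective (RingHom.congr_fun he x)
      · obtain ⟨x, hx⟩ := conjugate_ne_of_restrict_gen hρ (pow_mem_kerOmega_gen hρ hg i)
          (pow_mem_kerOmega_gen hρ hg j)
        exact absurd (RingHom.congr_fun he (IntermediateField.inclusion (fieldF_le_gen hρ) x)) hx
    · obtain ⟨h, hh⟩ := exists_lift_embedding (fieldF' ρ) w.embedding
      have key : ∀ a b : (ZMod 3)ˣ, a ≠ 1 → b ≠ 1 → a * b = 1 := by decide
      by_cases hm : h ∈ kerOmega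
      · obtain ⟨i, hi⟩ := exists_pow_mul_gen hρ hg hm
        refine ⟨i, Eq.trans ?_ (InfinitePlace.mk_embedding w)⟩
        refine congrArg InfinitePlace.mk (RingHom.ext fun x => ?_)
        have h1 := congrArg (g ^ (i : ℕ)) ((fixing_fieldF'_gen hρ _).2 hi x)
        rw [AlgEquiv.mul_apply, AlgEquiv.aut_inv, AlgEquiv.apply_symm_apply] at h1
        rw [hh, h1]
        rfl
      · have hc : complexConjugation * h ∈ kerOmega := by
          show modThreeCyclotomicChar _ = 1
          rw [map_mul]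
          exact key _ _ complexConjugation_not_mem_kerOmega hm
        obtain ⟨i, hi⟩ := exists_pow_mul_gen hρ hg hc
        refine ⟨i, Eq.trans ?_ (InfinitePlace.mk_embedding w)⟩
        rw [InfinitePlace.mk_eq_iff]
        refine Or.inr (RingHom.ext fun x => ?_)
        have h1 := congrArg (g ^ (i : ℕ)) ((fixing_fieldF'_gen hρ _).2 hi x)
        rw [AlgEquiv.mul_apply, AlgEquiv.aut_inv, AlgEquiv.apply_symm_apply,
          AlgEquiv.mul_apply] at h1
        rw [hh]
        show starRingEnd ℂ (complexEmbedding ((g ^ (i : ℕ)) (x : Qbar))) = _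
        refine (congrArg (fun q => starRingEnd ℂ (complexEmbedding q)) h1.symm).trans ?_
        rw [complexEmbedding_complexConjugation, Complex.conj_conj]

end Fermat.Agent.Extra.LTGen

end
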