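import Fermat.Agent.Extra.LTGen.Dihedral.Data
import Fermat.Agent.Extra.LTGen.Defs

/-!
# The pieces of the general dihedral construction
-/

set_option autoImplicit false

noncomputable section

namespace Fermat.Agent.Extra.LTGen

open Fermat.Agent.LT Fermat.Agent.Galois Fermat.Agent.LT.Adelic NumberField IsDedekindDomain
open scoped MatrixGroups

/-- The quadratic extension of `F'`, the character, a period and the eigenvalues. -/
def HasDihDataGen (ρ : GalQ →* GL (Fin 2) (ZMod 3)) [NumberField (fieldF' ρ)] : Prop :=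
  ∃ (_ : Frame (fieldF' ρ) (Fin 3)) (M : Type) (_ : Field M) (_ : NumberField M)
    (_ : Algebra (fieldF' ρ) M) (D : GenDihData (fieldF' ρ) M) (c : ℕ),
    D.cond ∣ (c : 𝓞 (fieldF' ρ)) ∧ c ≠ 0 ∧
    ∀ w : HeightOneSpectrum (𝓞 (fieldF' ρ)), PrimeTo c w →
      ∀ σ, IsFrobOver (fieldF' ρ) w.asIdeal σ → D.eig w = octTrace ρ σ

/-- The Galois side of C1. -/
def StmtDihDataGen : Prop :=
  ∀ (ρ : GalQ →* GL (Fin 2) (ZMod 3)) [NumberField (fieldF' ρ)],
    IsThreeRho ρ → HasDihDataGen ρ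

/-- The theta side of C1: data give a cusp form of some level with the eigenvalues of the data. -/
def StmtThetaGen : Prop :=
  ∀ (K M : Type) [Field K] [NumberField K] [Field M] [NumberField M] [Algebra K M]
    (D : GenDihData K M) (Φ : Frame K (Fin 3)),
    ∃ (U : Subgroup (GfK K)) (φ : Space Φ U → ℂ),
      principalLevel _ (D.cond ^ 3) ≤ U ∧ U ≤ principalLevel _ 1 ∧ IsCuspEigen φ ∧
      ∀ v : HeightOneSpectrum (𝓞 K), D.cond ∉ v.asIdeal → IsHeckeEigenAt φ v (D.eig v)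

theorem stmtDihedralGen_of (hd : StmtDihDataGen) (ht : StmtThetaGen) : StmtDihedralGen := by
  intro ρ _ hρ
  obtain ⟨Φ, M, _, _, _, D, c, hdvd, hc, hfrob⟩ := hd ρ hρ
  obtain ⟨U, φ, hU, hU1, hφ, heig⟩ := ht (fieldF' ρ) M D Φ
  refine ⟨Φ, c ^ 3, U, φ, pow_ne_zero _ hc,
    (principalLevel_mono (by simpa using pow_dvd_pow_of_dvd hdvd 3)).trans hU, hU1, hφ,
    fun w hw σ hσ => ?_⟩
  have hw' : PrimeTo c w := fun h => hw (by
    rw [Nat.cast_pow]
    exact Ideal.pow_mem_of_mem _ h 3 (by norm_num))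
  rw [← hfrob w hw' σ hσ]
  exact heig w fun h => hw' (by
    obtain ⟨d, hd'⟩ := hdvd
    rw [hd']
    exact Ideal.mul_mem_right _ _ h)

end Fermat.Agent.Extra.LTGen
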