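import Fermat.Agent.LT.Dihedral.GaloisTower
import Fermat.Agent.Extra.LTGen.Dihedral.GaloisData
import Fermat.Agent.Extra.LTGen.Dihedral.Pieces
import Fermat.Agent.Extra.LTGen.Dihedral.GaloisField

/-!
# The Galois side of C1 for a general octahedral representation

The period is a multiple of the primes with nontrivial inertia, of a modulus of the character and
of the different: no local hypothesis on `ρ` is used.
-/

set_option autoImplicit false
set_option maxHeartbeats 1600000
set_option linter.style.haveILetI false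

noncomputable section

namespace Fermat.Agent.Extra.LTGen

open Fermat.Agent.LT Fermat.Agent.LT.Dihedral
open Fermat.Agent.Galois NumberField IsDedekindDomain
open scoped MatrixGroups Pointwise

/-- Outside some nonzero natural number inertia is trivial. -/
theorem exists_unramified_modulus {K L : Type} [Field K] [NumberField K] [Field L] [NumberField L]
    [Algebra K L] [IsGalois K L] :
    ∃ c : ℕ, c ≠ 0 ∧ ∀ P : Ideal (𝓞 L), P.IsMaximal → (c : 𝓞 L) ∉ P →
      P.inertia Gal(L/K) = ⊥ := by
  classical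
  have hmove : ∀ g : Gal(L/K), g ≠ 1 → ∃ n : ℕ, n ≠ 0 ∧
      ∀ P : Ideal (𝓞 L), g ∈ P.inertia Gal(L/K) → (n : 𝓞 L) ∈ P := by
    intro g hg
    obtain ⟨a, ha⟩ : ∃ a : 𝓞 L, g • a - a ≠ 0 := by
      by_contra hz
      push Not at hz
      refine hg (AlgEquiv.ext fun z => ?_)
      obtain ⟨a, b, -, rfl⟩ := IsFractionRing.div_surjective (A := 𝓞 L) z
      have e : ∀ a : 𝓞 L, g (a : L) = a := fun a =>
        congrArg (fun w : 𝓞 L => (w : L)) (sub_eq_zero.1 (hz a))
      rw [map_div₀, AlgEquiv.one_apply]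
      exact congrArg₂ (· / ·) (e a) (e b)
    obtain ⟨n, hn, hdvd⟩ := exists_nat_dvd ha
    exact ⟨n, hn, fun P hP => Ideal.mem_of_dvd _ hdvd (hP a)⟩
  choose! n hn0 hn using hmove
  refine ⟨∏ g ∈ (Finset.univ : Finset Gal(L/K)).erase 1, n g,
    Finset.prod_ne_zero_iff.2 fun g hg => hn0 g (Finset.ne_of_mem_erase hg), fun P hP hc => ?_⟩
  rw [Subgroup.eq_bot_iff_forall]
  intro g hg
  by_contra hne
  refine hc ?_
  rw [Nat.cast_prod]
  exact Ideal.prod_mem _ (Finset.mem_erase.2 ⟨hne, Finset.mem_univ g⟩) (hn g hne P hg)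

variable {ρ : GalQ →* GL (Fin 2) (ZMod 3)}

theorem fixes_kerField_gen (hρ : IsThreeRho ρ) (σ : GalQ) :
    (∀ x : kerField ρ, σ (x : Qbar) = x) ↔ ρ σ = 1 :=
  (Density.fixing_iff_mem ρ hρ.factors ⊥ σ).trans Subgroup.mem_bot

theorem fixes_midField_gen (hρ : IsThreeRho ρ) (σ : GalQ) :
    (∀ x : midField ρ, σ (x : Qbar) = x) ↔ ρ σ ∈ c4Group :=
  Density.fixing_iff_mem ρ hρ.factors c4Group σ

theorem finiteDimensional_kerField_gen (hρ : IsThreeRho ρ) :
    FiniteDimensional ℚ (kerField ρ) := by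
  obtain ⟨L, hL, hker⟩ := hρ.factors
  haveI := hL
  exact finiteDimensional_fixedField_of_le (L := L) fun σ hσ =>
    Subgroup.mem_bot.2 (hker σ ((IntermediateField.mem_fixingSubgroup_iff L σ).1 hσ))

/-- **The Galois side of C1.** -/
theorem stmtDihDataGen : StmtDihDataGen := by
  intro ρ _ hρ
  classical
  obtain ⟨g₀, hg₀⟩ := exists_lift_gen hρ
  have hfinL := finiteDimensional_kerField_gen hρ
  have : Normal ℚ (kerField ρ) := normal_kerField
  have : IsGalois ℚ (kerField ρ) := ⟨⟩
  have : NumberField (kerField ρ) :=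
    { to_charZero := inferInstance, to_finiteDimensional := hfinL }
  have : FiniteDimensional ℚ (midField ρ) :=
    FiniteDimensional.of_injective
      (IntermediateField.inclusion midField_le_kerField).toLinearMap
      (IntermediateField.inclusion_injective midField_le_kerField)
  have : NumberField (midField ρ) :=
    { to_charZero := inferInstance, to_finiteDimensional := this }
  letI : Algebra (fieldF' ρ) (midField ρ) :=
    (IntermediateField.inclusion fieldF'_le_midField).toRingHom.toAlgebra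
  letI : Algebra (midField ρ) (kerField ρ) :=
    (IntermediateField.inclusion midField_le_kerField).toRingHom.toAlgebra
  letI : Algebra (fieldF' ρ) (kerField ρ) :=
    (IntermediateField.inclusion (fieldF'_le_midField.trans midField_le_kerField)).toRingHom.toAlgebra
  have : IsScalarTower (fieldF' ρ) (midField ρ) (kerField ρ) :=
    IsScalarTower.of_algebraMap_eq fun _ => rfl
  have : IsGalois (fieldF' ρ) (kerField ρ) := IsGalois.tower_top_of_isGalois ℚ _ _
  have : IsGalois (midField ρ) (kerField ρ) := IsGalois.tower_top_of_isGalois ℚ _ _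
  have : IsTotallyComplex (midField ρ) := ⟨fun v => by
    obtain ⟨i, hi⟩ := (frameF'_gen hρ hg₀).bij.surjective
      (v.comap (algebraMap (fieldF' ρ) (midField ρ)))
    by_contra hv
    have hr := (InfinitePlace.not_isComplex_iff_isReal.1 hv).comap
      (algebraMap (fieldF' ρ) (midField ρ))
    rw [← hi] at hr
    exact InfinitePlace.not_isReal_iff_isComplex.2 ((frameF'_gen hρ hg₀).complex i) hr⟩
  -- the descent of `ρ` to the level
  set r := S14.Cross.BridgeLevel.restrict (kerField ρ)
  have hker : r.ker ≤ ρ.ker := fun σ hσ => (fixes_kerField_gen hρ σ).1 fun x => by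
    rw [← S14.Cross.BridgeLevel.coe_restrict, show r σ = 1 from hσ]
    rfl
  let π : Gal((kerField ρ)/ℚ) →* GL (Fin 2) (ZMod 3) :=
    MonoidHom.liftOfSurjective r (S14.Cross.BridgeLevel.restrict_surjective _) ⟨ρ, hker⟩
  have hπ : ∀ σ, π (r σ) = ρ σ := MonoidHom.liftOfRightInverse_comp_apply _ _ _ _
  have hfix : ∀ (g : Gal((kerField ρ)/(fieldF' ρ))), ∃ σ : GalQ,
      r σ = Recip.resHom ℚ g ∧ (∀ x : fieldF' ρ, σ (x : Qbar) = x) := fun g => by
    obtain ⟨σ, hσ⟩ := S14.Cross.BridgeLevel.restrict_surjective (kerField ρ) (Recip.resHom ℚ g)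
    refine ⟨σ, hσ, fun x => ?_⟩
    have h := S14.Cross.BridgeLevel.coe_restrict (kerField ρ) σ
      (algebraMap (fieldF' ρ) (kerField ρ) x)
    rw [hσ] at h
    exact h.symm.trans (congrArg Subtype.val (g.commutes x))
  have hlift : ∀ σ : GalQ, (∀ x : fieldF' ρ, σ (x : Qbar) = x) →
      ∃ g : Gal((kerField ρ)/(fieldF' ρ)), Recip.resHom ℚ g = r σ := fun σ hσ =>
    ⟨AlgEquiv.ofRingEquiv (f := (r σ).toRingEquiv) fun x => Subtype.ext
      ((S14.Cross.BridgeLevel.coe_restrict (kerField ρ) σ _).trans (hσ x)),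
      AlgEquiv.ext fun _ => rfl⟩
  obtain ⟨c, hc0, hbad⟩ := exists_unramified_modulus (K := fieldF' ρ) (L := kerField ρ)
  let T : GenTower (fieldF' ρ) (midField ρ) (kerField ρ) c :=
    { phi := π.comp (Recip.resHom ℚ)
      injective := fun g g' hgg => by
        refine AlgEquiv.restrictScalars_injective ℚ ?_
        obtain ⟨σ, hσ⟩ := S14.Cross.BridgeLevel.restrict_surjective (kerField ρ) (Recip.resHom ℚ g)
        obtain ⟨σ', hσ'⟩ :=
          S14.Cross.BridgeLevel.restrict_surjective (kerField ρ) (Recip.resHom ℚ g')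
        have h1 : ρ (σ'⁻¹ * σ) = 1 := by
          have h2 : π (Recip.resHom ℚ g) = π (Recip.resHom ℚ g') := hgg
          rw [← hσ, ← hσ', hπ, hπ] at h2
          rw [map_mul, map_inv, h2, inv_mul_cancel]
        have h3 : r (σ'⁻¹ * σ) = 1 := AlgEquiv.ext fun x => Subtype.ext
          ((S14.Cross.BridgeLevel.coe_restrict (kerField ρ) _ x).trans
            ((fixes_kerField_gen hρ _).2 h1 x))
        rw [map_mul, map_inv, inv_mul_eq_one] at h3
        exact hσ.symm.trans (h3.symm.trans hσ')
      mem_quat := fun g => by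
        obtain ⟨σ, hσ, hσx⟩ := hfix g
        show π (Recip.resHom ℚ g) ∈ _
        rw [← hσ, hπ]
        exact (fixing_fieldF'_gen hρ σ).1 hσx
      surj := fun q hq => by
        obtain ⟨σ, rfl⟩ := hρ.surjective q
        obtain ⟨g, hg⟩ := hlift σ ((fixing_fieldF'_gen hρ σ).2 hq)
        exact ⟨g, (congrArg π hg).trans (hπ σ)⟩
      fixes_iff := fun g => by
        obtain ⟨σ, hσ, -⟩ := hfix g
        show π (Recip.resHom ℚ g) ∈ _ ↔ _
        rw [← hσ, hπ, ← fixes_midField_gen hρ]
        have e : ∀ x : midField ρ,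
            ((g (algebraMap (midField ρ) (kerField ρ) x) : kerField ρ) : Qbar) = σ (x : Qbar) := by
          intro x
          have h := S14.Cross.BridgeLevel.coe_restrict (kerField ρ) σ
            (algebraMap (midField ρ) (kerField ρ) x)
          rw [show S14.Cross.BridgeLevel.restrict (kerField ρ) σ = Recip.resHom ℚ g from hσ] at h
          exact h
        constructor
        · exact fun h x => Subtype.ext ((e x).trans (h x))
        · exact fun h x => (e x).symm.trans (congrArg Subtype.val (h x))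
      cond_ne := hc0
      inertia_eq := hbad }
  obtain ⟨D, c', hc', hcond, heig⟩ := T.exists_dihData
  refine ⟨frameF'_gen hρ hg₀, ↥(midField ρ), inferInstance, inferInstance, inferInstance, D, c',
    hcond.dvd, hc', fun w hw σ hσ => ?_⟩
  obtain ⟨hσF, A, hA, hdec, hfrob⟩ := hσ
  obtain ⟨q, hq, hqw⟩ : ∃ q : ℕ, q.Prime ∧ (q : 𝓞 (fieldF' ρ)) ∈ w.asIdeal :=
    haveI := w.isMaximal
    S14.Cross.BridgeLevel.exists_prime_mem w.asIdeal
  have hAq : A.LiesOverPrime q := by
    have := (hA _).1 hqw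
    simpa [ValuationSubring.LiesOverPrime] using this
  set P := levelPlaceIdeal (kerField ρ) A
  have hPK : P.under (𝓞 (fieldF' ρ)) = w.asIdeal := Ideal.ext fun x => by
    rw [Ideal.mem_comap, mem_levelPlaceIdeal_iff, hA]
    exact Iff.rfl
  have hPp : P.IsPrime := Ideal.IsPrime.comap _
  have hP0 : P ≠ ⊥ := fun h => w.ne_bot (by
    rw [← hPK, h]
    exact Ideal.comap_bot_of_injective _
      (FaithfulSMul.algebraMap_injective (𝓞 (fieldF' ρ)) (𝓞 (kerField ρ))))
  have hP : P.IsMaximal := hPp.isMaximal hP0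
  have hc : ((c' : ℕ) : 𝓞 (kerField ρ)) ∉ P := by
    intro h
    refine hw ?_
    rw [← hPK, Ideal.mem_comap, map_natCast]
    exact h
  obtain ⟨g, hg⟩ := hlift σ fun x => (IntermediateField.mem_fixingSubgroup_iff _ σ).1 hσF x x.2
  have hgfrob : IsArithFrobAt (𝓞 (fieldF' ρ)) g P := by
    intro x
    show g • x - x ^ Nat.card (𝓞 (fieldF' ρ) ⧸ P.under (𝓞 (fieldF' ρ))) ∈ P
    rw [hPK, mem_levelPlaceIdeal_iff]
    have hx : ((x : kerField ρ) : Qbar) ∈ A := levelIntegerHom_mem (kerField ρ) A x
    have h := hfrob _ hx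
    rw [← S14.Cross.BridgeLevel.coe_restrict (kerField ρ) σ (x : kerField ρ),
      show S14.Cross.BridgeLevel.restrict (kerField ρ) σ = Recip.resHom ℚ g from hg.symm] at h
    exact h
  rw [heig P hP hc g hgfrob w hPK.symm]
  show ((octRep (π (Recip.resHom ℚ g)) : GL (Fin 2) ℂ) : Matrix (Fin 2) (Fin 2) ℂ).trace = _
  rw [hg, hπ]
  rfl

end Fermat.Agent.Extra.LTGen

end
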