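import Fermat.Agent.LT.Dihedral.Transform

/-!
# Invariance of coset theta series without an element of trace one

Copy of `rel_coset_of_norm` with the integrality of the norm form as hypotheses.
-/

set_option autoImplicit false
set_option maxHeartbeats 400000

noncomputable section

namespace Fermat.Agent.Extra.LTGen

open Fermat.Agent.LT Fermat.Agent.LT.Dihedral
open NumberField Fermat.Agent.LT.Adelic Matrix
open scoped nonZeroDivisors

variable {K M : Type*} [Field K] [NumberField K] [Field M] [NumberField M] [Algebra K M]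
  {D : Quad K M} {ξ : K}

/-- The identity of phases behind `rel_coset_of_norm`. -/
theorem gamma_phase_gen {a b c d : K} (hd : d ≠ 0)
    (hdet : a * d - b * c = 1) (h₁ y k δ : M) (hδ : Algebra.norm K δ = d) :
    -(c / d) * (ξ * Algebra.norm K y) +
        -(b / d) * (ξ * Algebra.norm K (-(algebraMap K M c * y) - δ * k)) +
        -(D.bil ξ (algebraMap K M d * h₁ + (-(algebraMap K M c * y) - δ * k))
          (algebraMap K M a * y + algebraMap K M (b / d) * (δ * k))) =
      -(D.bil ξ (algebraMap K M (a * d) * h₁) y) - b * D.bil ξ h₁ (δ * k) +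
        a * (c * (ξ * Algebra.norm K y)) +
        D.bil ξ (algebraMap K M a * (δ * k)) y + b * (ξ * Algebra.norm K k) := by
  have hq : Algebra.norm K (δ * k) = d * Algebra.norm K k := by rw [map_mul, hδ]
  rw [show -(algebraMap K M c * y) - δ * k =
      algebraMap K M (-c) * y + algebraMap K M (-1) * (δ * k) by simp; ring]
  rw [D.norm_add, map_mul, map_mul (Algebra.norm K) (algebraMap K M (-1)), Algebra.norm_algebraMap,
    Algebra.norm_algebraMap, D.finrank_two, hq]
  have hT : ξ * Algebra.trace K M (algebraMap K M (-c) * y * D.conj (algebraMap K M (-1) * (δ * k))) =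
      (-c) * ((-1) * D.bil ξ (δ * k) y) := by
    rw [show ξ * Algebra.trace K M (algebraMap K M (-c) * y *
      D.conj (algebraMap K M (-1) * (δ * k))) =
      D.bil ξ (algebraMap K M (-c) * y) (algebraMap K M (-1) * (δ * k)) from rfl,
      D.bil_smul_left, D.bil_smul_right, D.bil_comm]
  simp only [D.bil_add_left, D.bil_add_right, D.bil_smul_left, D.bil_smul_right, D.bil_self, hq,
    D.bil_comm ξ y (δ * k), map_mul (algebraMap K M) a d, mul_assoc]
  simp only [mul_assoc] at hT
  rw [mul_add, mul_add ξ, hT]
  field_simp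
  linear_combination (c * (ξ * Algebra.norm K y) * (-1)) * hdet * (-1)

/-- **Invariance of coset theta series** under `[[a, b], [c, d]]` with `d` a norm. -/
theorem rel_coset_of_norm_gen (R : RelSys K M D ξ) (hξ : ξ ≠ 0) {L P : FractionalIdeal (𝓞 M)⁰ M} (hP : P ≠ 0)
    (hPL : P ≤ L) {h : M} (hh : h ∈ L) (γ : GL (Fin 2) K) {a d : 𝓞 K} {b c : K}
    (hγ : (γ : Matrix (Fin 2) (Fin 2) K) = !![(a : K), b; c, (d : K)])
    (hdet : (a : K) * d - b * c = 1) {δ : 𝓞 M} (hδ0 : δ ≠ 0)
    (hδ : Algebra.norm K (δ : M) = (d : K))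
    (ha : ∀ x ∈ L, algebraMap K M ((a : K) - 1) * x ∈ P)
    (hd : ∀ x ∈ L, algebraMap K M ((d : K) - 1) * x ∈ P)
    (hb : ∀ x ∈ L, ∀ y ∈ L, psi (b * D.bil ξ x y) = 1)
    (hbQ' : ∀ x ∈ L, ∀ r : 𝓞 K, psi ((r : K) * (b * (ξ * Algebra.norm K x))) = 1)
    (hc : ∀ y ∈ D.dualSet ξ P, algebraMap K M c * y ∈ P)
    (hcQ : ∀ y ∈ D.dualSet ξ P, psi ((a : K) * (c * (ξ * Algebra.norm K y))) = 1) :
    R.rel γ (coset P h) (coset P h) := by
  classical
  have hδM : (δ : M) ≠ 0 := by exact_mod_cast hδ0
  have hd0 : (d : K) ≠ 0 := hδ ▸ Algebra.norm_ne_zero_iff.mpr hδM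
  set dd : Kˣ := Units.mk0 (d : K) hd0 with hdd
  set P' := FractionalIdeal.spanSingleton (𝓞 M)⁰ (δ : M) * P with hP'def
  have hP' : P' ≠ 0 := mul_ne_zero (FractionalIdeal.spanSingleton_ne_zero_iff.mpr hδM) hP
  have hP'P : ∀ q ∈ P', q ∈ P := fun q hq => by
    obtain ⟨k, hk, rfl⟩ := FractionalIdeal.mem_singleton_mul.mp hq
    exact smul_int_mem hk δ
  obtain ⟨S, hS⟩ := exists_reps P hP'
  have hbQ : ∀ x ∈ L, psi (b * (ξ * Algebra.norm K x)) = 1 := fun x hx => by
    simpa using hbQ' x hx 1
  have hbdual : ∀ x ∈ P, algebraMap K M b * x ∈ D.dualSet ξ P := fun x hx z hz => by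
    rw [D.bil_smul_right]; exact hb z (hPL hz) x (hPL hx)
  have hPmem : ∀ {x y : M}, x ∈ P → y ∈ P → x - y ∈ P := fun hx hy =>
    Submodule.sub_mem (P : Submodule (𝓞 M) M) hx hy
  set h₁ : M := algebraMap K M (a : K) * h with hh₁
  have hh₁L : h₁ ∈ L := intK_mem hh a
  set h' : M := algebraMap K M (d : K) * h₁ with hh'
  have hh'h : h' - h ∈ P := by
    have e : h' - h = algebraMap K M (a : K) * (algebraMap K M ((d : K) - 1) * h) +
        algebraMap K M ((a : K) - 1) * h := by
      rw [hh', hh₁, map_sub, map_sub, map_one]; ring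
    rw [e]
    exact Submodule.add_mem (P : Submodule (𝓞 M) M) (intK_mem (hd h hh) a) (ha h hh)
  -- step 1: the phase of `n(b/d)` makes packets
  let kk : M → M := fun u => algebraMap K M (b / d) * u
  let cu : M → ℂ := fun u => psi (-(b / d) * (ξ * Algebra.norm K u))
  have hΦ1 : ∀ x, psi (b / d * (ξ * Algebra.norm K x)) * coset P h x =
      ∑ u ∈ S, cu u * pk D ξ P' (h' + u) (kk u) x := by
    intro x
    by_cases hx : x - h ∈ P
    · have hxh' : x - h' ∈ P := by
        have := hPmem hx hh'h
        rwa [sub_sub_sub_cancel_right] at this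
      obtain ⟨u, ⟨huS, huq⟩, -⟩ := hS.2 _ hxh'
      rw [Finset.sum_eq_single u ?_ (fun hu => absurd huS hu)]
      · rw [coset, Set.indicator_of_mem (show x ∈ {x | x - h ∈ P} from hx), mul_one, pk,
          Set.indicator_of_mem (show x ∈ {x | x - (h' + u) ∈ P'} from by
            show x - (h' + u) ∈ P'; rwa [← sub_sub])]
        obtain ⟨k, hk, hxk⟩ := FractionalIdeal.mem_singleton_mul.mp huq
        have hxe : x = h' + (u + (δ : M) * k) := by rw [← hxk]; ring
        rw [← psi_add]
        refine psi_eq_of_sub ?_
        have e : b / d * (ξ * Algebra.norm K x) -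
            (-(b / d) * (ξ * Algebra.norm K u) + D.bil ξ x (kk u)) =
            b * (ξ * Algebra.norm K (algebraMap K M (d : K) * h₁)) / d +
              b * (ξ * Algebra.norm K k) + b * D.bil ξ h₁ ((δ : M) * k) := by
          simp only [kk, D.bil_smul_right]
          rw [hxe]
          simp only [D.bil_add_left, D.norm_add, map_mul (Algebra.norm K) (δ : M), hδ, hh',
            D.bil_smul_left, D.bil_self]
          have e1 : ξ * Algebra.trace K M (algebraMap K M (d : K) * h₁ *
              D.conj (u + (δ : M) * k)) =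
              (d : K) * (D.bil ξ h₁ u + D.bil ξ h₁ ((δ : M) * k)) := by
            rw [← D.bil_add_right, ← D.bil_smul_left]; rfl
          have e2 : ξ * Algebra.trace K M (u * D.conj ((δ : M) * k)) =
              D.bil ξ ((δ : M) * k) u := by rw [D.bil_comm]; rfl
          rw [mul_add ξ, e1, mul_add ξ, mul_add ξ, e2]
          field_simp
          ring
        rw [e, psi_add, psi_add, hbQ k (hPL hk),
          hb h₁ hh₁L _ (hPL (smul_int_mem hk δ))]
        rw [map_mul, Algebra.norm_algebraMap, D.finrank_two,
          show b * (ξ * ((d : K) ^ 2 * Algebra.norm K h₁)) / d =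
            (d : K) * (b * (ξ * Algebra.norm K h₁)) by field_simp,
          hbQ' _ hh₁L d, one_mul, one_mul]
      · intro v hvS hvu
        rw [pk, Set.indicator_of_notMem, mul_zero]
        intro hv
        refine hvu ((hS.eq_iff hvS huS).mp ?_)
        have := Submodule.sub_mem (P' : Submodule (𝓞 M) M) huq
          (show x - h' - v ∈ P' by rw [sub_sub]; exact hv)
        rwa [sub_sub_sub_cancel_left] at this
    · rw [coset, Set.indicator_of_notMem (s := {x | x - h ∈ P}) hx, mul_zero]
      refine (Finset.sum_eq_zero fun u hu => ?_).symm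
      rw [pk, Set.indicator_of_notMem, mul_zero]
      intro hxu
      refine hx ?_
      have := Submodule.add_mem (P : Submodule (𝓞 M) M)
        (Submodule.add_mem (P : Submodule (𝓞 M) M) (hP'P _ hxu) (hS.1 u hu)) hh'h
      convert! this using 1; ring
  -- the functions along the chain
  set F1 : M → ℂ := fun y => ∑ u ∈ S, cu u *
    (R.kap / ((FractionalIdeal.absNorm P' : ℚ) : ℂ) * pkDual D ξ P' (h' + u) (kk u) y) with hF1
  have hF1adm : Adm F1 := adm_sum S fun u _ =>
    (((adm_pkDual D hξ hP' (h' + u) (kk u)).smul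
      (R.kap / ((FractionalIdeal.absNorm P' : ℚ) : ℂ))).smul (cu u))
  set F2 : M → ℂ := fun y => ((|Algebra.norm ℚ (dd : K)| : ℚ) : ℂ) *
    F1 (algebraMap K M ((dd⁻¹ : Kˣ) : K) * y) with hF2
  have hF2adm : Adm F2 :=
    (hF1adm.comp_mul (z := algebraMap K M ((dd⁻¹ : Kˣ) : K))
      (by simpa using hd0)).smul _
  have hF3 : ∀ y, psi (-(c / d) * (ξ * Algebra.norm K y)) * F2 y =
      R.kap / ((FractionalIdeal.absNorm P : ℚ) : ℂ) * pkDual D ξ P h 0 y := by
    intro y
    have hyd : algebraMap K M ((dd⁻¹ : Kˣ) : K) * y = y / algebraMap K M (d : K) := by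
      rw [Units.val_inv_eq_inv_val, map_inv₀, inv_mul_eq_div]; rfl
    have hdM : algebraMap K M (d : K) ≠ 0 := by simpa using hd0
    have hdδ : algebraMap K M (d : K) = (δ : M) * D.conj (δ : M) := by rw [← hδ, D.norm_eq]
    have hdual : ∀ w, w ∈ D.dualSet ξ P' ↔ D.conj (δ : M) * w ∈ D.dualSet ξ P := by
      intro w
      constructor
      · intro hw x hx
        rw [← D.bil_mul_swap]
        exact hw _ (FractionalIdeal.mem_singleton_mul.mpr ⟨x, hx, rfl⟩)
      · intro hw x hx
        obtain ⟨k, hk, rfl⟩ := FractionalIdeal.mem_singleton_mul.mp hx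
        rw [D.bil_mul_swap]
        exact hw k hk
    simp only [hF2, hF1, hyd, Finset.mul_sum]
    by_cases hy : y ∈ D.dualSet ξ P
    · have hcy : -(algebraMap K M c * y) ∈ P := Submodule.neg_mem (P : Submodule (𝓞 M) M) (hc y hy)
      obtain ⟨u, ⟨huS, huq⟩, -⟩ := hS.2 _ hcy
      obtain ⟨k, hk, hxk⟩ := FractionalIdeal.mem_singleton_mul.mp huq
      have hu : u = -(algebraMap K M c * y) - (δ : M) * k := by rw [← hxk]; ring
      have hy' : y / algebraMap K M (d : K) - kk u =
          algebraMap K M (a : K) * y + algebraMap K M (b / d) * ((δ : M) * k) := by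
        simp only [kk, hu, map_div₀]
        have hdetM : algebraMap K M (a : K) * algebraMap K M (d : K) -
            algebraMap K M b * algebraMap K M c = 1 := by
          rw [← map_mul (algebraMap K M), ← map_mul (algebraMap K M), ← map_sub, hdet, map_one]
        field_simp
        linear_combination (-y) * hdetM
      have hin : y / algebraMap K M (d : K) - kk u ∈ D.dualSet ξ P' := by
        rw [hdual, hy', mul_add]
        refine D.dualSet_add ?_ ?_
        · have hia : IsIntegral ℤ (algebraMap K M (a : K) * D.conj (δ : M)) :=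
            a.isIntegral_coe.algebraMap.mul
              (δ.isIntegral_coe.map ((D.conj : M →ₐ[K] M).toRingHom.toIntAlgHom))
          have := D.dualSet_smul hy (⟨_, hia⟩ : 𝓞 M)
          convert! this using 1
          show _ = algebraMap K M (a : K) * D.conj (δ : M) * y
          ring
        · rw [map_div₀, show D.conj (δ : M) * (algebraMap K M b / algebraMap K M (d : K) *
            ((δ : M) * k)) = algebraMap K M b * k by
              have hcδ : D.conj (δ : M) ≠ 0 := by simpa using hδM
              rw [← mul_assoc, hdδ]; field_simp]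
          exact hbdual k hk
      rw [Finset.sum_eq_single u ?_ (fun hu' => absurd huS hu')]
      · rw [pkDual, Set.indicator_of_mem (show _ ∈ {y | y - kk u ∈ D.dualSet ξ P'} from hin), pkDual,
          Set.indicator_of_mem (show y ∈ {y | y - 0 ∈ D.dualSet ξ P} from by
            simpa using hy), sub_zero]
        rw [hP'def, absNorm_span_mul (K := K), hδ]
        have hN : Algebra.norm ℚ (d : K) ≠ 0 := Algebra.norm_ne_zero_iff.mpr hd0
        have hN' : ((|Algebra.norm ℚ (d : K)| : ℚ) : ℂ) ≠ 0 :=
          Rat.cast_ne_zero.mpr (abs_ne_zero.mpr hN)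
        rw [Units.val_mk0, Rat.cast_mul]
        simp only [cu]
        have key : psi (-(c / d) * (ξ * Algebra.norm K y) +
            -(b / d) * (ξ * Algebra.norm K u) +
            -(D.bil ξ (h' + u) (y / algebraMap K M (d : K) - kk u))) = psi (-(D.bil ξ h y)) := by
          refine psi_eq_of_sub ?_
          rw [hy', hu, hh', gamma_phase_gen hd0 hdet h₁ y k δ hδ]
          have e1 : -(D.bil ξ (algebraMap K M ((a : K) * d) * h₁) y) -
              b * D.bil ξ h₁ ((δ : M) * k) +
              (a : K) * (c * (ξ * Algebra.norm K y)) +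
              D.bil ξ (algebraMap K M (a : K) * ((δ : M) * k)) y +
              b * (ξ * Algebra.norm K k) - -(D.bil ξ h y) =
              D.bil ξ (h - algebraMap K M ((a : K) * d) * h₁) y +
                -(b * D.bil ξ h₁ ((δ : M) * k)) +
                (a : K) * (c * (ξ * Algebra.norm K y)) +
                D.bil ξ (algebraMap K M (a : K) * ((δ : M) * k)) y +
                b * (ξ * Algebra.norm K k) := by
            rw [D.bil_sub_left]; ring
          have hmem : h - algebraMap K M ((a : K) * d) * h₁ ∈ P := by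
            have : h - algebraMap K M ((a : K) * d) * h₁ =
                -(algebraMap K M (a : K) * (h' - h) + algebraMap K M ((a : K) - 1) * h) := by
              rw [hh', hh₁, map_mul, map_sub, map_one]; ring
            rw [this]
            exact Submodule.neg_mem (P : Submodule (𝓞 M) M)
              (Submodule.add_mem (P : Submodule (𝓞 M) M) (intK_mem hh'h a) (ha h hh))
          rw [e1]
          simp only [psi_add, psi_neg]
          rw [psi_bil_left_of_mem D ξ hmem hy, hb h₁ hh₁L _ (hPL (smul_int_mem hk δ)),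
            hcQ y hy,
            psi_bil_left_of_mem D ξ (intK_mem (smul_int_mem hk δ) a) hy, hbQ k (hPL hk)]
          simp
        rw [psi_add, psi_add] at key
        rw [← key]
        field_simp
      · intro v hvS hvu
        rw [pkDual, Set.indicator_of_notMem]
        · ring
        intro hv
        refine hvu ((hS.eq_iff hvS huS).mp ?_)
        set w : M := v - u with hw
        have hwP : w ∈ P := hPmem (hS.1 v hvS) (hS.1 u huS)
        have h1 : algebraMap K M b * w / (δ : M) ∈ D.dualSet ξ P := by
          have hv' := (hdual _).mp (D.dualSet_sub hin hv)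
          convert! hv' using 1
          simp only [kk, hw, map_div₀, hdδ]
          have hcδ : D.conj (δ : M) ≠ 0 := by simpa using hδM
          field_simp
          ring
        have h2 := hc _ h1
        refine FractionalIdeal.mem_singleton_mul.mpr
          ⟨algebraMap K M (a : K) * (D.conj (δ : M) * w) -
            algebraMap K M c * (algebraMap K M b * w / (δ : M)), ?_, ?_⟩
        · exact hPmem (intK_mem (smul_int_mem hwP
            ⟨D.conj (δ : M), δ.isIntegral_coe.map
              ((D.conj : M →ₐ[K] M).toRingHom.toIntAlgHom)⟩) a) h2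
        · have hdetM : algebraMap K M (a : K) * ((δ : M) * D.conj (δ : M)) -
              algebraMap K M b * algebraMap K M c = 1 := by
            rw [← hdδ, ← map_mul (algebraMap K M), ← map_mul (algebraMap K M), ← map_sub, hdet, map_one]
          field_simp
          linear_combination (-w) * hdetM
    · rw [pkDual, Set.indicator_of_notMem (by simpa using hy), mul_zero]
      refine Finset.sum_eq_zero fun u hu => ?_
      rw [pkDual, Set.indicator_of_notMem]
      · ring
      intro hin
      refine hy ?_
      have h1 := D.dualSet_smul ((hdual _).mp hin) δ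
      have h2 := D.dualSet_add h1 (hbdual u (hS.1 u hu))
      convert! h2 using 1
      simp only [kk, map_div₀]
      rw [← mul_assoc, ← hdδ]
      field_simp
      ring
  -- assemble
  have r1 : R.rel (unipotent (b / d)) (coset P h)
      (fun x => ∑ u ∈ S, cu u * pk D ξ P' (h' + u) (kk u) x) :=
    R.congr (R.unip (b / d) (adm_coset P h)) (fun _ => rfl) hΦ1
  have r2 : R.rel weyl (fun x => ∑ u ∈ S, cu u * pk D ξ P' (h' + u) (kk u) x) F1 :=
    R.sum S fun u _ => R.smul_const (cu u) (R.rel_pk hP' (h' + u) (kk u))
  have r3 : R.rel (diag2 dd dd⁻¹) F1 F2 := R.dia dd hF1adm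
  have r4 : R.rel (unipotent (-(c / d))) F2
      (fun y => R.kap / ((FractionalIdeal.absNorm P : ℚ) : ℂ) * pkDual D ξ P h 0 y) :=
    R.congr (R.unip (-(c / d)) hF2adm) (fun _ => rfl) hF3
  have r5 := R.weyl_symm (R.congr (R.rel_pk hP h 0) (fun x => by rw [pk_zero]) (fun _ => rfl))
  have r6 := R.neg_scalar (adm_coset P h)
  have key := R.comp (R.comp (R.comp (R.comp (R.comp r1 r2) r3) r4) r5) r6
  convert! key using 1
  apply glK_ext
  rw [hγ]
  ext i j
  fin_cases i <;> fin_cases j <;>
    simp [Units.val_mul, Matrix.mul_apply, Fin.sum_univ_two, hdd, smul_eq_mul, RingOfIntegers.coe_eq_algebraMap] <;>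
    first
      | (rw [Algebra.smul_def, mul_div_cancel₀ _ hd0])
      | linear_combination hdet
      | (field_simp; linear_combination hdet)
      | field_simp
      | (rw [Algebra.smul_def, mul_one])

end Fermat.Agent.Extra.LTGen

end
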