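import Fermat.Agent.Extra.LTGen.Dihedral.Data
import Fermat.Agent.LT.Dihedral.Pairs

/-!
# Norms modulo ideals over `GenDihData`

At the conductor the classes congruent to one modulo `cond ^ 3` are lifted with an element of
trace `half`.
-/

set_option autoImplicit false
set_option maxHeartbeats 400000

noncomputable section

namespace Fermat.Agent.Extra.LTGen

open Fermat.Agent.LT Fermat.Agent.LT.Dihedral
open Fermat.Agent.LT.Dihedral.DihData (cover_isMaximal extI_ne_bot)
open NumberField IsDedekindDomain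
open scoped nonZeroDivisors

variable {K M : Type*} [Field K] [NumberField K] [Field M] [NumberField M] [Algebra K M]

namespace GenDihData

variable (D : GenDihData K M)

/-- Norms are surjective modulo a good prime. -/
theorem exists_norm_sub_mem_prime {v : HeightOneSpectrum (𝓞 K)} (hv : D.cond ∉ v.asIdeal)
    {d : 𝓞 K} (hd : d ∉ v.asIdeal) : ∃ x : 𝓞 M, nO K x - d ∈ v.asIdeal := by
  rcases D.inert_or_split v hv with ⟨hprime, -, a, ha⟩ | ⟨Q, hQ, hne, hfac, -⟩
  · set w := extI K M v.asIdeal with hw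
    haveI hmax : w.IsMaximal := cover_isMaximal hprime le_rfl
    haveI : Finite (𝓞 M ⧸ w) :=
      Ring.HasFiniteQuotients.finiteQuotient (extI_ne_bot v.ne_bot)
    letI := Ideal.Quotient.field w
    let mk := Ideal.Quotient.mk w
    let σ : (𝓞 M ⧸ w) →+* (𝓞 M ⧸ w) := Ideal.Quotient.lift w
      (mk.comp D.toQuad.conjO.toRingHom) fun x hx =>
        Ideal.Quotient.eq_zero_iff_mem.mpr (D.toQuad.conjO_mem_extI hx)
    have hσmk : ∀ x, σ (mk x) = mk (D.toQuad.conjO x) := fun x => rfl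
    have hσσ : ∀ z, σ (σ z) = z := fun z => by
      obtain ⟨x, rfl⟩ := Ideal.Quotient.mk_surjective z
      rw [hσmk, hσmk, Quad.conjO_conjO]
    let σu : (𝓞 M ⧸ w)ˣ →* (𝓞 M ⧸ w)ˣ := Units.map σ.toMonoidHom
    let ν : (𝓞 M ⧸ w)ˣ →* (𝓞 M ⧸ w)ˣ :=
      { toFun := fun z => z * σu z
        map_one' := by simp
        map_mul' := fun y z => by rw [map_mul]; exact mul_mul_mul_comm _ _ _ _ }
    let η : (𝓞 M ⧸ w)ˣ →* (𝓞 M ⧸ w)ˣ :=
      { toFun := fun z => z / σu z
        map_one' := by simp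
        map_mul' := fun y z => by rw [map_mul]; exact mul_div_mul_comm _ _ _ _ }
    have hker : ν.ker ≤ η.range := by
      intro z hz
      have hz' : (z : 𝓞 M ⧸ w) * σ (z : 𝓞 M ⧸ w) = 1 := congrArg Units.val hz
      by_cases h1 : (1 : 𝓞 M ⧸ w) + (z : 𝓞 M ⧸ w) = 0
      · have hb : mk a - mk (D.toQuad.conjO a) ≠ 0 := by
          rw [← map_sub, Ne, Ideal.Quotient.eq_zero_iff_mem, ← neg_sub, neg_mem_iff]
          exact ha
        refine ⟨Units.mk0 _ hb, Units.ext ?_⟩
        show ((Units.mk0 _ hb / σu (Units.mk0 _ hb) : (𝓞 M ⧸ w)ˣ) : 𝓞 M ⧸ w) = z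
        rw [Units.val_div_eq_div_val]
        show (mk a - mk (D.toQuad.conjO a)) / σ (mk a - mk (D.toQuad.conjO a)) = _
        rw [map_sub σ, hσmk, hσmk, Quad.conjO_conjO, ← neg_sub (mk a) (mk (D.toQuad.conjO a)),
          div_neg, div_self hb]
        linear_combination -h1
      · refine ⟨Units.mk0 _ h1, Units.ext ?_⟩
        show ((Units.mk0 _ h1 / σu (Units.mk0 _ h1) : (𝓞 M ⧸ w)ˣ) : 𝓞 M ⧸ w) = z
        rw [Units.val_div_eq_div_val]
        show (1 + (z : 𝓞 M ⧸ w)) / σ (1 + z) = _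
        have hσne : σ (1 + (z : 𝓞 M ⧸ w)) ≠ 0 := fun h =>
          h1 (by rw [← hσσ (1 + (z : 𝓞 M ⧸ w)), h, map_zero])
        rw [div_eq_iff hσne, map_add, map_one, mul_add, mul_one, hz']
        ring
    have hrange : ν.range ≤ η.ker := by
      rintro _ ⟨z, rfl⟩
      show (z * σu z) / σu (z * σu z) = 1
      rw [map_mul, show σu (σu z) = z from Units.ext (hσσ z), mul_comm z, div_self']
    have hdu : mk (algebraMap (𝓞 K) (𝓞 M) d) ≠ 0 := fun h =>
      hd (mem_of_mem_extI (M := M) (Ideal.Quotient.eq_zero_iff_mem.mp h))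
    have hmem : Units.mk0 _ hdu ∈ ν.range := by
      have heq : ν.range = η.ker := by
        refine Subgroup.eq_of_le_of_card_ge hrange ?_
        have e1 := Subgroup.card_eq_card_quotient_mul_card_subgroup ν.ker
        have e2 := Subgroup.card_eq_card_quotient_mul_card_subgroup η.ker
        rw [Nat.card_congr (QuotientGroup.quotientKerEquivRange ν).toEquiv] at e1
        rw [Nat.card_congr (QuotientGroup.quotientKerEquivRange η).toEquiv] at e2
        have hle : Nat.card ν.ker ≤ Nat.card η.range :=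
          Nat.card_le_card_of_injective (Subgroup.inclusion hker) (Subgroup.inclusion_injective hker)
        have hpos : 0 < Nat.card η.range := Nat.card_pos
        have : Nat.card η.range * Nat.card η.ker ≤ Nat.card η.range * Nat.card ν.range := by
          rw [← e2, e1, mul_comm (Nat.card η.range)]
          exact Nat.mul_le_mul_left _ hle
        exact Nat.le_of_mul_le_mul_left this hpos
      rw [heq]
      show Units.mk0 _ hdu / σu (Units.mk0 _ hdu) = 1
      refine div_eq_one.mpr (Units.ext ?_)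
      show _ = σ (mk _)
      rw [hσmk, Quad.conjO_algebraMap]
      rfl
    obtain ⟨z, hz⟩ := hmem
    obtain ⟨x, hx⟩ := Ideal.Quotient.mk_surjective (z : 𝓞 M ⧸ w)
    refine ⟨x, mem_of_mem_extI (M := M) ?_⟩
    rw [map_sub]
    refine Ideal.Quotient.eq.mp ?_
    rw [D.toQuad.algebraMap_nO, map_mul]
    have hz' : (z : 𝓞 M ⧸ w) * σ z = mk (algebraMap (𝓞 K) (𝓞 M) d) := congrArg Units.val hz
    show mk x * mk (D.toQuad.conjO x) = _
    rw [← hσmk, show mk x = (z : 𝓞 M ⧸ w) from hx]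
    exact hz'
  · set Q' := D.toQuad.conjI Q with hQ'
    have hQle : extI K M v.asIdeal ≤ Q := hfac ▸ Ideal.mul_le_left (I := Q) (J := Q')
    haveI hQmax := cover_isMaximal hQ hQle
    have hQ'p : Q'.IsPrime := by
      rw [hQ', Quad.conjI]
      exact Ideal.map_isPrime_of_equiv _
    haveI hQ'max := cover_isMaximal hQ'p (hfac ▸ Ideal.mul_le_right (I := Q) (J := Q'))
    have hcop : IsCoprime Q Q' := Ideal.isCoprime_iff_sup_eq.mpr
      (hQmax.coprime_of_ne hQ'max (fun h => hne h.symm))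
    obtain ⟨e, he, f, hf, hef⟩ := Ideal.isCoprime_iff_exists.mp hcop
    set δ := algebraMap (𝓞 K) (𝓞 M) d with hδ
    refine ⟨δ * f + e, mem_of_mem_extI (M := M) ?_⟩
    have hef' : D.toQuad.conjO e + D.toQuad.conjO f = 1 := by rw [← map_add, hef, map_one]
    have he' : D.toQuad.conjO e ∈ Q' := by rw [hQ', Quad.mem_conjI, Quad.conjO_conjO]; exact he
    have hf' : D.toQuad.conjO f ∈ Q := by
      have := hf; rwa [hQ', Quad.mem_conjI] at this
    rw [map_sub, D.toQuad.algebraMap_nO, map_add, map_mul, hδ, D.toQuad.conjO_algebraMap, ← hδ,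
      hfac, ← Ideal.inf_eq_mul_of_isCoprime hcop, Submodule.mem_inf]
    constructor
    · rw [show (δ * f + e) * (δ * D.toQuad.conjO f + D.toQuad.conjO e) - δ =
          e * (D.toQuad.conjO e - δ + 2 * δ * D.toQuad.conjO f) +
            D.toQuad.conjO f * (δ * δ * f - δ) by
        linear_combination (δ * D.toQuad.conjO e) * hef + (δ * (1 - e)) * hef']
      exact Ideal.add_mem _ (Ideal.mul_mem_right _ _ he) (Ideal.mul_mem_right _ _ hf')
    · rw [show (δ * f + e) * (δ * D.toQuad.conjO f + D.toQuad.conjO e) - δ =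
          f * (δ * δ * D.toQuad.conjO f + 2 * δ * D.toQuad.conjO e - δ) +
            D.toQuad.conjO e * (e - δ) by
        linear_combination (δ * D.toQuad.conjO f) * hef + (δ * (1 - f)) * hef']
      exact Ideal.add_mem _ (Ideal.mul_mem_right _ _ hf) (Ideal.mul_mem_right _ _ he')

/-- An integer with trace `half`: the inverse different is killed by `half`. -/
theorem exists_theta : ∃ θ : 𝓞 M, Algebra.trace K M (θ : M) = (D.half : K) := by
  classical
  let J : Ideal (𝓞 K) :=
    { carrier := {r | ∃ θ : 𝓞 M, Algebra.trace K M (θ : M) = (r : K)}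
      zero_mem' := ⟨0, by simp⟩
      add_mem' := by
        rintro r s ⟨θ, hθ⟩ ⟨θ', hθ'⟩
        exact ⟨θ + θ', by push_cast; rw [map_add, hθ, hθ']⟩
      smul_mem' := by
        rintro r s ⟨θ, hθ⟩
        refine ⟨algebraMap (𝓞 K) (𝓞 M) r * θ, ?_⟩
        rw [show ((algebraMap (𝓞 K) (𝓞 M) r * θ : 𝓞 M) : M) = algebraMap K M (r : K) * (θ : M) by
          rw [← algebraMap_coe_int]; exact map_mul _ _ _, ← Algebra.smul_def, map_smul, hθ,
          smul_eq_mul, smul_eq_mul]
        exact (map_mul (algebraMap (𝓞 K) K) r s).symm }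
  have hJ : J ≠ ⊥ := fun h => two_ne_zero (α := 𝓞 K) ((Submodule.eq_bot_iff J).mp h 2
    ⟨1, by rw [show ((1 : 𝓞 M) : M) = algebraMap K M 1 by simp, Algebra.trace_algebraMap,
      D.finrank_two]; simp [map_ofNat]⟩)
  set Jf := (J : FractionalIdeal (𝓞 K)⁰ K) with hJf
  have hJ0 : Jf ≠ 0 := FractionalIdeal.coeIdeal_ne_zero.mpr hJ
  have hle : FractionalIdeal.spanSingleton (𝓞 K)⁰ (D.half : K) * Jf⁻¹ ≤ 1 := by
    intro w hw
    obtain ⟨z, hz, rfl⟩ := FractionalIdeal.mem_singleton_mul.mp hw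
    have hz' := (FractionalIdeal.mem_inv_iff hJ0).mp hz
    have hint := D.diff (algebraMap K M z) fun a => by
      rw [← Algebra.smul_def, map_smul, smul_eq_mul]
      obtain ⟨r, hr⟩ : ∃ r : 𝓞 K, (r : K) = Algebra.trace K M (a : M) :=
        ⟨⟨_, Algebra.isIntegral_trace a.isIntegral_coe⟩, rfl⟩
      rw [← hr]
      exact isIntegral_of_mem_one (hz' _ (FractionalIdeal.mem_coeIdeal_of_mem _
        (show r ∈ J from ⟨a, hr.symm⟩)))
    rw [← map_mul] at hint
    exact mem_one_of_isIntegral ((isIntegral_algebraMap_iff (algebraMap K M).injective).mp hint)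
  have hmem : (D.half : K) ∈ Jf := by
    have := mul_le_mul_left hle Jf
    rw [mul_assoc, inv_mul_cancel₀ hJ0, mul_one, one_mul] at this
    exact this (FractionalIdeal.mem_spanSingleton_self _ _)
  obtain ⟨r, ⟨θ, hθ⟩, hre⟩ := (FractionalIdeal.mem_coeIdeal _).mp hmem
  exact ⟨θ, hθ.trans hre⟩

include D in
theorem norm_one_add_mul {θ : 𝓞 M} {h : 𝓞 K} (hθ : Algebra.trace K M (θ : M) = (h : K))
    (e : 𝓞 K) :
    nO K (1 + θ * algebraMap (𝓞 K) (𝓞 M) e) = 1 + h * e + e ^ 2 * nO K θ := by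
  refine algebraMap_int_injective (K := K) (M := M) ?_
  have hT : θ + D.toQuad.conjO θ = algebraMap (𝓞 K) (𝓞 M) h := by
    apply RingOfIntegers.ext
    rw [algebraMap_coe_int, ← hθ, D.toQuad.trace_eq]
    rfl
  simp only [D.toQuad.algebraMap_nO, map_add, map_mul, map_pow, map_one,
    D.toQuad.conjO_algebraMap, ← hT]
  ring

theorem exists_norm_sub_mem_pow {v : HeightOneSpectrum (𝓞 K)} {d : 𝓞 K} (hd : d ∉ v.asIdeal)
    (h : D.cond ∉ v.asIdeal ∨ D.cond ^ 3 ∣ d - 1) (k : ℕ) :
    ∃ x : 𝓞 M, nO K x - d ∈ v.asIdeal ^ (k + 1) := by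
  haveI := v.isMaximal
  obtain ⟨θ, hθ⟩ := D.exists_theta
  by_cases hc : D.cond ∈ v.asIdeal
  · -- at the conductor: stay inside `cond ^ 3 * v ^ k`
    have h3 : D.cond ^ 3 ∣ d - 1 := h.resolve_left (not_not.mpr hc)
    suffices hk : ∀ k, ∃ x : 𝓞 M, ∃ m ∈ v.asIdeal ^ k, nO K x = d + D.cond ^ 3 * m by
      obtain ⟨x, m, hm, hxe⟩ := hk (k + 1)
      exact ⟨x, by rw [hxe, add_sub_cancel_left]; exact Ideal.mul_mem_left _ _ hm⟩
    intro k
    induction k with
    | zero =>
      obtain ⟨r, hr⟩ := h3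
      refine ⟨1, -r, by simp, ?_⟩
      rw [show nO K (1 : 𝓞 M) = 1 from map_one (RingOfIntegers.norm K)]
      linear_combination -hr
    | succ k ih =>
      obtain ⟨x, m, hm, hxe⟩ := ih
      have hxv : nO K x ∉ v.asIdeal := fun hn => hd <| by
        have := v.asIdeal.sub_mem hn
          (Ideal.mul_mem_right m _ (Ideal.pow_mem_of_mem _ hc 3 (by norm_num)))
        rwa [hxe, add_sub_cancel_right] at this
      obtain ⟨s, i, hi, hsi⟩ := v.isMaximal.exists_inv hxv
      refine ⟨x * (1 + θ * algebraMap (𝓞 K) (𝓞 M) (-(2 * D.cond ^ 2 * m * s))),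
        m * i + 4 * D.cond * m ^ 2 * s ^ 2 * nO K x * nO K θ, ?_, ?_⟩
      · rw [pow_succ]
        refine Ideal.add_mem _ (Ideal.mul_mem_mul hm hi) ?_
        rw [show 4 * D.cond * m ^ 2 * s ^ 2 * nO K x * nO K θ =
          (4 * m * s ^ 2 * nO K x * nO K θ) * (m * D.cond) by ring]
        exact Ideal.mul_mem_left _ _ (Ideal.mul_mem_mul hm hc)
      · rw [show nO K (x * (1 + θ * algebraMap (𝓞 K) (𝓞 M) (-(2 * D.cond ^ 2 * m * s)))) =
          nO K x * (1 + D.half * -(2 * D.cond ^ 2 * m * s) +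
            (-(2 * D.cond ^ 2 * m * s)) ^ 2 * nO K θ) by
          rw [← D.norm_one_add_mul hθ]; exact map_mul (RingOfIntegers.norm K) _ _]
        linear_combination hxe - D.cond ^ 3 * m * hsi +
          (nO K x * D.cond ^ 2 * m * s) * D.cond_eq
  · have hhalf : D.half ∉ v.asIdeal := fun hh => hc (by
      rw [D.cond_eq]; exact Ideal.mul_mem_left _ _ hh)
    induction k with
    | zero => rw [zero_add, pow_one]; exact D.exists_norm_sub_mem_prime hc hd
    | succ k ih =>
      obtain ⟨x, hx⟩ := ih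
      have hxv : nO K x * D.half ∉ v.asIdeal := fun hn =>
        (v.isPrime.mem_or_mem hn).elim (fun hn => hd <| by
          have := v.asIdeal.sub_mem hn (Ideal.pow_le_self (Nat.succ_ne_zero k) hx)
          rwa [sub_sub_cancel] at this) hhalf
      obtain ⟨s, i, hi, hsi⟩ := v.isMaximal.exists_inv hxv
      set e := s * (d - nO K x) with he
      have he' : e ∈ v.asIdeal ^ (k + 1) :=
        Ideal.mul_mem_left _ _ (by rw [← neg_sub, neg_mem_iff]; exact hx)
      refine ⟨x * (1 + θ * algebraMap (𝓞 K) (𝓞 M) e), ?_⟩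
      rw [show nO K (x * (1 + θ * algebraMap (𝓞 K) (𝓞 M) e)) =
        nO K x * (1 + D.half * e + e ^ 2 * nO K θ) by
          rw [← D.norm_one_add_mul hθ e]
          exact map_mul (RingOfIntegers.norm K) _ _,
        show nO K x * (1 + D.half * e + e ^ 2 * nO K θ) - d =
          (nO K x - d) * i + (nO K x * nO K θ * e) * e by
          rw [he]; linear_combination (d - nO K x) * hsi]
      refine Ideal.add_mem _ ?_ ?_
      · rw [pow_succ]; exact Ideal.mul_mem_mul hx hi
      · rw [pow_succ]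
        exact Ideal.mul_mem_mul (Ideal.mul_mem_left _ _ he')
          (Ideal.pow_le_self (Nat.succ_ne_zero k) he')
          |> fun h => by simpa [mul_comm] using h

/-- Every admissible class is a norm modulo an ideal. -/
theorem exists_norm_sub_mem {I : Ideal (𝓞 K)} (hI : I ≠ ⊥) {d : 𝓞 K}
    (h : ∀ v : HeightOneSpectrum (𝓞 K), I ≤ v.asIdeal →
      d ∉ v.asIdeal ∧ (D.cond ∉ v.asIdeal ∨ D.cond ^ 3 ∣ d - 1)) :
    ∃ x : 𝓞 M, nO K x - d ∈ I := by
  classical
  set s := (UniqueFactorizationMonoid.normalizedFactors I).toFinset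
  set c : Ideal (𝓞 K) → ℕ := fun P => (UniqueFactorizationMonoid.normalizedFactors I).count P
  have hprime : ∀ P ∈ s, Prime P := fun P hP =>
    UniqueFactorizationMonoid.prime_of_normalized_factor P (Multiset.mem_toFinset.mp hP)
  have hle : ∀ P ∈ s, I ≤ P := fun P hP =>
    Ideal.le_of_dvd (UniqueFactorizationMonoid.dvd_of_mem_normalizedFactors
      (Multiset.mem_toFinset.mp hP))
  have hprod : ∏ P ∈ s, P ^ c P = I := by
    rw [← Finset.prod_multiset_count]
    exact associated_iff_eq.mp (UniqueFactorizationMonoid.prod_normalizedFactors hI)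
  have hx : ∀ P : s, ∃ x : 𝓞 M, nO K x - d ∈ (P : Ideal (𝓞 K)) ^ c P := fun P => by
    have hP := hprime P P.2
    let v : HeightOneSpectrum (𝓞 K) := ⟨P, Ideal.isPrime_of_prime hP, hP.ne_zero⟩
    obtain ⟨hd, hh⟩ := h v (hle P P.2)
    obtain ⟨x, hx⟩ := D.exists_norm_sub_mem_pow hd hh (c P)
    exact ⟨x, Ideal.pow_le_pow_right (Nat.le_succ _) hx⟩
  choose x hx using hx
  obtain ⟨y, hy⟩ := Ideal.exists_forall_sub_mem_ideal
    (I := fun P : s => extI K M ((P : Ideal (𝓞 K)) ^ c P)) (fun P Q hPQ => by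
      show IsCoprime (extI K M _) (extI K M _)
      rw [Ideal.isCoprime_iff_sup_eq, extI, extI, ← Ideal.map_sup]
      have hmP := (Ideal.isPrime_of_prime (hprime P P.2)).isMaximal (hprime P P.2).ne_zero
      have hmQ := (Ideal.isPrime_of_prime (hprime Q Q.2)).isMaximal (hprime Q Q.2).ne_zero
      rw [Ideal.pow_sup_pow_eq_top (hmP.coprime_of_ne hmQ fun e => hPQ (Subtype.ext e)),
        Ideal.map_top]) x
  refine ⟨y, ?_⟩
  rw [← hprod, ← IsDedekindDomain.inf_pow_eq_prod_of_prime s (fun P => P) c hprime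
    (fun P _ Q _ hPQ => hPQ)]
  refine Submodule.mem_finsetInf.mpr fun P hP => ?_
  have h1 := D.toQuad.nO_congr (hy ⟨P, hP⟩)
  have h2 := Ideal.add_mem _ h1 (hx ⟨P, hP⟩)
  rwa [sub_add_sub_cancel] at h2

end GenDihData

end Fermat.Agent.Extra.LTGen

end
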