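import Fermat.Agent.Extra.LTGen.Dihedral.Data
import Fermat.Agent.LT.Dihedral.Pairs

/-!
# Pairs, lattices and weights over `GenDihData`

Copy of the data-dependent part of `LT/Dihedral/Pairs`; without an element of trace one the
integrality of `ξ N` is taken from the pair and the dual lemma is sharpened by `1/2`.
-/

set_option autoImplicit false
set_option maxHeartbeats 400000

noncomputable section

namespace Fermat.Agent.Extra.LTGen

open Fermat.Agent.LT Fermat.Agent.LT.Dihedral
open Fermat.Agent.LT.Dihedral.DihData (latL mem_latL latL_ne_zero exists_ideal_of_mem)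
open NumberField IsDedekindDomain Fermat.Agent.LT.Adelic
open scoped nonZeroDivisors

variable {K M : Type*} [Field K] [NumberField K] [Field M] [NumberField M] [Algebra K M]

namespace GenDihData

variable (D : GenDihData K M)

/-- `ξ` and `𝔅` form a pair at `t`. -/
structure IsPair (t : (FiniteAdeleRing (𝓞 K) K)ˣ) (ξ : K) (B : Ideal (𝓞 M)) : Prop where
  ne_bot : B ≠ ⊥
  ne_zero : ξ ≠ 0
  compat : ((B * D.toQuad.conjI B : Ideal (𝓞 M)) : FractionalIdeal (𝓞 M)⁰ M) =
    FractionalIdeal.spanSingleton (𝓞 M)⁰ (algebraMap K M ξ) *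
      FractionalIdeal.extendedHom M (𝓞 M) (tdI t)

/-- The period lattice of a pair. -/
def latP (B : Ideal (𝓞 M)) : FractionalIdeal (𝓞 M)⁰ M :=
  FractionalIdeal.spanSingleton (𝓞 M)⁰ (algebraMap K M (D.cond : K)) * latL B

theorem condM_ne : algebraMap K M (D.cond : K) ≠ 0 := by
  rw [map_ne_zero]; exact_mod_cast D.cond_ne

theorem latP_ne_zero {B : Ideal (𝓞 M)} (hB : B ≠ ⊥) : D.latP B ≠ 0 :=
  mul_ne_zero (FractionalIdeal.spanSingleton_ne_zero_iff.mpr D.condM_ne) (latL_ne_zero hB)

theorem latP_le (B : Ideal (𝓞 M)) : D.latP B ≤ latL B := fun x hx => by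
  obtain ⟨l, hl, rfl⟩ := FractionalIdeal.mem_singleton_mul.mp hx
  exact intK_mem hl D.cond

theorem mul_cond_mem_latP {B : Ideal (𝓞 M)} {x : M} (hx : x ∈ latL B) :
    algebraMap K M (D.cond : K) * x ∈ D.latP B :=
  FractionalIdeal.mem_singleton_mul.mpr ⟨x, hx, rfl⟩

/-- Multiples of `cond` scale the lattice into the period. -/
theorem mul_mem_latP_of_dvd {B : Ideal (𝓞 M)} {a : 𝓞 K} (ha : D.cond ∣ a) {x : M}
    (hx : x ∈ latL B) : algebraMap K M (a : K) * x ∈ D.latP B := by
  obtain ⟨e, rfl⟩ := ha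
  show algebraMap K M ((D.cond : K) * (e : K)) * x ∈ D.latP B
  rw [map_mul, mul_assoc]
  exact D.mul_cond_mem_latP (intK_mem hx e)

variable {t : (FiniteAdeleRing (𝓞 K) K)ˣ} {ξ : K} {B : Ideal (𝓞 M)}

variable {D} in
theorem IsPair.integral_of_mem (hp : D.IsPair t ξ B) {x y : M} (hx : x ∈ latL B) (hy : y ∈ latL B)
    {k : K} (hk : k ∈ tdI t) :
    IsIntegral ℤ (algebraMap K M (ξ * k) * (x * D.conj y)) := by
  have hmem : algebraMap K M (ξ * k) ∈
      ((B * D.toQuad.conjI B : Ideal (𝓞 M)) : FractionalIdeal (𝓞 M)⁰ M) := by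
    rw [hp.compat, map_mul]
    exact FractionalIdeal.mul_mem_mul (FractionalIdeal.mem_spanSingleton_self _ _)
      (algebraMap_mem_extendedHom hk)
  obtain ⟨i, hi, hie⟩ := (FractionalIdeal.mem_coeIdeal _).mp hmem
  rw [← hie]
  refine Submodule.mul_induction_on hi (fun β hβ β' hβ' => ?_) fun u v hu hv => ?_
  · have h1 : IsIntegral ℤ (x * (β : M)) := (mem_latL hp.ne_bot).mp hx β hβ
    have h2 : IsIntegral ℤ (y * ((D.toQuad.conjO β' : 𝓞 M) : M)) :=
      (mem_latL hp.ne_bot).mp hy _ ((D.toQuad.mem_conjI).mp hβ')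
    have h3 := h1.mul (h2.map ((D.conj : M →ₐ[K] M).toRingHom.toIntAlgHom))
    convert! h3 using 1
    show ((β * β' : 𝓞 M) : M) * (x * D.conj y) =
      x * (β : M) * D.conj (y * D.conj (β' : M))
    rw [map_mul D.conj, D.toQuad.conj_conj]
    push_cast
    ring
  · rw [map_add, add_mul]
    exact hu.add hv

variable {D} in
/-- `b Q` and `b B` are integral on the lattice for `b` in the ideal of `t`. -/
theorem IsPair.psi_bil (hp : D.IsPair t ξ B) {b : K} (hb : b ∈ idI t) {x y : M} (hx : x ∈ latL B)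
    (hy : y ∈ latL B) : psi (b * D.toQuad.bil ξ x y) = 1 := by
  rw [idI_eq_tdI_mul] at hb
  refine FractionalIdeal.mul_induction_on hb (fun k hk e he => ?_) fun u v hu hv => ?_
  · have hT : IsIntegral ℤ (Algebra.trace K M (algebraMap K M (ξ * k) * (x * D.conj y))) :=
      Algebra.isIntegral_trace (hp.integral_of_mem hx hy hk)
    have h := psi_mul_invDiff he ⟨_, hT⟩
    convert! h using 2
    show k * e * (ξ * Algebra.trace K M (x * D.conj y)) =
      Algebra.trace K M (algebraMap K M (ξ * k) * (x * D.conj y)) * e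
    rw [← Algebra.smul_def (ξ * k), map_smul, smul_eq_mul]
    ring
  · rw [add_mul, psi_add, hu, hv, one_mul]

variable {D} in
theorem IsPair.conj_le (hp : D.IsPair t ξ B) :
    ((D.toQuad.conjI B : Ideal (𝓞 M)) : FractionalIdeal (𝓞 M)⁰ M) =
      latL B * (FractionalIdeal.spanSingleton (𝓞 M)⁰ (algebraMap K M ξ) *
        FractionalIdeal.extendedHom M (𝓞 M) (tdI t)) := by
  rw [← hp.compat, latL, FractionalIdeal.coeIdeal_mul, inv_mul_cancel_left₀
    (FractionalIdeal.coeIdeal_ne_zero.mpr hp.ne_bot)]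

variable {D} in
/-- Half of the lower left entries push the dual of the period lattice into it. -/
theorem IsPair.mem_latP_of_dual_half (hp : D.IsPair t ξ B) {c : K}
    (hc : c ∈ FractionalIdeal.spanSingleton (𝓞 K)⁰ ((D.cond ^ 3 : 𝓞 K) : K) * (idI t)⁻¹)
    {y : M} (hy : y ∈ D.toQuad.dualSet ξ (D.latP B)) :
    algebraMap K M (c / 2) * y ∈ D.latP B := by
  set f : K := (D.cond : K) with hf
  have hfM : algebraMap K M f ≠ 0 := D.condM_ne
  have hf0 : f ≠ 0 := fun h => hfM (by rw [h, map_zero])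
  have hfh : algebraMap K M f = 2 * algebraMap K M (D.half : K) := by
    rw [hf, D.cond_eq]; push_cast; simp [map_ofNat]
  refine FractionalIdeal.mem_singleton_mul.mpr
    ⟨algebraMap K M (c / 2) * y / algebraMap K M f, ?_, by
      show _ = algebraMap K M f * _
      field_simp⟩
  rw [mem_latL hp.ne_bot]
  intro β hβ
  -- reduce to the inverse different
  set W : M → M := fun u => u * algebraMap K M c * D.conj y / algebraMap K M f ^ 2 with hW
  suffices hkey : ∀ u ∈ ((D.toQuad.conjI B : Ideal (𝓞 M)) : FractionalIdeal (𝓞 M)⁰ M),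
      ∀ a : 𝓞 M, IsIntegral ℤ (Algebra.trace K M (W u * (a : M))) by
    have hβ' : ((D.toQuad.conjO β : 𝓞 M) : M) ∈
        ((D.toQuad.conjI B : Ideal (𝓞 M)) : FractionalIdeal (𝓞 M)⁰ M) :=
      FractionalIdeal.mem_coeIdeal_of_mem _
        (D.toQuad.mem_conjI.mpr (by rwa [Quad.conjO_conjO]))
    have h := (D.diff _ (hkey _ hβ')).map ((D.conj : M →ₐ[K] M).toRingHom.toIntAlgHom)
    convert! h using 1
    show algebraMap K M (c / 2) * y / algebraMap K M f * (β : M) =
      D.conj (algebraMap K M (D.half : K) * (D.conj (β : M) * algebraMap K M c * D.conj y /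
        algebraMap K M f ^ 2))
    simp only [map_mul, map_div₀, map_pow, map_ofNat, AlgEquiv.commutes, D.toQuad.conj_conj]
    field_simp
    rw [hfh]
    ring
  intro u hu
  rw [hp.conj_le, mul_left_comm] at hu
  obtain ⟨w, hw, rfl⟩ := FractionalIdeal.mem_singleton_mul.mp hu
  refine FractionalIdeal.mul_induction_on hw (fun l hl k' hk' => ?_) fun u v hu hv a => ?_
  · rw [← FractionalIdeal.mem_coe, FractionalIdeal.coe_extendedHom_eq_span] at hk'
    refine Submodule.span_induction ?_ ?_ ?_ ?_ hk'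
    · rintro _ ⟨k, hk, rfl⟩ a
      -- the element of the inverse different
      set e := D.toQuad.bil ξ (algebraMap K M f * ((a : M) * l)) y with he
      have heD : e ∈ invDiff K := mem_invDiff_of_psi fun o => by
        rw [he, ← D.toQuad.bil_smul_left]
        exact hy _ (intK_mem (D.mul_cond_mem_latP (smul_int_mem hl a)) o)
      have hprod : c * k * e ∈
          FractionalIdeal.spanSingleton (𝓞 K)⁰ ((D.cond ^ 3 : 𝓞 K) : K) := by
        have := FractionalIdeal.mul_mem_mul (FractionalIdeal.mul_mem_mul hc hk) heD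
        rwa [mul_assoc (_ * (idI t)⁻¹), ← idI_eq_tdI_mul, mul_assoc,
          inv_mul_cancel₀ (idI_ne_zero t), mul_one] at this
      obtain ⟨r, hr⟩ := (FractionalIdeal.mem_spanSingleton _).mp hprod
      have hT : Algebra.trace K M (W (algebraMap K M ξ * (l * algebraMap K M k)) * (a : M)) =
          c * k * e / ((D.cond ^ 3 : 𝓞 K) : K) := by
        rw [he, D.toQuad.bil_smul_left, Quad.bil, hW]
        rw [show algebraMap K M ξ * (l * algebraMap K M k) * algebraMap K M c * D.conj y /
          algebraMap K M f ^ 2 * (a : M) =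
          algebraMap K M (ξ * k * c / f ^ 2) * ((a : M) * l * D.conj y) by
            rw [map_div₀, map_mul, map_mul, map_pow]; ring]
        rw [← Algebra.smul_def, map_smul, smul_eq_mul]
        push_cast
        show _ = _ / f ^ 3
        field_simp
      rw [hT, ← hr, Algebra.smul_def, mul_div_assoc, div_self (by push_cast; exact pow_ne_zero 3 hf0),
        mul_one]
      exact r.isIntegral_coe
    · intro a; simp [hW, isIntegral_zero]
    · intro p q _ _ hp' hq' a
      have := (hp' a).add (hq' a)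
      convert! this using 1
      rw [← map_add]
      congr 1
      simp only [hW]
      ring
    · intro r p _ hp' a
      have := hp' (r * a)
      convert! this using 2
      simp only [hW, Algebra.smul_def, map_mul]
      ring
  · have := (hu a).add (hv a)
    convert! this using 1
    rw [← map_add]
    congr 1
    simp only [hW]
    ring

variable {D} in
/-- The lower left entries push the dual of the period lattice into it. -/
theorem IsPair.mem_latP_of_dual (hp : D.IsPair t ξ B) {c : K}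
    (hc : c ∈ FractionalIdeal.spanSingleton (𝓞 K)⁰ ((D.cond ^ 3 : 𝓞 K) : K) * (idI t)⁻¹)
    {y : M} (hy : y ∈ D.toQuad.dualSet ξ (D.latP B)) :
    algebraMap K M c * y ∈ D.latP B := by
  have h := hp.mem_latP_of_dual_half hc hy
  have := Submodule.add_mem (D.latP B : Submodule (𝓞 M) M) h h
  convert! this using 1
  rw [← add_mul, ← map_add, add_halves]

variable {D} in
/-- `b ξ N` is integral on the lattice for `b` in the ideal of `t`. -/
theorem IsPair.psi_norm (hp : D.IsPair t ξ B) {b : K} (hb : b ∈ idI t) {x : M} (hx : x ∈ latL B) :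
    psi (b * (ξ * Algebra.norm K x)) = 1 := by
  rw [idI_eq_tdI_mul] at hb
  refine FractionalIdeal.mul_induction_on hb (fun k hk e he => ?_) fun u v hu hv => ?_
  · have hi := hp.integral_of_mem hx hx hk
    rw [← D.toQuad.norm_eq, ← map_mul] at hi
    have h := psi_mul_invDiff he
      ⟨_, (isIntegral_algebraMap_iff (algebraMap K M).injective).mp hi⟩
    convert! h using 2
    show k * e * (ξ * Algebra.norm K x) = ξ * k * Algebra.norm K x * e
    ring
  · rw [add_mul, psi_add, hu, hv, one_mul]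

variable {D} in
/-- Nondegeneracy of the form on the period lattice. -/
theorem IsPair.exists_psi_ne (hp : D.IsPair t ξ B) {β : K}
    (hβ : FractionalIdeal.spanSingleton (𝓞 K)⁰ β *
      (FractionalIdeal.spanSingleton (𝓞 K)⁰ ((D.cond ^ 3 : 𝓞 K) : K) * (idI t)⁻¹) ≤ 1 → False) :
    ∃ x ∈ D.latP B, ∃ y ∈ D.latP B, psi (β * D.toQuad.bil ξ x y) ≠ 1 := by
  by_contra hcon
  push Not at hcon
  refine hβ fun z hz => ?_
  obtain ⟨c, hc, rfl⟩ := FractionalIdeal.mem_singleton_mul.mp hz
  have hstab : FractionalIdeal.spanSingleton (𝓞 M)⁰ (algebraMap K M (β * c)) * D.latP B ≤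
      D.latP B := fun u hu => by
    obtain ⟨y, hy, rfl⟩ := FractionalIdeal.mem_singleton_mul.mp hu
    rw [mul_comm β c, map_mul, mul_assoc]
    refine hp.mem_latP_of_dual hc fun x hx => ?_
    rw [D.toQuad.bil_smul_right]
    exact hcon x hx y hy
  have h1 : FractionalIdeal.spanSingleton (𝓞 M)⁰ (algebraMap K M (β * c)) ≤ 1 := by
    have h := mul_le_mul_left hstab (D.latP B)⁻¹
    rwa [mul_assoc, mul_inv_cancel₀ (D.latP_ne_zero hp.ne_bot), mul_one] at h
  have h2 := isIntegral_of_mem_one (FractionalIdeal.spanSingleton_le_iff_mem.mp h1)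
  exact mem_one_of_isIntegral ((isIntegral_algebraMap_iff (algebraMap K M).injective).mp h2)

/-- The character on principal ideals, periodic modulo `cond`. -/
def chiElt (r : 𝓞 M) : ℂ :=
  open Classical in
  if r = 0 then (if IsUnit D.cond then 1 else 0) else D.chi (Ideal.span {r})

theorem chiElt_congr {r s : 𝓞 M} (h : algebraMap (𝓞 K) (𝓞 M) D.cond ∣ r - s) :
    D.chiElt r = D.chiElt s := by
  have key : ∀ s : 𝓞 M, s ≠ 0 → algebraMap (𝓞 K) (𝓞 M) D.cond ∣ s →
      D.chi (Ideal.span {s}) = D.chiElt 0 := fun s hs hd => by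
    rw [chiElt, if_pos rfl]
    split_ifs with hu
    · rw [D.chi_periodic s 1 hs one_ne_zero ((hu.map _).dvd), Ideal.span_singleton_one,
        ← Ideal.one_eq_top, map_one]
    · refine D.chi_eq_zero _ fun htop => hu ?_
      rw [← Ideal.span_singleton_eq_top]
      refine extI_injective (K := K) (M := M) ?_
      show extI K M _ = extI K M ⊤
      rw [extI, extI, Ideal.map_span, Set.image_singleton, Ideal.map_top, ← htop, eq_comm,
        sup_eq_right, Ideal.span_singleton_le_span_singleton]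
      exact hd
  by_cases hr : r = 0 <;> by_cases hs : s = 0
  · rw [hr, hs]
  · subst hr
    rw [zero_sub, dvd_neg] at h
    rw [← key s hs h]
    exact (if_neg hs).symm
  · subst hs
    rw [sub_zero] at h
    rw [← key r hr h]
    exact if_neg hr
  · rw [chiElt, chiElt, if_neg hr, if_neg hs, D.chi_periodic r s hr hs h]

/-- The weight `χ(x 𝔅)` on the lattice, extended by periodicity to `0` and by zero outside. -/
def wt (B : Ideal (𝓞 M)) (x : M) : ℂ :=
  open Classical in
  if x = 0 then (if IsUnit D.cond then D.chi B else 0)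
  else if h : ∃ I : Ideal (𝓞 M), (I : FractionalIdeal (𝓞 M)⁰ M) =
      FractionalIdeal.spanSingleton (𝓞 M)⁰ x * (B : FractionalIdeal (𝓞 M)⁰ M)
    then D.chi h.choose else 0

theorem wt_of_eq {x : M} (hx : x ≠ 0) {I : Ideal (𝓞 M)}
    (hI : (I : FractionalIdeal (𝓞 M)⁰ M) =
      FractionalIdeal.spanSingleton (𝓞 M)⁰ x * (B : FractionalIdeal (𝓞 M)⁰ M)) :
    D.wt B x = D.chi I := by
  rw [wt, if_neg hx, dif_pos ⟨I, hI⟩]
  congr 1
  refine FractionalIdeal.coeIdeal_injective (R := 𝓞 M) (K := M) ?_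
  exact (Exists.choose_spec (⟨I, hI⟩ : ∃ I : Ideal (𝓞 M), (I : FractionalIdeal (𝓞 M)⁰ M) =
    FractionalIdeal.spanSingleton (𝓞 M)⁰ x * (B : FractionalIdeal (𝓞 M)⁰ M))).trans hI.symm

theorem wt_eq_zero_of_notMem (hB : B ≠ ⊥) {x : M} (hx : x ∉ latL B) : D.wt B x = 0 := by
  have hx0 : x ≠ 0 := fun h => hx (h ▸ Submodule.zero_mem (latL B : Submodule (𝓞 M) M))
  rw [wt, if_neg hx0, dif_neg]
  rintro ⟨I, hI⟩
  refine hx ((mem_latL hB).mpr fun β hβ => isIntegral_of_mem_one ?_)
  refine FractionalIdeal.coeIdeal_le_one (I := I) ?_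
  rw [hI]
  exact FractionalIdeal.mul_mem_mul (FractionalIdeal.mem_spanSingleton_self _ _)
    (FractionalIdeal.mem_coeIdeal_of_mem _ hβ)

theorem norm_chi_le (I : Ideal (𝓞 M)) : ‖D.chi I‖ ≤ 1 := by
  by_cases h : I = ⊥
  · rw [h, D.chi_bot, norm_zero]; exact zero_le_one
  by_cases h' : I ⊔ Ideal.span {algebraMap (𝓞 K) (𝓞 M) D.cond} = ⊤
  · exact (D.norm_chi I h h').le
  · rw [D.chi_eq_zero I h', norm_zero]; exact zero_le_one

theorem norm_wt_le (B : Ideal (𝓞 M)) (x : M) : ‖D.wt B x‖ ≤ 1 := by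
  rw [wt]
  split_ifs
  · exact D.norm_chi_le B
  · rw [norm_zero]; exact zero_le_one
  · exact D.norm_chi_le _
  · rw [norm_zero]; exact zero_le_one

theorem wt_add_of_mem (hB : B ≠ ⊥) {x p : M} (hx : x ∈ latL B) (hp : p ∈ D.latP B) :
    D.wt B (x + p) = D.wt B x := by
  set f := algebraMap (𝓞 K) (𝓞 M) D.cond with hf
  have hf0 : Ideal.span {f} ≠ (⊥ : Ideal (𝓞 M)) := by
    rw [Ne, Ideal.span_singleton_eq_bot, hf, map_eq_zero_iff _ algebraMap_int_injective]
    exact D.cond_ne
  obtain ⟨Q, hQ⟩ := Ideal.exists_maximal (𝓞 M)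
  have hQ0 : Q ≠ ⊥ := Ring.ne_bot_of_isMaximal_of_not_isField hQ (RingOfIntegers.not_isField M)
  obtain ⟨β, hβB, J, hJ, hcop⟩ := exists_generator_coprime hB (mul_ne_zero hf0 hQ0)
  have hJ0 : J ≠ ⊥ := by
    rintro rfl
    rw [sup_bot_eq] at hcop
    exact hQ.ne_top (top_le_iff.mp (hcop ▸ Ideal.mul_le_right))
  have hJf : J ⊔ Ideal.span {f} = ⊤ := by
    rw [sup_comm, eq_top_iff, ← hcop]
    exact sup_le_sup_right Ideal.mul_le_left _
  have hchiJ : D.chi J ≠ 0 := fun h => by
    have := D.norm_chi J hJ0 hJf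
    rw [h, norm_zero] at this
    exact zero_ne_one this
  have hβ0 : β ≠ 0 := fun h => by
    rw [h, Ideal.span_singleton_zero] at hJ
    exact mul_ne_zero hB hJ0 hJ.symm
  have hβM : (β : M) ≠ 0 := by exact_mod_cast hβ0
  -- the weight in terms of the character on principal ideals
  have hkey : ∀ y, y ∈ latL B → ∀ r : 𝓞 M, (r : M) = y * (β : M) →
      D.wt B y * D.chi J = D.chiElt r := by
    intro y hy r hr
    by_cases hy0 : y = 0
    · have hr0 : r = 0 := by
        apply RingOfIntegers.ext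
        rw [hr, hy0, zero_mul]; push_cast; rfl
      rw [wt, if_pos hy0, chiElt, if_pos hr0]
      split_ifs with hu
      · rw [← map_mul, ← hJ, D.chi_periodic β 1 hβ0 one_ne_zero ((hu.map _).dvd),
          Ideal.span_singleton_one, ← Ideal.one_eq_top, map_one]
      · exact zero_mul _
    · have hr0 : r ≠ 0 := by
        rintro rfl
        push_cast at hr
        exact mul_ne_zero hy0 hβM hr.symm
      obtain ⟨I, hI⟩ := exists_ideal_of_mem hB hy
      rw [D.wt_of_eq hy0 hI, chiElt, if_neg hr0, ← map_mul]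
      congr 1
      refine FractionalIdeal.coeIdeal_injective (R := 𝓞 M) (K := M) ?_
      show ((I * J : Ideal (𝓞 M)) : FractionalIdeal (𝓞 M)⁰ M) =
        ((Ideal.span {r} : Ideal (𝓞 M)) : FractionalIdeal (𝓞 M)⁰ M)
      rw [FractionalIdeal.coeIdeal_mul, hI, mul_assoc, ← FractionalIdeal.coeIdeal_mul, ← hJ,
        FractionalIdeal.coeIdeal_span_singleton, FractionalIdeal.coeIdeal_span_singleton,
        FractionalIdeal.spanSingleton_mul_spanSingleton]
      exact congrArg _ hr.symm
  obtain ⟨l, hl, rfl⟩ := FractionalIdeal.mem_singleton_mul.mp hp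
  obtain ⟨r, hr⟩ : ∃ r : 𝓞 M, (r : M) = x * (β : M) := ⟨⟨_, (mem_latL hB).mp hx β hβB⟩, rfl⟩
  obtain ⟨e, he⟩ : ∃ e : 𝓞 M, (e : M) = l * (β : M) := ⟨⟨_, (mem_latL hB).mp hl β hβB⟩, rfl⟩
  refine mul_right_cancel₀ hchiJ ?_
  rw [hkey x hx r hr, hkey (x + algebraMap K M (D.cond : K) * l)
    (Submodule.add_mem (latL B : Submodule (𝓞 M) M) hx (intK_mem hl D.cond)) (r + f * e) (by
      show (r : M) + (f : M) * (e : M) = _
      rw [hr, he, hf, algebraMap_coe_int]; ring)]
  exact D.chiElt_congr ⟨e, by ring⟩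

end GenDihData

end Fermat.Agent.Extra.LTGen

end
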