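import Fermat.Agent.Extra.LTGen.Dihedral.Cusps
import Fermat.Agent.Extra.LTGen.Dihedral.Eigen
import Fermat.Agent.Extra.LTGen.Dihedral.Pieces

/-!
# The theta side of the general C1
-/

set_option autoImplicit false

noncomputable section

namespace Fermat.Agent.Extra.LTGen

open Fermat.Agent.LT Fermat.Agent.LT.Dihedral
open NumberField IsDedekindDomain Fermat.Agent.LT.Adelic

/-- **C1, theta side**: data give a cusp form with the eigenvalues of the data. -/
theorem stmtThetaGen : StmtThetaGen := by
  intro K M _ _ _ _ _ D Φ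
  obtain ⟨E, hE, -⟩ := exists_isUnfoldGroup D.toQuad (one_ne_zero (α := 𝓞 M))
  obtain ⟨c, h⟩ := GenDihData.exists_repsHyp (D := D) hE
  obtain ⟨φ, hinv, hF⟩ := exists_invariant_of_glueHyp (pow_ne_zero 3 D.cond_ne)
    (GenDihData.glueHyp_formF Φ h hE)
  exact ⟨levelF K (D.cond ^ 3), φ, principalLevel_le_levelF _, levelF_le_one _,
    GenDihData.isCuspEigen_formF Φ h hE hinv hF,
    fun v hv => GenDihData.isHeckeEigenAt_formF Φ h hE φ hinv hF hv⟩

end Fermat.Agent.Extra.LTGen

end
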